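import Mathlib.AlgebraicGeometry.EllipticCurve.Affine.Point

/-!
# S52 / BR — the bridge from the short model `Y² = X³ − 27 c₄ X − 54 c₆` to `W`

For a Weierstrass curve `W` over a field `F` with `6 ≠ 0` and a curve `E` with
`a₁ = a₂ = a₃ = 0`, `a₄ = −27 c₄(W)`, `a₆ = −54 c₆(W)` (`BrShort E W`), the map
`(X, Y) ↦ (x, y)`, `x = (X − 3 b₂)/36`, `y = (Y/108 − a₁ x − a₃)/2`, `0 ↦ 0` is an injective
homomorphism of groups `brMap : E.Point →+ W.Point`, compatible with `Point.map`.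
-/

set_option autoImplicit false

namespace Fermat.Agent.S52

open WeierstrassCurve WeierstrassCurve.Affine

/-- the short model with invariants `c4`, `c6`. -/
def brShortW {R : Type*} [CommRing R] (c4 c6 : R) : WeierstrassCurve R :=
  ⟨0, 0, 0, -27 * c4, -54 * c6⟩

/-- `E` is the short model `Y² = X³ − 27 c₄ X − 54 c₆` of `W`. -/
structure BrShort {R : Type*} [CommRing R] (E W : WeierstrassCurve R) : Prop where
  a₁ : E.a₁ = 0
  a₂ : E.a₂ = 0
  a₃ : E.a₃ = 0
  a₄ : E.a₄ = -27 * W.c₄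
  a₆ : E.a₆ = -54 * W.c₆

theorem brShort_brShortW {R : Type*} [CommRing R] (W : WeierstrassCurve R) :
    BrShort (brShortW W.c₄ W.c₆) W :=
  ⟨rfl, rfl, rfl, rfl, rfl⟩

theorem brShort_of_eq {R : Type*} [CommRing R] {W : WeierstrassCurve R} {c4 c6 : R}
    (h4 : c4 = W.c₄) (h6 : c6 = W.c₆) : BrShort (brShortW c4 c6) W := by
  subst h4
  subst h6
  exact brShort_brShortW W

theorem BrShort.map {R S : Type*} [CommRing R] [CommRing S] {E W : WeierstrassCurve R}
    (h : BrShort E W) (f : R →+* S) : BrShort (E.map f) (W.map f) := by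
  refine ⟨?_, ?_, ?_, ?_, ?_⟩
  · simp [h.a₁]
  · simp [h.a₂]
  · simp [h.a₃]
  · simp [h.a₄, WeierstrassCurve.map_c₄, map_ofNat]
  · simp [h.a₆, WeierstrassCurve.map_c₆, map_ofNat]

theorem BrShort.baseChange {R : Type*} [CommRing R] {E W : WeierstrassCurve R}
    (h : BrShort E W) (A : Type*) [CommRing A] [Algebra R A] : BrShort (E⁄A) (W⁄A) :=
  h.map (algebraMap R A)

section Field

variable {F : Type*} [Field F]

/-- the `x`-coordinate on `W` of the point with `X`-coordinate `X` on the short model. -/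
noncomputable def brX (W : WeierstrassCurve F) (X : F) : F := (X - 3 * W.b₂) / 36

/-- the `y`-coordinate on `W` of the point `(X, Y)` of the short model. -/
noncomputable def brY (W : WeierstrassCurve F) (X Y : F) : F :=
  (Y / 108 - W.a₁ * brX W X - W.a₃) / 2

variable {E W : WeierstrassCurve F}

theorem br_two_ne (h6 : (6 : F) ≠ 0) : (2 : F) ≠ 0 :=
  fun h => h6 (by rw [show (6 : F) = 2 * 3 by norm_num, h, zero_mul])

theorem br_three_ne (h6 : (6 : F) ≠ 0) : (3 : F) ≠ 0 :=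
  fun h => h6 (by rw [show (6 : F) = 2 * 3 by norm_num, h, mul_zero])

theorem br_36_ne (h6 : (6 : F) ≠ 0) : (36 : F) ≠ 0 := by
  rw [show (36 : F) = 6 ^ 2 by norm_num]
  exact pow_ne_zero 2 h6

theorem br_108_ne (h6 : (6 : F) ≠ 0) : (108 : F) ≠ 0 := by
  rw [show (108 : F) = 6 ^ 2 * 3 by norm_num]
  exact mul_ne_zero (pow_ne_zero 2 h6) (br_three_ne h6)

theorem br_X_eq (W : WeierstrassCurve F) (h6 : (6 : F) ≠ 0) (X : F) :
    X = 36 * brX W X + 3 * W.b₂ := by
  have h36 := br_36_ne h6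
  rw [brX, mul_div_cancel₀ _ h36]
  ring

theorem br_Y_eq (W : WeierstrassCurve F) (h6 : (6 : F) ≠ 0) (X Y : F) :
    Y = 108 * (2 * brY W X Y + W.a₁ * brX W X + W.a₃) := by
  have h2 := br_two_ne h6
  have h108 := br_108_ne h6
  rw [brY, mul_div_cancel₀ _ h2]
  have : 108 * (Y / 108) = Y := mul_div_cancel₀ _ h108
  linear_combination -this

theorem brX_injective (W : WeierstrassCurve F) (h6 : (6 : F) ≠ 0) {X X' : F}
    (h : brX W X = brX W X') : X = X' := by
  rw [br_X_eq W h6 X, br_X_eq W h6 X', h]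

theorem brX_injective' {W : WeierstrassCurve F} (h6 : (6 : F) ≠ 0) {x : F} {X' : F}
    (h : 36 * x + 3 * W.b₂ = 36 * brX W X' + 3 * W.b₂) : x = brX W X' := by
  have h36 := br_36_ne h6
  have : 36 * x = 36 * brX W X' := by linear_combination h
  exact mul_left_cancel₀ h36 this

theorem brY_injective (W : WeierstrassCurve F) (h6 : (6 : F) ≠ 0) {X Y Y' : F}
    (h : brY W X Y = brY W X Y') : Y = Y' := by
  rw [br_Y_eq W h6 X Y, br_Y_eq W h6 X Y', h]

/-- the polynomial of the short model is `46656` times the polynomial of `W`. -/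
theorem br_key (hE : BrShort E W) (h6 : (6 : F) ≠ 0) (X Y : F) :
    Y ^ 2 + E.a₁ * X * Y + E.a₃ * Y - (X ^ 3 + E.a₂ * X ^ 2 + E.a₄ * X + E.a₆) =
      46656 * ((brY W X Y) ^ 2 + W.a₁ * brX W X * brY W X Y + W.a₃ * brY W X Y -
        ((brX W X) ^ 3 + W.a₂ * (brX W X) ^ 2 + W.a₄ * brX W X + W.a₆)) := by
  have hX := br_X_eq W h6 X
  have hY := br_Y_eq W h6 X Y
  generalize brY W X Y = y at hY ⊢
  generalize brX W X = x at hX hY ⊢
  subst hX
  subst hY
  rw [hE.a₁, hE.a₂, hE.a₃, hE.a₄, hE.a₆]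
  simp only [WeierstrassCurve.c₄, WeierstrassCurve.c₆, WeierstrassCurve.b₂, WeierstrassCurve.b₄,
    WeierstrassCurve.b₆]
  ring

theorem br_ne46656 (h6 : (6 : F) ≠ 0) : (46656 : F) ≠ 0 := by
  rw [show (46656 : F) = 6 ^ 6 by norm_num]
  exact pow_ne_zero 6 h6

theorem br_equation (hE : BrShort E W) (h6 : (6 : F) ≠ 0) (X Y : F) :
    E.toAffine.Equation X Y ↔ W.toAffine.Equation (brX W X) (brY W X Y) := by
  rw [Affine.equation_iff', Affine.equation_iff', br_key hE h6]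
  constructor
  · intro h
    rcases mul_eq_zero.mp h with h | h
    · exact absurd h (br_ne46656 h6)
    · exact h
  · intro h
    rw [h, mul_zero]

/-- the partial derivatives. -/
theorem br_dY (hE : BrShort E W) (h6 : (6 : F) ≠ 0) (X Y : F) :
    2 * Y + E.a₁ * X + E.a₃ = 216 * (2 * brY W X Y + W.a₁ * brX W X + W.a₃) := by
  have hY := br_Y_eq W h6 X Y
  rw [hE.a₁, hE.a₃]
  linear_combination 2 * hY

theorem br_dX (hE : BrShort E W) (h6 : (6 : F) ≠ 0) (X Y : F) :
    E.a₁ * Y - (3 * X ^ 2 + 2 * E.a₂ * X + E.a₄) =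
      1296 * (W.a₁ * brY W X Y - (3 * (brX W X) ^ 2 + 2 * W.a₂ * brX W X + W.a₄)) -
        648 * W.a₁ * (2 * brY W X Y + W.a₁ * brX W X + W.a₃) := by
  have hX := br_X_eq W h6 X
  generalize brY W X Y = y
  generalize brX W X = x at hX ⊢
  subst hX
  rw [hE.a₁, hE.a₂, hE.a₄]
  simp only [WeierstrassCurve.c₄, WeierstrassCurve.b₂, WeierstrassCurve.b₄]
  ring

theorem br_nonsingular (hE : BrShort E W) (h6 : (6 : F) ≠ 0) {X Y : F}
    (h : E.toAffine.Nonsingular X Y) : W.toAffine.Nonsingular (brX W X) (brY W X Y) := by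
  rw [Affine.nonsingular_iff'] at h ⊢
  refine ⟨(br_equation hE h6 X Y).mp h.1, ?_⟩
  by_contra hcon
  rw [not_or, not_not, not_not] at hcon
  rcases h.2 with h1 | h1
  · apply h1
    rw [br_dX hE h6, hcon.1, hcon.2]
    ring
  · apply h1
    rw [br_dY hE h6, hcon.2]
    ring

theorem br_negY (hE : BrShort E W) (h6 : (6 : F) ≠ 0) (X Y : F) :
    brY W X (E.toAffine.negY X Y) = W.toAffine.negY (brX W X) (brY W X Y) := by
  have h1 := br_Y_eq W h6 X Y
  have h2 := br_Y_eq W h6 X (E.toAffine.negY X Y)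
  have h108 := br_108_ne h6
  have h2' := br_two_ne h6
  simp only [Affine.negY, hE.a₁, hE.a₃] at h2 ⊢
  have key : 216 * (brY W X (-Y - 0 * X - 0)) =
      216 * (-brY W X Y - W.a₁ * brX W X - W.a₃) := by
    linear_combination -h2 - h1
  have h216 : (216 : F) ≠ 0 := by
    rw [show (216 : F) = 2 * 108 by norm_num]
    exact mul_ne_zero h2' h108
  exact mul_left_cancel₀ h216 key

theorem br_L_eq (h6 : (6 : F) ≠ 0) (L a : F) : L = 6 * (L / 6 - a / 2) + 3 * a := by
  have h2 := br_two_ne h6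
  field_simp
  ring

theorem br_addX (hE : BrShort E W) (h6 : (6 : F) ≠ 0) (X₁ X₂ L : F) :
    W.toAffine.addX (brX W X₁) (brX W X₂) (L / 6 - W.a₁ / 2) =
      brX W (E.toAffine.addX X₁ X₂ L) := by
  have e1 := br_X_eq W h6 X₁
  have e2 := br_X_eq W h6 X₂
  have e3 := br_L_eq h6 L W.a₁
  apply brX_injective' h6
  rw [← br_X_eq W h6]
  simp only [Affine.addX, hE.a₁, hE.a₂]
  generalize L / 6 - W.a₁ / 2 = m at e3 ⊢
  subst e3
  rw [WeierstrassCurve.b₂] at e1 e2 ⊢
  linear_combination e1 + e2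

theorem br_addY (hE : BrShort E W) (h6 : (6 : F) ≠ 0) (X₁ X₂ Y₁ L : F) :
    W.toAffine.addY (brX W X₁) (brX W X₂) (brY W X₁ Y₁) (L / 6 - W.a₁ / 2) =
      brY W (E.toAffine.addX X₁ X₂ L) (E.toAffine.addY X₁ X₂ Y₁ L) := by
  have hx := br_addX hE h6 X₁ X₂ L
  have e1 := br_X_eq W h6 X₁
  have e3 := br_L_eq h6 L W.a₁
  have e4 := br_X_eq W h6 (E.toAffine.addX X₁ X₂ L)
  have e5 := br_Y_eq W h6 X₁ Y₁
  have e6 := br_Y_eq W h6 (E.toAffine.addX X₁ X₂ L) (E.toAffine.addY X₁ X₂ Y₁ L)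
  have h216 : (216 : F) ≠ 0 := by
    rw [show (216 : F) = 2 * 108 by norm_num]
    exact mul_ne_zero (br_two_ne h6) (br_108_ne h6)
  apply mul_left_cancel₀ h216
  simp only [Affine.addY, Affine.negAddY, Affine.negY] at e6 ⊢
  rw [hx]
  simp only [hE.a₁, hE.a₃] at e6 ⊢
  generalize brY W (E.toAffine.addX X₁ X₂ L) (-(L * (E.toAffine.addX X₁ X₂ L - X₁) + Y₁) -
    0 * E.toAffine.addX X₁ X₂ L - 0) = y₃ at e6 ⊢
  generalize brX W (E.toAffine.addX X₁ X₂ L) = x₃ at e4 e6 ⊢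
  generalize E.toAffine.addX X₁ X₂ L = X₃ at e4 e6 ⊢
  generalize L / 6 - W.a₁ / 2 = m at e3 ⊢
  generalize brY W X₁ Y₁ = y₁ at e5 ⊢
  generalize brX W X₁ = x₁ at e1 e5 ⊢
  subst e3
  subst e1
  subst e4
  subst e5
  linear_combination e6

variable [DecidableEq F]

theorem br_slope (hE : BrShort E W) (h6 : (6 : F) ≠ 0) {X₁ X₂ Y₁ Y₂ : F}
    (h₁ : E.toAffine.Equation X₁ Y₁) (h₂ : E.toAffine.Equation X₂ Y₂)
    (hxy : ¬(X₁ = X₂ ∧ Y₁ = E.toAffine.negY X₂ Y₂)) :
    W.toAffine.slope (brX W X₁) (brX W X₂) (brY W X₁ Y₁) (brY W X₂ Y₂) =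
      E.toAffine.slope X₁ X₂ Y₁ Y₂ / 6 - W.a₁ / 2 := by
  have h2 := br_two_ne h6
  have h3 := br_three_ne h6
  have h36 := br_36_ne h6
  have h108 := br_108_ne h6
  by_cases hx : X₁ = X₂
  · have hy : Y₁ ≠ E.toAffine.negY X₂ Y₂ := fun h => hxy ⟨hx, h⟩
    have hYY : Y₁ = Y₂ := Affine.Y_eq_of_Y_ne h₁ h₂ hx hy
    subst hx
    subst hYY
    have hy' : brY W X₁ Y₁ ≠ W.toAffine.negY (brX W X₁) (brY W X₁ Y₁) := by
      intro h
      rw [← br_negY hE h6] at h
      exact hy (brY_injective W h6 h)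
    rw [Affine.slope_of_Y_ne rfl hy, Affine.slope_of_Y_ne rfl hy']
    have d1 := br_dY hE h6 X₁ Y₁
    have d2 := br_dX hE h6 X₁ Y₁
    have hdE : Y₁ - E.toAffine.negY X₁ Y₁ ≠ 0 := sub_ne_zero.mpr hy
    have hdW : brY W X₁ Y₁ - W.toAffine.negY (brX W X₁) (brY W X₁ Y₁) ≠ 0 := sub_ne_zero.mpr hy'
    simp only [Affine.negY] at hdE hdW ⊢
    rw [div_eq_iff hdW]
    have e : (3 * X₁ ^ 2 + 2 * E.toAffine.a₂ * X₁ + E.toAffine.a₄ - E.toAffine.a₁ * Y₁) /
        (Y₁ - (-Y₁ - E.toAffine.a₁ * X₁ - E.toAffine.a₃)) * (Y₁ - (-Y₁ - E.toAffine.a₁ * X₁ - E.toAffine.a₃))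
        = 3 * X₁ ^ 2 + 2 * E.toAffine.a₂ * X₁ + E.toAffine.a₄ - E.toAffine.a₁ * Y₁ :=
      div_mul_cancel₀ _ hdE
    generalize (3 * X₁ ^ 2 + 2 * E.toAffine.a₂ * X₁ + E.toAffine.a₄ - E.toAffine.a₁ * Y₁) /
        (Y₁ - (-Y₁ - E.toAffine.a₁ * X₁ - E.toAffine.a₃)) = L at e ⊢
    have e6 : (6 : F) * (L / 6) = L := mul_div_cancel₀ _ h6
    have e2 : (2 : F) * (W.a₁ / 2) = W.a₁ := mul_div_cancel₀ _ h2
    have hd : Y₁ - (-Y₁ - E.toAffine.a₁ * X₁ - E.toAffine.a₃) =
        216 * (brY W X₁ Y₁ - (-brY W X₁ Y₁ - W.toAffine.a₁ * brX W X₁ - W.toAffine.a₃)) := by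
      linear_combination d1
    rw [hd] at e
    generalize L / 6 = L6 at e6 ⊢
    generalize W.a₁ / 2 = a2 at e2 ⊢
    subst e6
    have e2' : W.toAffine.a₁ = 2 * a2 := e2.symm
    have key : (1296 : F) * (3 * brX W X₁ ^ 2 + 2 * W.toAffine.a₂ * brX W X₁ + W.toAffine.a₄ -
        W.toAffine.a₁ * brY W X₁ Y₁) = 1296 * ((L6 - a2) *
          (brY W X₁ Y₁ - (-brY W X₁ Y₁ - W.toAffine.a₁ * brX W X₁ - W.toAffine.a₃))) := by
      linear_combination d2 - e - (648 : F) * (2 * brY W X₁ Y₁ + W.toAffine.a₁ * brX W X₁ +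
        W.toAffine.a₃) * e2'
    have h1296 : (1296 : F) ≠ 0 := by
      rw [show (1296 : F) = 36 * 36 by norm_num]
      exact mul_ne_zero h36 h36
    exact mul_left_cancel₀ h1296 key
  · have hx' : brX W X₁ ≠ brX W X₂ := fun h => hx (brX_injective W h6 h)
    rw [Affine.slope_of_X_ne hx, Affine.slope_of_X_ne hx']
    have hdE : X₁ - X₂ ≠ 0 := sub_ne_zero.mpr hx
    have hdW : brX W X₁ - brX W X₂ ≠ 0 := sub_ne_zero.mpr hx'
    have e1 := br_X_eq W h6 X₁
    have e2 := br_X_eq W h6 X₂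
    have e3 := br_Y_eq W h6 X₁ Y₁
    have e4 := br_Y_eq W h6 X₂ Y₂
    rw [div_eq_iff hdW]
    have e : (Y₁ - Y₂) / (X₁ - X₂) * (X₁ - X₂) = Y₁ - Y₂ := div_mul_cancel₀ _ hdE
    generalize (Y₁ - Y₂) / (X₁ - X₂) = L at e ⊢
    have e6 : (6 : F) * (L / 6) = L := mul_div_cancel₀ _ h6
    have e2a : (2 : F) * (W.a₁ / 2) = W.a₁ := mul_div_cancel₀ _ h2
    generalize L / 6 = L6 at e6 ⊢
    generalize W.a₁ / 2 = a2 at e2a ⊢
    subst e6
    have e2' : W.a₁ = 2 * a2 := e2a.symm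
    have hXX : X₁ - X₂ = 36 * (brX W X₁ - brX W X₂) := by linear_combination e1 - e2
    have hYY : Y₁ - Y₂ = 108 * (2 * (brY W X₁ Y₁ - brY W X₂ Y₂) +
        W.a₁ * (brX W X₁ - brX W X₂)) := by linear_combination e3 - e4
    rw [hXX, hYY] at e
    have key : (216 : F) * (brY W X₁ Y₁ - brY W X₂ Y₂) =
        216 * ((L6 - a2) * (brX W X₁ - brX W X₂)) := by
      linear_combination -e - (108 : F) * (brX W X₁ - brX W X₂) * e2'
    have h216 : (216 : F) ≠ 0 := by
      rw [show (216 : F) = 2 * 108 by norm_num]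
      exact mul_ne_zero h2 h108
    exact mul_left_cancel₀ h216 key

/-- **BR**: the bridge homomorphism from the short model to `W`. -/
noncomputable def brMap (hE : BrShort E W) (h6 : (6 : F) ≠ 0) :
    E.toAffine.Point →+ W.toAffine.Point where
  toFun P := match P with
    | 0 => 0
    | .some X Y h => .some (brX W X) (brY W X Y) (br_nonsingular hE h6 h)
  map_zero' := rfl
  map_add' := by
    rintro (_ | ⟨X₁, Y₁, h₁⟩) (_ | ⟨X₂, Y₂, h₂⟩)
    any_goals rfl
    by_cases hxy : X₁ = X₂ ∧ Y₁ = E.toAffine.negY X₂ Y₂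
    · obtain ⟨hx, hy⟩ := hxy
      subst hx
      subst hy
      rw [Affine.Point.add_of_Y_eq rfl rfl]
      exact (Affine.Point.add_of_Y_eq rfl (br_negY hE h6 _ _)).symm
    · have hxy' : ¬(brX W X₁ = brX W X₂ ∧
          brY W X₁ Y₁ = W.toAffine.negY (brX W X₂) (brY W X₂ Y₂)) := by
        rintro ⟨hx, hy⟩
        have hx' := brX_injective W h6 hx
        subst hx'
        rw [← br_negY hE h6] at hy
        exact hxy ⟨rfl, brY_injective W h6 hy⟩
      rw [Affine.Point.add_some hxy]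
      refine Eq.trans ?_ (Affine.Point.add_some hxy').symm
      have hs := br_slope hE h6 h₁.1 h₂.1 hxy
      simp only [Affine.Point.some.injEq]
      rw [hs]
      exact ⟨(br_addX hE h6 X₁ X₂ _).symm, (br_addY hE h6 X₁ X₂ Y₁ _).symm⟩

@[simp]
theorem brMap_zero (hE : BrShort E W) (h6 : (6 : F) ≠ 0) :
    brMap hE h6 (0 : E.toAffine.Point) = 0 := rfl

@[simp]
theorem brMap_some (hE : BrShort E W) (h6 : (6 : F) ≠ 0) {X Y : F}
    (h : E.toAffine.Nonsingular X Y) :
    brMap hE h6 (.some X Y h) = .some (brX W X) (brY W X Y) (br_nonsingular hE h6 h) := rfl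

theorem brMap_injective (hE : BrShort E W) (h6 : (6 : F) ≠ 0) :
    Function.Injective (brMap hE h6) := by
  rintro (_ | ⟨X₁, Y₁, h₁⟩) (_ | ⟨X₂, Y₂, h₂⟩) h
  · rfl
  · exact absurd h (Affine.Point.some_ne_zero _).symm
  · exact absurd h (Affine.Point.some_ne_zero _)
  · rw [brMap_some, brMap_some, Affine.Point.some.injEq] at h
    have hx := brX_injective W h6 h.1
    subst hx
    have hy := brY_injective W h6 h.2
    subst hy
    rfl

end Field

/-! ## Compatibility with ring homomorphisms and `Point.map` -/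

section Map

variable {F K : Type*} [Field F] [Field K]

theorem brX_map (f : F →+* K) (W : WeierstrassCurve F) (X : F) :
    f (brX W X) = brX (W.map f) (f X) := by
  simp only [brX, map_div₀, map_sub, map_mul, map_ofNat, WeierstrassCurve.map_b₂]

theorem brY_map (f : F →+* K) (W : WeierstrassCurve F) (X Y : F) :
    f (brY W X Y) = brY (W.map f) (f X) (f Y) := by
  simp only [brY, map_div₀, map_sub, map_mul, map_ofNat, brX_map, WeierstrassCurve.map_a₁,
    WeierstrassCurve.map_a₃]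

variable {R S : Type*} [CommRing R] [CommRing S] [Algebra R S] [Algebra R F] [Algebra S F]
  [IsScalarTower R S F] [Algebra R K] [Algebra S K] [IsScalarTower R S K]

/-- coordinate form of the compatibility: `x`-coordinate. -/
theorem brX_baseChange (W' : WeierstrassCurve R) (f : F →ₐ[S] K) (X : F) :
    f (brX (W'⁄F) X) = brX (W'⁄K) (f X) := by
  have h := brX_map (f : F →+* K) (W'⁄F) X
  rw [WeierstrassCurve.map_baseChange] at h
  exact h

/-- coordinate form of the compatibility: `y`-coordinate. -/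
theorem brY_baseChange (W' : WeierstrassCurve R) (f : F →ₐ[S] K) (X Y : F) :
    f (brY (W'⁄F) X Y) = brY (W'⁄K) (f X) (f Y) := by
  have h := brY_map (f : F →+* K) (W'⁄F) X Y
  rw [WeierstrassCurve.map_baseChange] at h
  exact h

variable [DecidableEq F] [DecidableEq K]

/-- `Point.map f` of a bridged point, in coordinates; here the short model `E` over `F` is
arbitrary (not necessarily a base change). -/
theorem map_brMap_some {W' : WeierstrassCurve R} {E : WeierstrassCurve F}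
    (hE : BrShort E (W'⁄F)) (h6 : (6 : F) ≠ 0) (f : F →ₐ[S] K) {X Y : F}
    (h : E.toAffine.Nonsingular X Y) :
    Affine.Point.map (W' := W') f (brMap hE h6 (.some X Y h)) =
      .some (brX (W'⁄K) (f X)) (brY (W'⁄K) (f X) (f Y))
        (by
          rw [← brX_baseChange, ← brY_baseChange]
          exact (Affine.baseChange_nonsingular W' f.injective ..).mpr
            (br_nonsingular hE h6 h)) := by
  rw [brMap_some, Affine.Point.map_some]
  simp only [Affine.Point.some.injEq]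
  exact ⟨brX_baseChange W' f X, brY_baseChange W' f X Y⟩

/-- `Point.map f` of a bridged point is the bridged point with coordinates `f X`, `f Y`
(the form used with explicit torsion points: `E`, `E₂` arbitrary short models of `W'⁄F`,
`W'⁄K`). -/
theorem map_brMap_eq {W' : WeierstrassCurve R} {E : WeierstrassCurve F} {E₂ : WeierstrassCurve K}
    (hE : BrShort E (W'⁄F)) (hE₂ : BrShort E₂ (W'⁄K)) (h6F : (6 : F) ≠ 0) (h6K : (6 : K) ≠ 0)
    (f : F →ₐ[S] K) {X Y : F} (h : E.toAffine.Nonsingular X Y) {X' Y' : K}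
    (h' : E₂.toAffine.Nonsingular X' Y') (hX : f X = X') (hY : f Y = Y') :
    Affine.Point.map (W' := W') f (brMap hE h6F (.some X Y h)) =
      brMap hE₂ h6K (.some X' Y' h') := by
  subst hX
  subst hY
  rw [map_brMap_some, brMap_some]

/-- **BR, compatibility with `Point.map`** (e.g. Frobenius): both curves defined over `R`. -/
theorem brMap_map {E' W' : WeierstrassCurve R} (hF : BrShort (E'⁄F) (W'⁄F))
    (hK : BrShort (E'⁄K) (W'⁄K)) (h6F : (6 : F) ≠ 0)
    (h6K : (6 : K) ≠ 0) (f : F →ₐ[S] K) (P : (E'⁄F).toAffine.Point) :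
    brMap hK h6K (Affine.Point.map (W' := E') f P) =
      Affine.Point.map (W' := W') f (brMap hF h6F P) := by
  rcases P with _ | ⟨X, Y, h⟩
  · rfl
  · rw [Affine.Point.map_some]
    exact (map_brMap_eq hF hK h6F h6K f h _ rfl rfl).symm

end Map

end Fermat.Agent.S52
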