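import Fermat.Agent.S52.CongFrob
import Fermat.Agent.S52.Klein.Curve
import Fermat.Agent.S52.Bridge
import Mathlib.FieldTheory.Finite.Basic

/-!
# S52 / CONG: the action of Frobenius on the bridged Klein points of one curve

`W̄` a Weierstrass curve over `ZMod p`, `K ⊇ ZMod p` a field, `(A, B)` a Klein level point over `K`
for the invariants of `W̄`.  If the Klein points at the Frobenius image `(A^p, B^p)` are
`m • (P, Q)` (orbit matrix), then Frobenius acts on the bridged points `(P₁, Q₁)` of `W̄(K)` by the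
matrix `[[m00, m01], [p m10, p m11]]`.
-/

set_option autoImplicit false

open WeierstrassCurve WeierstrassCurve.Affine

namespace Fermat.Agent.S52

section Level

variable {F : Type*} [Field F] [DecidableEq F]

theorem cong_kP_congr {ζ i5 A B A₂ B₂ c4 c6 : F} (h : KLevel ζ i5 A B c4 c6)
    (h₂ : KLevel ζ i5 A₂ B₂ c4 c6) (hA : A = A₂) (hB : B = B₂) : kP h = kP h₂ := by
  subst hA
  subst hB
  rfl

theorem cong_kQ_congr {ζ ζ₂ i5 i5₂ A B A₂ B₂ c4 c6 : F} (h : KLevel ζ i5 A B c4 c6)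
    (h₂ : KLevel ζ₂ i5₂ A₂ B₂ c4 c6) (hζ : ζ = ζ₂) (hi : i5 = i5₂) (hA : A = A₂) (hB : B = B₂) :
    kQ h = kQ h₂ := by
  subst hζ
  subst hi
  subst hA
  subst hB
  rfl

end Level

section Frob

variable (p : ℕ) [Fact p.Prime] (W : WeierstrassCurve (ZMod p))
  (K : Type*) [Field K] [DecidableEq K] [Algebra (ZMod p) K]

omit [DecidableEq K] in
theorem cong_frob_apply (x : K) : FiniteField.frobeniusAlgHom (ZMod p) K x = x ^ p := by
  rw [FiniteField.coe_frobeniusAlgHom, ZMod.card]

variable {p K}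

/-- Frobenius on the bridged Klein points. -/
theorem cong_frob_matrix {ζ i5 A B c4 c6 : K} (L : KLevel ζ i5 A B c4 c6)
    (LF : KLevel ζ i5 (A ^ p) (B ^ p) c4 c6) (hp5 : ¬ 5 ∣ p)
    (hBr : BrShort (brShortW c4 c6) (W⁄K)) (h6 : (6 : K) ≠ 0)
    (m00 m01 m10 m11 : ℤ)
    (hmP : kP LF = m00 • kP L + m01 • kQ L) (hmQ : kQ LF = m10 • kP L + m11 • kQ L) :
    Affine.Point.map (W' := W) (FiniteField.frobeniusAlgHom (ZMod p) K) (brMap hBr h6 (kP L))
        = m00 • brMap hBr h6 (kP L) + m01 • brMap hBr h6 (kQ L) ∧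
    Affine.Point.map (W' := W) (FiniteField.frobeniusAlgHom (ZMod p) K) (brMap hBr h6 (kQ L))
        = ((p : ℤ) * m10) • brMap hBr h6 (kP L) + ((p : ℤ) * m11) • brMap hBr h6 (kQ L) := by
  have hfr : ∀ x : K, FiniteField.frobeniusAlgHom (ZMod p) K x = x ^ p := cong_frob_apply p K
  set fr : K →+* K := (FiniteField.frobeniusAlgHom (ZMod p) K : K →+* K) with hfrdef
  have hfr' : ∀ x : K, fr x = x ^ p := fun x => hfr x
  -- the level structure at `(A^p, B^p)` for `ζ^p`
  have hi5 : i5 ^ p = i5 := by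
    have h5 := L.h5
    have h5' : (5 : K) * i5 ^ p = 1 := by
      have := congrArg fr h5
      rw [map_mul, map_ofNat, map_one, hfr'] at this
      exact this
    have h5ne : (5 : K) ≠ 0 := by
      intro h0
      rw [h0, zero_mul] at h5
      exact zero_ne_one h5
    exact mul_left_cancel₀ h5ne (h5'.trans h5.symm)
  have hζp : 1 + ζ ^ p + (ζ ^ p) ^ 2 + (ζ ^ p) ^ 3 + (ζ ^ p) ^ 4 = 0 := by
    have := congrArg fr L.hζ
    rw [map_add, map_add, map_add, map_add, map_one, map_pow, map_pow, map_pow, map_zero,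
      hfr'] at this
    exact this
  have LFζ : KLevel (ζ ^ p) i5 (A ^ p) (B ^ p) c4 c6 :=
    ⟨hζp, LF.h5, LF.h6, LF.h4, LF.h6', LF.hf⟩
  have htw : kQ LFζ = (p : ℤ) • kQ LF := kQ_twist LF p hp5 LFζ
  have eX1 : FiniteField.frobeniusAlgHom (ZMod p) K (kX1 A B) = kX1 (A ^ p) (B ^ p) := by
    have := cong_map_kX1 fr A B
    simp only [hfr'] at this
    rw [hfr]
    exact this
  have eY1 : FiniteField.frobeniusAlgHom (ZMod p) K (kY1 A B) = kY1 (A ^ p) (B ^ p) := by
    have := cong_map_kY1 fr A B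
    simp only [hfr'] at this
    rw [hfr]
    exact this
  have eX0 : FiniteField.frobeniusAlgHom (ZMod p) K (kX0 ζ i5 A B)
      = kX0 (ζ ^ p) i5 (A ^ p) (B ^ p) := by
    have := cong_map_kX0 fr ζ i5 A B
    simp only [hfr', hi5] at this
    rw [hfr]
    exact this
  have eY0 : FiniteField.frobeniusAlgHom (ZMod p) K (kY0 ζ i5 A B)
      = kY0 (ζ ^ p) i5 (A ^ p) (B ^ p) := by
    have := cong_map_kY0 fr ζ i5 A B
    simp only [hfr', hi5] at this
    rw [hfr]
    exact this
  constructor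
  · rw [kP_eq_some L]
    rw [map_brMap_eq (W' := W) hBr hBr h6 h6 (FiniteField.frobeniusAlgHom (ZMod p) K)
      (kP_nonsingular L) (kP_nonsingular LF) eX1 eY1]
    rw [← kP_eq_some LF, hmP, map_add, map_zsmul, map_zsmul, ← kP_eq_some L]
  · rw [kQ_eq_some L]
    rw [map_brMap_eq (W' := W) hBr hBr h6 h6 (FiniteField.frobeniusAlgHom (ZMod p) K)
      (kQ_nonsingular L) (kQ_nonsingular LFζ) eX0 eY0]
    rw [← kQ_eq_some LFζ, htw, hmQ, map_zsmul, map_add, map_zsmul, map_zsmul, ← kQ_eq_some L,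
      smul_add, smul_smul, smul_smul]


omit [DecidableEq K] in
/-- the Frobenius image of a level point is a level point for the same invariants, when the
invariants are fixed by Frobenius. -/
theorem cong_level_frob {ζ i5 A B c4 c6 : K} (L : KLevel ζ i5 A B c4 c6)
    (hc4 : c4 ^ p = c4) (hc6 : c6 ^ p = c6) : KLevel ζ i5 (A ^ p) (B ^ p) c4 c6 := by
  have hfr : ∀ x : K, FiniteField.frobeniusAlgHom (ZMod p) K x = x ^ p := cong_frob_apply p K
  set fr : K →+* K := (FiniteField.frobeniusAlgHom (ZMod p) K : K →+* K) with hfrdef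
  have hfr' : ∀ x : K, fr x = x ^ p := fun x => hfr x
  refine ⟨L.hζ, L.h5, L.h6, ?_, ?_, ?_⟩
  · have := congrArg fr L.h4
    rw [cong_map_kE4, map_pow, map_pow] at this
    simp only [hfr'] at this
    rw [this, hc4]
  · have := congrArg fr L.h6'
    rw [map_neg, cong_map_kE6, map_pow, map_pow] at this
    simp only [hfr'] at this
    rw [this, hc6]
  · have := cong_map_kF fr A B
    simp only [hfr'] at this
    rw [← this]
    exact pow_ne_zero _ L.hf

end Frob

end Fermat.Agent.S52
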