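import Fermat.Agent.S52.Plan

/-!
# S52, piece X0 + NOCOMMON: every pair of invariants is attained by Klein's forms

* `kE4_kE6_bezout` : an explicit Bezout identity `U * kE4 + V * kE6 = 2^4 * 3^2 * 5^10 * b^9`.
* `kE4_kE6_eq_zero_imp` (NOCOMMON) : over a field with `(30 : k) ≠ 0`, the forms `kE4`, `kE6`
  have no common zero except `(0, 0)`.
* `exists_klein_ab` : over an algebraically closed field with `(30 : k) ≠ 0`, for `c4, c6 ≠ 0`
  with `c4 ^ 3 ≠ c6 ^ 2` there are `a b` with `kE4 a b = c4`, `- kE6 a b = c6`.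
* `exists_klein_point` (X0) : the same with `a = A ^ 5`, `b = B ^ 5`, and
  `A * B * (B ^ 10 - 11 * A ^ 5 * B ^ 5 - A ^ 10) ≠ 0`.
-/

set_option autoImplicit false

namespace Fermat.Agent.S52

open Polynomial

section Bezout

variable {R : Type*} [CommRing R]

/-- Explicit Bezout identity for Klein's forms `E₄`, `E₆` (resultant `2^4 * 3^2 * 5^10`). -/
theorem kE4_kE6_bezout (a b : R) :
    (950431323 * b ^ 5 + 20237705983 * a * b ^ 4 - 103588896 * a ^ 2 * b ^ 3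
        + 20237108822 * a ^ 3 * b ^ 2 - 1055557719 * a ^ 4 * b - 2022161 * a ^ 5) * kE4 a b
      + (455818677 * b ^ 3 + 1001301767 * a * b ^ 2 - 461063031 * a ^ 2 * b
        + 2022161 * a ^ 3) * kE6 a b
      = 1406250000 * b ^ 9 := by
  simp only [kE4, kE6]
  ring

/-- Homogeneity of `kE4`. -/
theorem kE4_smul (s a b : R) : kE4 (s * a) (s * b) = s ^ 4 * kE4 a b := by
  simp only [kE4]
  ring

/-- Homogeneity of `kE6`. -/
theorem kE6_smul (s a b : R) : kE6 (s * a) (s * b) = s ^ 6 * kE6 a b := by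
  simp only [kE6]
  ring

/-- `kD (A^5) (B^5)` is the fifth power of Klein's form `f = A B (B^10 - 11 A^5 B^5 - A^10)`. -/
theorem kD_pow_five (A B : R) :
    kD (A ^ 5) (B ^ 5) = (A * B * (B ^ 10 - 11 * A ^ 5 * B ^ 5 - A ^ 10)) ^ 5 := by
  simp only [kD]
  ring

end Bezout

section Field

variable {k : Type*} [Field k]

theorem klein_resultant_ne_zero (h30 : (30 : k) ≠ 0) : (1406250000 : k) ≠ 0 := by
  have h2 : (2 : k) ≠ 0 := fun h => h30 (by linear_combination 15 * h)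
  have h3 : (3 : k) ≠ 0 := fun h => h30 (by linear_combination 10 * h)
  have h5 : (5 : k) ≠ 0 := fun h => h30 (by linear_combination 6 * h)
  have e : (1406250000 : k) = 2 ^ 4 * 3 ^ 2 * 5 ^ 10 := by norm_num
  rw [e]
  exact mul_ne_zero (mul_ne_zero (pow_ne_zero _ h2) (pow_ne_zero _ h3)) (pow_ne_zero _ h5)

/-- NOCOMMON: Klein's forms `E₄`, `E₆` have no common zero other than `(0, 0)`
when `30` is invertible. -/
theorem kE4_kE6_eq_zero_imp (h30 : (30 : k) ≠ 0) {a b : k} (h4 : kE4 a b = 0)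
    (h6 : kE6 a b = 0) : a = 0 ∧ b = 0 := by
  have hb : b = 0 := by
    have h := kE4_kE6_bezout a b
    rw [h4, h6, mul_zero, mul_zero, add_zero] at h
    have h' : (1406250000 : k) * b ^ 9 = 0 := h.symm
    rcases mul_eq_zero.1 h' with h1 | h1
    · exact absurd h1 (klein_resultant_ne_zero h30)
    · exact pow_eq_zero_iff (by norm_num) |>.1 h1
  refine ⟨?_, hb⟩
  subst hb
  have : a ^ 4 = 0 := by
    have h := h4
    simp only [kE4] at h
    linear_combination h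
  exact pow_eq_zero_iff (by norm_num) |>.1 this

end Field

section AlgClosed

variable {k : Type*} [Field k]

/-- The degree-12 polynomial in `σ = a / b` cutting out the points of the Klein line with
invariants proportional to `(c4, c6)`. -/
noncomputable def kleinRatioPoly (c4 c6 : k) : k[X] :=
  C (c6 ^ 2) * (kE4 (X : k[X]) 1) ^ 3 - C (c4 ^ 3) * (kE6 (X : k[X]) 1) ^ 2

theorem natDegree_kleinRatioPoly {c4 c6 : k} (h : c4 ^ 3 - c6 ^ 2 ≠ 0) :
    (kleinRatioPoly c4 c6).natDegree = 12 := by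
  unfold kleinRatioPoly kE4 kE6
  compute_degree!
  intro h'
  exact h (by linear_combination -h')

theorem eval_kleinRatioPoly (c4 c6 σ : k) :
    eval σ (kleinRatioPoly c4 c6) = c6 ^ 2 * kE4 σ 1 ^ 3 - c4 ^ 3 * kE6 σ 1 ^ 2 := by
  simp [kleinRatioPoly, kE4, kE6]

/-- Klein's form does not vanish at any point with invariants `c4 ^ 3 ≠ c6 ^ 2`. -/
theorem klein_f_ne_zero_of_invariants {A B c4 c6 : k}
    (h4 : kE4 (A ^ 5) (B ^ 5) = c4) (h6 : -kE6 (A ^ 5) (B ^ 5) = c6)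
    (hΔ : c4 ^ 3 - c6 ^ 2 ≠ 0) :
    A * B * (B ^ 10 - 11 * A ^ 5 * B ^ 5 - A ^ 10) ≠ 0 := by
  intro hf
  have hD : kD (A ^ 5) (B ^ 5) = 0 := by rw [kD_pow_five, hf]; ring
  have h := kE4_cube_sub_kE6_sq (A ^ 5) (B ^ 5)
  rw [hD, mul_zero, h4] at h
  apply hΔ
  have h6' : kE6 (A ^ 5) (B ^ 5) = -c6 := by rw [← h6]; ring
  rw [h6'] at h
  linear_combination h

variable [IsAlgClosed k]

/-- X0 in the variables `(a, b)`: every pair of invariants with `c4, c6 ≠ 0`, `c4 ^ 3 ≠ c6 ^ 2`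
is attained by Klein's forms `E₄`, `-E₆`. -/
theorem exists_klein_ab (h30 : (30 : k) ≠ 0) {c4 c6 : k} (hc4 : c4 ≠ 0) (hc6 : c6 ≠ 0)
    (hΔ : c4 ^ 3 - c6 ^ 2 ≠ 0) : ∃ a b : k, kE4 a b = c4 ∧ -kE6 a b = c6 := by
  -- a root `σ` of the ratio polynomial
  have hdeg : (kleinRatioPoly c4 c6).degree ≠ 0 := by
    have hne : kleinRatioPoly c4 c6 ≠ 0 := by
      intro h0
      have := natDegree_kleinRatioPoly hΔ
      rw [h0, natDegree_zero] at this
      exact absurd this (by norm_num)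
    rw [degree_eq_natDegree hne, natDegree_kleinRatioPoly hΔ]
    norm_num
  obtain ⟨σ, hσ⟩ := IsAlgClosed.exists_root (kleinRatioPoly c4 c6) hdeg
  rw [IsRoot.def, eval_kleinRatioPoly] at hσ
  set e4 : k := kE4 σ 1 with he4
  set e6 : k := kE6 σ 1 with he6
  have hrel : c6 ^ 2 * e4 ^ 3 = c4 ^ 3 * e6 ^ 2 := sub_eq_zero.1 hσ
  have h1 : (1 : k) ≠ 0 := one_ne_zero
  have he4_ne : e4 ≠ 0 := by
    intro h4
    have h6 : e6 = 0 := by
      have : c4 ^ 3 * e6 ^ 2 = 0 := by rw [← hrel, h4]; ring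
      rcases mul_eq_zero.1 this with h | h
      · exact absurd (pow_eq_zero_iff (by norm_num) |>.1 h) hc4
      · exact pow_eq_zero_iff (by norm_num) |>.1 h
    exact h1 (kE4_kE6_eq_zero_imp h30 h4 h6).2
  have he6_ne : e6 ≠ 0 := by
    intro h6
    have h4 : e4 = 0 := by
      have : c6 ^ 2 * e4 ^ 3 = 0 := by rw [hrel, h6]; ring
      rcases mul_eq_zero.1 this with h | h
      · exact absurd (pow_eq_zero_iff (by norm_num) |>.1 h) hc6
      · exact pow_eq_zero_iff (by norm_num) |>.1 h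
    exact h1 (kE4_kE6_eq_zero_imp h30 h4 h6).2
  -- `b ^ 2 = - c6 e4 / (c4 e6)`
  obtain ⟨b, hb⟩ := IsAlgClosed.exists_pow_nat_eq (-(c6 * e4) / (c4 * e6)) (by norm_num : 0 < 2)
  have hb2 : b ^ 2 * (c4 * e6) = -(c6 * e4) := by
    rw [hb]
    field_simp
  refine ⟨b * σ, b, ?_, ?_⟩
  · have h := kE4_smul b σ 1
    rw [mul_one] at h
    rw [h, ← he4]
    -- `b^4 e4 = c4`
    have hc4e6 : (c4 * e6) ^ 2 ≠ 0 := pow_ne_zero _ (mul_ne_zero hc4 he6_ne)
    apply mul_right_cancel₀ hc4e6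
    have : b ^ 4 * e4 * (c4 * e6) ^ 2 = (b ^ 2 * (c4 * e6)) ^ 2 * e4 := by ring
    rw [this, hb2]
    linear_combination c4 ^ 0 * hrel
  · have h := kE6_smul b σ 1
    rw [mul_one] at h
    rw [h, ← he6]
    -- `- b^6 e6 = c6`
    have hc4e6 : (c4 * e6) ^ 3 ≠ 0 := pow_ne_zero _ (mul_ne_zero hc4 he6_ne)
    apply mul_right_cancel₀ hc4e6
    have : -(b ^ 6 * e6) * (c4 * e6) ^ 3 = -((b ^ 2 * (c4 * e6)) ^ 3 * e6) := by ring
    rw [this, hb2]
    linear_combination (c6 * e6) * hrel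

/-- X0: over an algebraically closed field in which `30` is invertible, every pair of invariants
`c4, c6 ≠ 0` with `c4 ^ 3 ≠ c6 ^ 2` is attained by Klein's forms at a point `(A, B)`, and
Klein's form `f = A B (B^10 - 11 A^5 B^5 - A^10)` does not vanish there. -/
theorem exists_klein_point (h30 : (30 : k) ≠ 0) {c4 c6 : k} (hc4 : c4 ≠ 0) (hc6 : c6 ≠ 0)
    (hΔ : c4 ^ 3 - c6 ^ 2 ≠ 0) :
    ∃ A B : k, kE4 (A ^ 5) (B ^ 5) = c4 ∧ -kE6 (A ^ 5) (B ^ 5) = c6 ∧
      A * B * (B ^ 10 - 11 * A ^ 5 * B ^ 5 - A ^ 10) ≠ 0 := by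
  obtain ⟨a, b, h4, h6⟩ := exists_klein_ab h30 hc4 hc6 hΔ
  obtain ⟨A, hA⟩ := IsAlgClosed.exists_pow_nat_eq a (by norm_num : 0 < 5)
  obtain ⟨B, hB⟩ := IsAlgClosed.exists_pow_nat_eq b (by norm_num : 0 < 5)
  have h4' : kE4 (A ^ 5) (B ^ 5) = c4 := by rw [hA, hB]; exact h4
  have h6' : -kE6 (A ^ 5) (B ^ 5) = c6 := by rw [hA, hB]; exact h6
  exact ⟨A, B, h4', h6', klein_f_ne_zero_of_invariants h4' h6' hΔ⟩

end AlgClosed

end Fermat.Agent.S52
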