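import Fermat.Agent.S52.Klein.Defs
import Fermat.Agent.S52.OrbitDataL

/-!
# S52 / ORBIT: the factorization `O-fact`

`5¹³·(E₄(U,V)³·E₆(a,b)² − E₄(a,b)³·E₆(U,V)²)` (`a = A⁵`, `b = B⁵`) is `1728·√5` times the product
of the twelve linear forms in `(U, V)` attached to the cosets of `⟨S⟩` in the icosahedral group
(checked by kernel evaluation, in small steps, in `OrbitDataF/G/L.lean`), and `∏ (u − ζ^i v) = u⁵ − v⁵`.
-/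

set_option autoImplicit false

namespace Fermat.Agent.S52

variable {R : Type*} [CommRing R]

/-! ### evaluation of the data -/

section Eval

variable (ζ A B U V : R)

@[simp] theorem k4ev_o4c (n : ℤ) : k4ev ζ A B U V (o4c n) = n := by
  simp [o4c, k4ev]

@[simp] theorem k4ev_o4z (c : KZ) : k4ev ζ A B U V (o4z c) = c.ev ζ := by
  simp [o4z, k4ev]

@[simp] theorem k4ev_o4U : k4ev ζ A B U V o4U = U := by
  simp [o4U, k4ev]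

@[simp] theorem k4ev_o4V : k4ev ζ A B U V o4V = V := by
  simp [o4V, k4ev]

@[simp] theorem k4ev_o4a : k4ev ζ A B U V o4a = A ^ 5 := by
  simp [o4a, k4ev]

@[simp] theorem k4ev_o4b : k4ev ζ A B U V o4b = B ^ 5 := by
  simp [o4b, k4ev]

@[simp] theorem k4ev_o4lin (c d : KZ) :
    k4ev ζ A B U V (o4lin c d) = c.ev ζ * A + d.ev ζ * B := by
  simp [o4lin, k4ev]

variable {ζ}

theorem k4ev_o4E4 (hζ : 1 + ζ + ζ ^ 2 + ζ ^ 3 + ζ ^ 4 = 0) (x y : K4Poly) :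
    k4ev ζ A B U V (o4E4 x y) = kE4 (k4ev ζ A B U V x) (k4ev ζ A B U V y) := by
  simp only [o4E4, kE4, k4ev_add, k4ev_mul hζ, k4ev_pow hζ, k4ev_o4c]
  push_cast
  ring

theorem k4ev_o4E6 (hζ : 1 + ζ + ζ ^ 2 + ζ ^ 3 + ζ ^ 4 = 0) (x y : K4Poly) :
    k4ev ζ A B U V (o4E6 x y) = kE6 (k4ev ζ A B U V x) (k4ev ζ A B U V y) := by
  simp only [o4E6, kE6, k4ev_add, k4ev_mul hζ, k4ev_pow hζ, k4ev_o4c]
  push_cast
  ring

theorem ev_o4zeta (hζ : 1 + ζ + ζ ^ 2 + ζ ^ 3 + ζ ^ 4 = 0) (j : ℕ) (hj : j < 5) :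
    (o4zeta j).ev ζ = ζ ^ j := by
  interval_cases j
  · simp [o4zeta, KZ.ev]
  · simp [o4zeta, KZ.ev]
  · simp [o4zeta, KZ.ev]
  · simp [o4zeta, KZ.ev]
  · simp only [o4zeta, KZ.ev]
    push_cast
    linear_combination -hζ

theorem ev_o4cA : o4cA.ev ζ = -1 - 2 * ζ - ζ ^ 2 - ζ ^ 3 := by
  simp only [o4cA, KZ.ev]; push_cast; ring

theorem ev_o4cB : o4cB.ev ζ = ζ ^ 2 - ζ ^ 3 := by
  simp only [o4cB, KZ.ev]; push_cast; ring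

theorem ev_o4cD : o4cD.ev ζ = 1 + 2 * ζ + ζ ^ 2 + ζ ^ 3 := by
  simp only [o4cD, KZ.ev]; push_cast; ring

theorem ev_o4s5 (hζ : 1 + ζ + ζ ^ 2 + ζ ^ 3 + ζ ^ 4 = 0) : o4s5.ev ζ = kS5 ζ := by
  simp only [o4s5, KZ.ev, kS5]; push_cast
  linear_combination -hζ

theorem k4ev_o4TA (hζ : 1 + ζ + ζ ^ 2 + ζ ^ 3 + ζ ^ 4 = 0) (j : ℕ) (hj : j < 5) :
    k4ev ζ A B U V (o4TA j) = kTA' ζ (ζ ^ j * A) B := by
  simp only [o4TA, k4ev_o4lin, KZ.ev_mul hζ, ev_o4zeta hζ j hj, ev_o4cA, ev_o4cB, kTA']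
  ring

theorem k4ev_o4TB (hζ : 1 + ζ + ζ ^ 2 + ζ ^ 3 + ζ ^ 4 = 0) (j : ℕ) (hj : j < 5) :
    k4ev ζ A B U V (o4TB j) = kTB' ζ (ζ ^ j * A) B := by
  simp only [o4TB, k4ev_o4lin, KZ.ev_mul hζ, ev_o4zeta hζ j hj, ev_o4cB, ev_o4cD, kTB']
  ring

theorem k4ev_o4TAJ (hζ : 1 + ζ + ζ ^ 2 + ζ ^ 3 + ζ ^ 4 = 0) (j : ℕ) (hj : j < 5) :
    k4ev ζ A B U V (o4TAJ j) = kTA' ζ (ζ ^ j * B) (-A) := by
  simp only [o4TAJ, k4ev_o4lin, KZ.ev_mul hζ, KZ.ev_neg, ev_o4zeta hζ j hj, ev_o4cA, ev_o4cB, kTA']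
  ring

theorem k4ev_o4TBJ (hζ : 1 + ζ + ζ ^ 2 + ζ ^ 3 + ζ ^ 4 = 0) (j : ℕ) (hj : j < 5) :
    k4ev ζ A B U V (o4TBJ j) = kTB' ζ (ζ ^ j * B) (-A) := by
  simp only [o4TBJ, k4ev_o4lin, KZ.ev_mul hζ, KZ.ev_neg, ev_o4zeta hζ j hj, ev_o4cB, ev_o4cD, kTB']
  ring

theorem k4ev_o4fac (hζ : 1 + ζ + ζ ^ 2 + ζ ^ 3 + ζ ^ 4 = 0) (ta tb : K4Poly) :
    k4ev ζ A B U V (o4fac ta tb) =
      k4ev ζ A B U V tb ^ 5 * U - k4ev ζ A B U V ta ^ 5 * V := by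
  simp only [o4fac, k4ev_add, k4ev_neg, k4ev_mul hζ, k4ev_pow hζ, k4ev_o4U, k4ev_o4V]
  ring

end Eval

/-! ### the statement -/

/-- the linear form in `(U, V)` attached to `T'(A, B)`. -/
def oFac (ζ A B U V : R) : R := kTB' ζ A B ^ 5 * U - kTA' ζ A B ^ 5 * V

/-- the product of the five linear forms attached to `T' S^j (A, B)`, `j < 5`. -/
def oQ5 (ζ A B U V : R) : R :=
  oFac ζ A B U V * oFac ζ (ζ * A) B U V * oFac ζ (ζ ^ 2 * A) B U V * oFac ζ (ζ ^ 3 * A) B U V *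
    oFac ζ (ζ ^ 4 * A) B U V

theorem k4ev_o4Q5 {ζ : R} (hζ : 1 + ζ + ζ ^ 2 + ζ ^ 3 + ζ ^ 4 = 0) (A B U V : R) :
    k4ev ζ A B U V o4Q5 = oQ5 ζ A B U V := by
  simp only [o4Q5, k4ev_clean, k4ev_mul hζ, k4ev_o4fac _ _ _ _ hζ,
    k4ev_o4TA A B U V hζ 0 (by norm_num), k4ev_o4TB A B U V hζ 0 (by norm_num),
    k4ev_o4TA A B U V hζ 1 (by norm_num), k4ev_o4TB A B U V hζ 1 (by norm_num),
    k4ev_o4TA A B U V hζ 2 (by norm_num), k4ev_o4TB A B U V hζ 2 (by norm_num),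
    k4ev_o4TA A B U V hζ 3 (by norm_num), k4ev_o4TB A B U V hζ 3 (by norm_num),
    k4ev_o4TA A B U V hζ 4 (by norm_num), k4ev_o4TB A B U V hζ 4 (by norm_num), oQ5, oFac,
    pow_zero, pow_one, one_mul]

theorem k4ev_o4Q5J {ζ : R} (hζ : 1 + ζ + ζ ^ 2 + ζ ^ 3 + ζ ^ 4 = 0) (A B U V : R) :
    k4ev ζ A B U V o4Q5J = oQ5 ζ B (-A) U V := by
  simp only [o4Q5J, k4ev_clean, k4ev_mul hζ, k4ev_o4fac _ _ _ _ hζ,
    k4ev_o4TAJ A B U V hζ 0 (by norm_num), k4ev_o4TBJ A B U V hζ 0 (by norm_num),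
    k4ev_o4TAJ A B U V hζ 1 (by norm_num), k4ev_o4TBJ A B U V hζ 1 (by norm_num),
    k4ev_o4TAJ A B U V hζ 2 (by norm_num), k4ev_o4TBJ A B U V hζ 2 (by norm_num),
    k4ev_o4TAJ A B U V hζ 3 (by norm_num), k4ev_o4TBJ A B U V hζ 3 (by norm_num),
    k4ev_o4TAJ A B U V hζ 4 (by norm_num), k4ev_o4TBJ A B U V hζ 4 (by norm_num), oQ5, oFac,
    pow_zero, pow_one, one_mul]

/-- the expanded product `o4F5` evaluates to `oQ5`. -/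
theorem k4ev_o4F5 {ζ : R} (hζ : 1 + ζ + ζ ^ 2 + ζ ^ 3 + ζ ^ 4 = 0) (A B U V : R) :
    k4ev ζ A B U V o4F5 = oQ5 ζ A B U V := by
  have h2 := k4check_sound ζ A B U V _ _ o4F2_check
  have h3 := k4check_sound ζ A B U V _ _ o4F3_check
  have h4 := k4check_sound ζ A B U V _ _ o4F4_check
  have h5 := k4check_sound ζ A B U V _ _ o4F5_check
  rw [k4ev_mul hζ] at h2 h3 h4 h5
  rw [← k4ev_o4Q5 hζ, o4Q5, k4ev_clean, k4ev_mul hζ, k4ev_mul hζ, k4ev_mul hζ, k4ev_mul hζ,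
    h2, h3, h4, h5]

/-- the expanded product `o4G5` evaluates to `oQ5` at `(B, -A)`. -/
theorem k4ev_o4G5 {ζ : R} (hζ : 1 + ζ + ζ ^ 2 + ζ ^ 3 + ζ ^ 4 = 0) (A B U V : R) :
    k4ev ζ A B U V o4G5 = oQ5 ζ B (-A) U V := by
  have h2 := k4check_sound ζ A B U V _ _ o4G2_check
  have h3 := k4check_sound ζ A B U V _ _ o4G3_check
  have h4 := k4check_sound ζ A B U V _ _ o4G4_check
  have h5 := k4check_sound ζ A B U V _ _ o4G5_check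
  rw [k4ev_mul hζ] at h2 h3 h4 h5
  rw [← k4ev_o4Q5J hζ, o4Q5J, k4ev_clean, k4ev_mul hζ, k4ev_mul hζ, k4ev_mul hζ, k4ev_mul hζ,
    h2, h3, h4, h5]

/-- **O-fact**: the factorization of `E₄(U,V)³E₆(a,b)² − E₄(a,b)³E₆(U,V)²` into the twelve
linear forms attached to the cosets of `⟨S⟩` in the icosahedral group. -/
theorem orbit_fact {ζ : R} (hζ : 1 + ζ + ζ ^ 2 + ζ ^ 3 + ζ ^ 4 = 0) (A B U V : R) :
    5 ^ 13 * (kE4 U V ^ 3 * kE6 (A ^ 5) (B ^ 5) ^ 2 - kE4 (A ^ 5) (B ^ 5) ^ 3 * kE6 U V ^ 2) =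
      1728 * kS5 ζ * (B ^ 5 * U - A ^ 5 * V) * (A ^ 5 * U + B ^ 5 * V) * oQ5 ζ A B U V *
        oQ5 ζ B (-A) U V := by
  have hl := k4check_sound ζ A B U V _ _ o4lhsL_check
  have hR := k4check_sound ζ A B U V _ _ o4R1_check
  have hs := k4check_sound ζ A B U V _ _ o4G5split_check
  have hP0 := k4check_sound ζ A B U V _ _ o4P0_check
  have hP1 := k4check_sound ζ A B U V _ _ o4P1_check
  have hP2 := k4check_sound ζ A B U V _ _ o4P2_check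
  have hsum := k4check_sound ζ A B U V _ _ o4sum_check
  simp only [o4lhs, k4ev_mul hζ, k4ev_add, k4ev_neg, k4ev_pow hζ, k4ev_o4E4 A B U V hζ,
    k4ev_o4E6 A B U V hζ, k4ev_o4c, k4ev_o4U, k4ev_o4V, k4ev_o4a, k4ev_o4b] at hl
  simp only [o4R1t, k4ev_mul hζ, k4ev_add, k4ev_neg, k4ev_o4c, k4ev_o4z, k4ev_o4U, k4ev_o4V,
    k4ev_o4a, k4ev_o4b, k4ev_o4F5 hζ, ev_o4s5 hζ] at hR
  rw [k4ev_o4G5 hζ, k4ev_add, k4ev_add] at hs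
  rw [k4ev_mul hζ] at hP0 hP1 hP2
  rw [k4ev_add, k4ev_add] at hsum
  push_cast at hl hR
  linear_combination hl - hsum - hP0 - hP1 - hP2 - k4ev ζ A B U V o4R1 * hs -
    oQ5 ζ B (-A) U V * hR

/-- `∏_{i<5} (u − ζ^i v) = u⁵ − v⁵`. -/
theorem orbit_roots {ζ : R} (hζ : 1 + ζ + ζ ^ 2 + ζ ^ 3 + ζ ^ 4 = 0) (u v : R) :
    (u - v) * (u - ζ * v) * (u - ζ ^ 2 * v) * (u - ζ ^ 3 * v) * (u - ζ ^ 4 * v) =
      u ^ 5 - v ^ 5 := by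
  have h := k4check_sound ζ u v 0 0 o4roots o4diff o4_check_roots
  simp only [o4roots, o4diff, k4ev_mul hζ, k4ev_add, k4ev_neg, k4ev_o4lin, KZ.ev_neg,
    KZ.ev_ofInt, ev_o4zeta hζ 0 (by norm_num), ev_o4zeta hζ 1 (by norm_num),
    ev_o4zeta hζ 2 (by norm_num), ev_o4zeta hζ 3 (by norm_num), ev_o4zeta hζ 4 (by norm_num),
    k4ev_o4a, k4ev_o4b] at h
  push_cast at h
  linear_combination h

end Fermat.Agent.S52
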