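import Fermat.Agent.S52.Klein.Ident
import Fermat.Agent.S52.OrbitFact

/-!
# S52 / ORBIT: the fibres of `(E₄, E₆)` are orbits of the icosahedral group

`kOrb_main`: over a field with `6 ≠ 0`, a primitive 5th root of unity `ζ` and `i5 = 1/5`, two points
`(A, B)`, `(A', B')` with the same nonzero invariants `E₄ = kE4 (A^5) (B^5)`, `E₆ = kE6 (A^5) (B^5)`
are related by a word in `S`, `T`, `J` and scalars of `μ₁₀` (`KOrb`).
Proof: the factorization `orbit_fact` at `U = A'^5`, `V = B'^5`.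
-/

set_option autoImplicit false

namespace Fermat.Agent.S52

open Relation

section

variable {k : Type*} [Field k]

/-- `u⁵ = v⁵ ⇒ u = ζ^i v`. -/
theorem orb_fifth_root {ζ : k} (hζ : 1 + ζ + ζ ^ 2 + ζ ^ 3 + ζ ^ 4 = 0) {u v : k}
    (h : u ^ 5 = v ^ 5) : ∃ i : ℕ, u = ζ ^ i * v := by
  have key := orbit_roots hζ u v
  rw [h, sub_self] at key
  rcases mul_eq_zero.mp key with h1 | h1
  · rcases mul_eq_zero.mp h1 with h2 | h2
    · rcases mul_eq_zero.mp h2 with h3 | h3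
      · rcases mul_eq_zero.mp h3 with h4 | h4
        · exact ⟨0, by rw [pow_zero, one_mul]; exact sub_eq_zero.mp h4⟩
        · exact ⟨1, by rw [pow_one]; exact sub_eq_zero.mp h4⟩
      · exact ⟨2, sub_eq_zero.mp h3⟩
    · exact ⟨3, sub_eq_zero.mp h2⟩
  · exact ⟨4, sub_eq_zero.mp h1⟩

/-- powers of `S`. -/
theorem korb_S_pow (ζ i5 A B : k) (i : ℕ) : KOrb ζ i5 (A, B) (ζ ^ i * A, B) := by
  induction i with
  | zero => rw [pow_zero, one_mul]; exact ReflTransGen.refl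
  | succ i ih =>
    have h := KStep.S (ζ := ζ) (i5 := i5) (ζ ^ i * A, B)
    have e : (ζ * (ζ ^ i * A, B).1, (ζ ^ i * A, B).2) = (ζ ^ (i + 1) * A, B) := by
      simp only [pow_succ]
      congr 1
      ring
    rw [e] at h
    exact ReflTransGen.tail ih h

theorem orb_pow_five_mul {ζ : k} (hζ5 : ζ ^ 5 = 1) (i : ℕ) (A : k) : (ζ ^ i * A) ^ 5 = A ^ 5 := by
  rw [mul_pow, ← pow_mul, mul_comm i 5, pow_mul, hζ5, one_pow, one_mul]

/-- the closing step: same invariants and `(B₁ A')⁵ = (A₁ B')⁵`. -/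
theorem orb_close {ζ : k} (i5 : k) (hζ : 1 + ζ + ζ ^ 2 + ζ ^ 3 + ζ ^ 4 = 0) (A₁ B₁ A' B' : k)
    (h4 : kE4 (A' ^ 5) (B' ^ 5) = kE4 (A₁ ^ 5) (B₁ ^ 5)) (h4n : kE4 (A₁ ^ 5) (B₁ ^ 5) ≠ 0)
    (h6 : kE6 (A' ^ 5) (B' ^ 5) = kE6 (A₁ ^ 5) (B₁ ^ 5)) (h6n : kE6 (A₁ ^ 5) (B₁ ^ 5) ≠ 0)
    (hrel : B₁ ^ 5 * A' ^ 5 = A₁ ^ 5 * B' ^ 5) : KOrb ζ i5 (A₁, B₁) (A', B') := by
  have hζ5 : ζ ^ 5 = 1 := kZeta_pow_five ζ hζ
  have hζ0 : ζ ≠ 0 := by
    intro h0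
    rw [h0] at hζ5
    simp at hζ5
  have hrel' : (B₁ * A') ^ 5 = (A₁ * B') ^ 5 := by rw [mul_pow, mul_pow, hrel]
  obtain ⟨i, hu⟩ := orb_fifth_root hζ hrel'
  have hzi : ζ ^ i ≠ 0 := pow_ne_zero i hζ0
  -- the scalar
  obtain ⟨μ, hA, hB⟩ : ∃ μ : k, A' = μ * (ζ ^ i * A₁) ∧ B' = μ * B₁ := by
    by_cases hB : B₁ = 0
    · have hA1 : A₁ ≠ 0 := by
        intro hA1
        apply h4n
        rw [hA1, hB]
        simp [kE4]
      have hB' : B' = 0 := by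
        rw [hB, zero_mul] at hu
        have := hu.symm
        rcases mul_eq_zero.mp this with h | h
        · exact absurd h hzi
        · rcases mul_eq_zero.mp h with h | h
          · exact absurd h hA1
          · exact h
      refine ⟨A' / (ζ ^ i * A₁), ?_, ?_⟩
      · rw [div_mul_cancel₀ _ (mul_ne_zero hzi hA1)]
      · rw [hB, hB', mul_zero]
    · refine ⟨B' / B₁, ?_, ?_⟩
      · rw [div_mul_eq_mul_div, eq_div_iff hB]
        linear_combination hu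
      · rw [div_mul_cancel₀ _ hB]
  have e4 : kE4 (A' ^ 5) (B' ^ 5) = μ ^ 20 * kE4 (A₁ ^ 5) (B₁ ^ 5) := by
    rw [hA, hB, kE4_hom, orb_pow_five_mul hζ5]
  have e6 : kE6 (A' ^ 5) (B' ^ 5) = μ ^ 30 * kE6 (A₁ ^ 5) (B₁ ^ 5) := by
    rw [hA, hB, kE6_hom, orb_pow_five_mul hζ5]
  have hμ20 : μ ^ 20 = 1 := by
    rw [h4] at e4
    have : (μ ^ 20 - 1) * kE4 (A₁ ^ 5) (B₁ ^ 5) = 0 := by linear_combination -e4
    rcases mul_eq_zero.mp this with h | h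
    · exact sub_eq_zero.mp h
    · exact absurd h h4n
  have hμ30 : μ ^ 30 = 1 := by
    rw [h6] at e6
    have : (μ ^ 30 - 1) * kE6 (A₁ ^ 5) (B₁ ^ 5) = 0 := by linear_combination -e6
    rcases mul_eq_zero.mp this with h | h
    · exact sub_eq_zero.mp h
    · exact absurd h h6n
  have hμ10 : μ ^ 10 = 1 := by
    have : μ ^ 30 = μ ^ 20 * μ ^ 10 := by ring
    rw [hμ30, hμ20, one_mul] at this
    exact this.symm
  have hS := korb_S_pow ζ i5 A₁ B₁ i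
  have hsc := KStep.scal (ζ := ζ) (i5 := i5) (ζ ^ i * A₁, B₁) μ hμ10
  have e : (μ * (ζ ^ i * A₁, B₁).1, μ * (ζ ^ i * A₁, B₁).2) = (A', B') := by
    rw [hA, hB]
  rw [e] at hsc
  exact ReflTransGen.tail hS hsc

/-- a vanishing factor `oFac` (coset of `T`). -/
theorem orb_of_fac {ζ i5 : k} (hζ : 1 + ζ + ζ ^ 2 + ζ ^ 3 + ζ ^ 4 = 0) (h5 : 5 * i5 = 1)
    (A₀ B₀ A' B' : k)
    (h4 : kE4 (A' ^ 5) (B' ^ 5) = kE4 (A₀ ^ 5) (B₀ ^ 5)) (h4n : kE4 (A₀ ^ 5) (B₀ ^ 5) ≠ 0)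
    (h6 : kE6 (A' ^ 5) (B' ^ 5) = kE6 (A₀ ^ 5) (B₀ ^ 5)) (h6n : kE6 (A₀ ^ 5) (B₀ ^ 5) ≠ 0)
    (hfac : oFac ζ A₀ B₀ (A' ^ 5) (B' ^ 5) = 0) : KOrb ζ i5 (A₀, B₀) (A', B') := by
  have hT4 := kE4_T ζ i5 A₀ B₀ hζ h5
  have hT6 := kE6_T ζ i5 A₀ B₀ hζ h5
  have hstep := KStep.T (ζ := ζ) (i5 := i5) (A₀, B₀)
  have hclose := orb_close i5 hζ (kTA ζ i5 A₀ B₀) (kTB ζ i5 A₀ B₀) A' B'
    (by rw [hT4]; exact h4) (by rw [hT4]; exact h4n) (by rw [hT6]; exact h6)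
    (by rw [hT6]; exact h6n)
    (by
      rw [oFac] at hfac
      rw [kTA, kTB]
      linear_combination (i5 * kS5 ζ) ^ 5 * hfac)
  exact ReflTransGen.head hstep hclose

/-- a vanishing product `oQ5` (cosets of `T S^j`). -/
theorem orb_of_Q5 {ζ i5 : k} (hζ : 1 + ζ + ζ ^ 2 + ζ ^ 3 + ζ ^ 4 = 0) (h5 : 5 * i5 = 1)
    (A₀ B₀ A' B' : k)
    (h4 : kE4 (A' ^ 5) (B' ^ 5) = kE4 (A₀ ^ 5) (B₀ ^ 5)) (h4n : kE4 (A₀ ^ 5) (B₀ ^ 5) ≠ 0)
    (h6 : kE6 (A' ^ 5) (B' ^ 5) = kE6 (A₀ ^ 5) (B₀ ^ 5)) (h6n : kE6 (A₀ ^ 5) (B₀ ^ 5) ≠ 0)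
    (hQ : oQ5 ζ A₀ B₀ (A' ^ 5) (B' ^ 5) = 0) : KOrb ζ i5 (A₀, B₀) (A', B') := by
  have hζ5 : ζ ^ 5 = 1 := kZeta_pow_five ζ hζ
  have main : ∀ i : ℕ, oFac ζ (ζ ^ i * A₀) B₀ (A' ^ 5) (B' ^ 5) = 0 →
      KOrb ζ i5 (A₀, B₀) (A', B') := by
    intro i hi
    have e5 := orb_pow_five_mul hζ5 i A₀
    exact ReflTransGen.trans (korb_S_pow ζ i5 A₀ B₀ i)
      (orb_of_fac hζ h5 (ζ ^ i * A₀) B₀ A' B' (by rw [e5]; exact h4) (by rw [e5]; exact h4n)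
        (by rw [e5]; exact h6) (by rw [e5]; exact h6n) hi)
  rw [oQ5] at hQ
  rcases mul_eq_zero.mp hQ with h1 | h1
  · rcases mul_eq_zero.mp h1 with h2 | h2
    · rcases mul_eq_zero.mp h2 with h3 | h3
      · rcases mul_eq_zero.mp h3 with h4' | h4'
        · exact main 0 (by rw [pow_zero, one_mul]; exact h4')
        · exact main 1 (by rw [pow_one]; exact h4')
      · exact main 2 h3
    · exact main 3 h2
  · exact main 4 h1

set_option linter.unusedVariables false in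
/-- **O-main**: two points with the same nonzero invariants `E₄`, `E₆` lie in one orbit of the
group generated by `S`, `T`, `J` and the scalars of `μ₁₀`. -/
theorem kOrb_main (ζ i5 : k) (hζ : 1 + ζ + ζ ^ 2 + ζ ^ 3 + ζ ^ 4 = 0)
    (h5 : 5 * i5 = 1) (h6 : (6 : k) ≠ 0) (A B A' B' : k)
    (h4 : kE4 (A' ^ 5) (B' ^ 5) = kE4 (A ^ 5) (B ^ 5)) (h4n : kE4 (A ^ 5) (B ^ 5) ≠ 0)
    (h6e : kE6 (A' ^ 5) (B' ^ 5) = kE6 (A ^ 5) (B ^ 5)) (h6n : kE6 (A ^ 5) (B ^ 5) ≠ 0)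
    (hf : kF A B ≠ 0) : KOrb ζ i5 (A, B) (A', B') := by
  have hfact := orbit_fact hζ A B (A' ^ 5) (B' ^ 5)
  rw [h4, h6e] at hfact
  have hz : (5 : k) ^ 13 * (kE4 (A ^ 5) (B ^ 5) ^ 3 * kE6 (A ^ 5) (B ^ 5) ^ 2 -
      kE4 (A ^ 5) (B ^ 5) ^ 3 * kE6 (A ^ 5) (B ^ 5) ^ 2) = 0 := by ring
  rw [hz] at hfact
  have h2 : (2 : k) ≠ 0 := fun h => h6 (by rw [show (6 : k) = 2 * 3 by norm_num, h, zero_mul])
  have h3 : (3 : k) ≠ 0 := fun h => h6 (by rw [show (6 : k) = 2 * 3 by norm_num, h, mul_zero])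
  have h1728 : (1728 : k) ≠ 0 := by
    rw [show (1728 : k) = 2 ^ 6 * 3 ^ 3 by norm_num]
    exact mul_ne_zero (pow_ne_zero 6 h2) (pow_ne_zero 3 h3)
  have hs : kS5 ζ ≠ 0 := by
    intro hs
    have := kLam_mul ζ i5 hζ h5
    rw [hs, mul_zero] at this
    exact zero_ne_one this
  have hJ4 := kE4_J A B
  have hJ6 := kE6_J A B
  rcases mul_eq_zero.mp hfact.symm with h1 | h1
  · rcases mul_eq_zero.mp h1 with h2' | h2'
    · rcases mul_eq_zero.mp h2' with h3' | h3'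
      · rcases mul_eq_zero.mp h3' with h4' | h4'
        · exact absurd h4' (mul_ne_zero h1728 hs)
        · -- the coset of `1`
          exact orb_close i5 hζ A B A' B' h4 h4n h6e h6n (sub_eq_zero.mp h4')
      · -- the coset of `J`
        have hstep := KStep.J (ζ := ζ) (i5 := i5) (A, B)
        have hclose := orb_close i5 hζ B (-A) A' B' (by rw [hJ4]; exact h4)
          (by rw [hJ4]; exact h4n) (by rw [hJ6]; exact h6e) (by rw [hJ6]; exact h6n)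
          (by linear_combination -h3')
        exact ReflTransGen.head hstep hclose
    · -- the cosets of `T S^j`
      exact orb_of_Q5 hζ h5 A B A' B' h4 h4n h6e h6n h2'
  · -- the cosets of `T S^j J`
    have hstep := KStep.J (ζ := ζ) (i5 := i5) (A, B)
    have hclose := orb_of_Q5 hζ h5 B (-A) A' B' (by rw [hJ4]; exact h4)
      (by rw [hJ4]; exact h4n) (by rw [hJ6]; exact h6e) (by rw [hJ6]; exact h6n) h1
    exact ReflTransGen.head hstep hclose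

end

end Fermat.Agent.S52
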