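import Fermat.Agent.S52.CongCore
import Fermat.Agent.S52.CongAction
import Fermat.Agent.S52.Orbit
import Fermat.Agent.S52.Exists
import Fermat.Agent.HW.Final
import Fermat.Prelude.Def_FLTPrelim_Modularity

/-!
# S52 / CONG: the congruence `a_ℓ(W') ≡ a_ℓ(W) (mod 5)` in the Rubin–Silverberg family

`cong_core`: `W`, `W'` Weierstrass curves over `ℤ` with `c₄(W') = rsC4 t c₄ c₆`,
`c₆(W') = rsC6 t c₄ c₆` (`c₄, c₆` the invariants of `W`, `t ∈ ℤ`).  For every prime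
`ℓ ∤ 30 · c₄ · c₆ · Δ(W) · Δ(W')`:  `5 ∣ a_ℓ(W') − a_ℓ(W)`.

Proof: over `K = F̄_ℓ` take a Klein point `x₀ = (A, B)` for `(c₄, c₆)` (X0); then `x₁ = Φ_t(x₀)` is a
Klein point for `(c₄', c₆')` (Plan).  The Frobenius image `F x₀` solves the same system, hence
lies in the orbit of `x₀` (ORBIT), so the Klein points at `F x₀`, `F x₁ = Φ_t(F x₀)` are obtained from
those at `x₀`, `x₁` by ONE integer matrix (K-Curve).  Thus Frobenius acts on the bridged Klein points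
of `W̄(K)` and `W̄'(K)` by the same matrix, and the Frobenius relations (HW) give the congruence
(`cong_abstract`).
-/

set_option autoImplicit false

open WeierstrassCurve WeierstrassCurve.Affine

namespace Fermat.Agent.S52

section OneCurve

variable {p : ℕ} [Fact p.Prime] (W₁ W₂ : WeierstrassCurve (ZMod p))
  (K : Type*) [Field K] [DecidableEq K] [Algebra (ZMod p) K] [IsAlgClosed K]

/-- two curves over `ZMod p` on which Frobenius acts by the same matrix on pairs of points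
independent modulo `5` have congruent traces of Frobenius. -/
theorem cong_trace_of_matrix (hp2 : p ≠ 2) (hp5 : ¬ 5 ∣ p) (hΔ₁ : W₁.Δ ≠ 0) (hΔ₂ : W₂.Δ ≠ 0)
    (P₁ Q₁ : (W₁⁄K).Point) (P₂ Q₂ : (W₂⁄K).Point)
    (indep₁ : ∀ a b : ℤ, a • P₁ + b • Q₁ = 0 → (5 : ℤ) ∣ a ∧ (5 : ℤ) ∣ b)
    (indep₂ : ∀ a b : ℤ, a • P₂ + b • Q₂ = 0 → (5 : ℤ) ∣ a ∧ (5 : ℤ) ∣ b)
    (m00 m01 m10 m11 : ℤ)
    (hP₁ : Affine.Point.map (W' := W₁) (FiniteField.frobeniusAlgHom (ZMod p) K) P₁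
      = m00 • P₁ + m01 • Q₁)
    (hQ₁ : Affine.Point.map (W' := W₁) (FiniteField.frobeniusAlgHom (ZMod p) K) Q₁
      = m10 • P₁ + m11 • Q₁)
    (hP₂ : Affine.Point.map (W' := W₂) (FiniteField.frobeniusAlgHom (ZMod p) K) P₂
      = m00 • P₂ + m01 • Q₂)
    (hQ₂ : Affine.Point.map (W' := W₂) (FiniteField.frobeniusAlgHom (ZMod p) K) Q₂
      = m10 • P₂ + m11 • Q₂) :
    (5 : ℤ) ∣ W₁.traceOfFrobenius - W₂.traceOfFrobenius := by
  refine cong_abstract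
    (Affine.Point.map (W' := W₁) (FiniteField.frobeniusAlgHom (ZMod p) K))
    (Affine.Point.map (W' := W₂) (FiniteField.frobeniusAlgHom (ZMod p) K))
    P₁ Q₁ P₂ Q₂ indep₁ indep₂ m00 m01 m10 m11 hP₁ hQ₁ hP₂ hQ₂
    W₁.traceOfFrobenius W₂.traceOfFrobenius (p : ℤ)
    (fun R => Fermat.Agent.HW.frobenius_relation p W₁ K hp2 hΔ₁ R)
    (fun R => Fermat.Agent.HW.frobenius_relation p W₂ K hp2 hΔ₂ R) ?_
  intro h
  exact hp5 (by exact_mod_cast h)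

end OneCurve

/-- **CONG** (core form). -/
theorem cong_core (W W' : WeierstrassCurve ℤ) (t : ℤ)
    (h4 : W'.c₄ = rsC4 t W.c₄ W.c₆) (h6 : W'.c₆ = rsC6 t W.c₄ W.c₆)
    (ℓ : ℕ) (hℓ : ℓ.Prime) (h30 : ¬ ℓ ∣ 30)
    (hc4 : ¬ (ℓ : ℤ) ∣ W.c₄) (hc6 : ¬ (ℓ : ℤ) ∣ W.c₆) (hΔ : ¬ (ℓ : ℤ) ∣ W.Δ)
    (hΔ' : ¬ (ℓ : ℤ) ∣ W'.Δ) :
    (5 : ℤ) ∣ W'.apOfModel ℓ - W.apOfModel ℓ := by
  classical
  have : Fact ℓ.Prime := ⟨hℓ⟩
  -- elementary facts on `ℓ`
  have hℓ2 : ℓ ≠ 2 := by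
    rintro rfl
    exact h30 (by norm_num)
  have hℓ5 : ¬ 5 ∣ ℓ := by
    intro h
    have : ℓ = 5 := ((Nat.prime_dvd_prime_iff_eq (by norm_num) hℓ).1 h).symm
    subst this
    exact h30 (by norm_num)
  -- the field
  set K := AlgebraicClosure (ZMod ℓ) with hK
  have hcast : ∀ n : ℤ, ((n : K) = 0 ↔ (ℓ : ℤ) ∣ n) := fun n => CharP.intCast_eq_zero_iff K ℓ n
  have h30K : (30 : K) ≠ 0 := by
    have := (hcast 30).not.mpr (by
      intro h
      exact h30 (by exact_mod_cast h))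
    exact_mod_cast this
  have h6K : (6 : K) ≠ 0 := by
    intro h
    apply h30K
    rw [show (30 : K) = 6 * 5 by norm_num, h, zero_mul]
  have h5K : (5 : K) ≠ 0 := by
    intro h
    apply h30K
    rw [show (30 : K) = 6 * 5 by norm_num, h, mul_zero]
  have h1728K : (1728 : K) ≠ 0 := by
    rw [show (1728 : K) = 6 ^ 3 * 2 ^ 3 by norm_num]
    refine mul_ne_zero (pow_ne_zero _ h6K) (pow_ne_zero _ ?_)
    intro h
    apply h6K
    rw [show (6 : K) = 2 * 3 by norm_num, h, zero_mul]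
  -- Frobenius fixes integers
  have hfixint : ∀ n : ℤ, ((n : K)) ^ ℓ = (n : K) := by
    intro n
    have := map_intCast (FiniteField.frobeniusAlgHom (ZMod ℓ) K) n
    rwa [cong_frob_apply] at this
  -- the invariants in `K`
  set c4 : K := (W.c₄ : K) with hc4def
  set c6 : K := (W.c₆ : K) with hc6def
  set c4' : K := (W'.c₄ : K) with hc4'def
  set c6' : K := (W'.c₆ : K) with hc6'def
  set tK : K := (t : K) with htK
  have hc4K : c4 ≠ 0 := (hcast _).not.mpr hc4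
  have hc6K : c6 ≠ 0 := (hcast _).not.mpr hc6
  have hrel : c4 ^ 3 - c6 ^ 2 ≠ 0 := by
    have h := W.c_relation
    have hK' : (1728 : K) * (W.Δ : K) = c4 ^ 3 - c6 ^ 2 := by
      rw [hc4def, hc6def]
      exact_mod_cast congrArg (Int.cast : ℤ → K) h
    rw [← hK']
    exact mul_ne_zero h1728K ((hcast _).not.mpr hΔ)
  have hrel' : c4' ^ 3 - c6' ^ 2 ≠ 0 := by
    have h := W'.c_relation
    have hK' : (1728 : K) * (W'.Δ : K) = c4' ^ 3 - c6' ^ 2 := by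
      rw [hc4'def, hc6'def]
      exact_mod_cast congrArg (Int.cast : ℤ → K) h
    rw [← hK']
    exact mul_ne_zero h1728K ((hcast _).not.mpr hΔ')
  have e4 : c4' = rsC4 tK c4 c6 := by
    rw [hc4'def, h4]
    exact gen_map_rsC4 (Int.castRingHom K) t W.c₄ W.c₆
  have e6 : c6' = rsC6 tK c4 c6 := by
    rw [hc6'def, h6]
    exact gen_map_rsC6 (Int.castRingHom K) t W.c₄ W.c₆
  -- the Klein point, `ζ`, `1/5`
  obtain ⟨A, B, hA4, hA6, hAf⟩ := exists_klein_point h30K hc4K hc6K hrel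
  obtain ⟨ζ, hζ⟩ : ∃ ζ : K, 1 + ζ + ζ ^ 2 + ζ ^ 3 + ζ ^ 4 = 0 := by
    have hdeg : (1 + Polynomial.X + Polynomial.X ^ 2 + Polynomial.X ^ 3 + Polynomial.X ^ 4 :
        Polynomial K).degree ≠ 0 := by
      have : (1 + Polynomial.X + Polynomial.X ^ 2 + Polynomial.X ^ 3 + Polynomial.X ^ 4 :
          Polynomial K).degree = 4 := by compute_degree!
      rw [this]
      norm_num
    obtain ⟨ζ, hζ⟩ := IsAlgClosed.exists_root _ hdeg
    refine ⟨ζ, ?_⟩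
    simpa using hζ
  set i5 : K := (5 : K)⁻¹ with hi5
  have h5i : (5 : K) * i5 = 1 := mul_inv_cancel₀ h5K
  -- levels
  have L0 : KLevel ζ i5 A B c4 c6 := ⟨hζ, h5i, h6K, hA4, hA6, hAf⟩
  have LF0 : KLevel ζ i5 (A ^ ℓ) (B ^ ℓ) c4 c6 := cong_level_frob L0 (hfixint _) (hfixint _)
  have L1 : KLevel ζ i5 (kPhi tK (A, B)).1 (kPhi tK (A, B)).2 c4' c6' := by
    have g4 : kE4 ((kPhi tK (A, B)).1 ^ 5) ((kPhi tK (A, B)).2 ^ 5) = c4' := by
      rw [cong_kE4_kPhi, hA4, hA6, e4]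
    have g6 : -kE6 ((kPhi tK (A, B)).1 ^ 5) ((kPhi tK (A, B)).2 ^ 5) = c6' := by
      rw [cong_kE6_kPhi, hA4, hA6, e6]
    exact ⟨hζ, h5i, h6K, g4, g6, klein_f_ne_zero_of_invariants g4 g6 hrel'⟩
  have LF1 : KLevel ζ i5 ((kPhi tK (A, B)).1 ^ ℓ) ((kPhi tK (A, B)).2 ^ ℓ) c4' c6' :=
    cong_level_frob L1 (hfixint _) (hfixint _)
  -- Frobenius commutes with `Φ_t`
  have hphi1 : (kPhi tK (A, B)).1 ^ ℓ = (kPhi tK (A ^ ℓ, B ^ ℓ)).1 := by
    have := cong_map_kPhi_fst ((FiniteField.frobeniusAlgHom (ZMod ℓ) K : K →ₐ[ZMod ℓ] K) : K →+* K)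
      tK (A, B)
    simp only [AlgHom.coe_toRingHom, cong_frob_apply] at this
    rw [this, htK, hfixint]
  have hphi2 : (kPhi tK (A, B)).2 ^ ℓ = (kPhi tK (A ^ ℓ, B ^ ℓ)).2 := by
    have := cong_map_kPhi_snd ((FiniteField.frobeniusAlgHom (ZMod ℓ) K : K →ₐ[ZMod ℓ] K) : K →+* K)
      tK (A, B)
    simp only [AlgHom.coe_toRingHom, cong_frob_apply] at this
    rw [this, htK, hfixint]
  -- the orbit and its matrix
  have horb : KOrb ζ i5 (A, B) (A ^ ℓ, B ^ ℓ) := by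
    refine kOrb_main ζ i5 hζ h5i h6K A B (A ^ ℓ) (B ^ ℓ) ?_ ?_ ?_ ?_ hAf
    · rw [LF0.h4, hA4]
    · rw [hA4]; exact hc4K
    · have h1 := LF0.h6'
      have h2 := hA6
      exact neg_injective (h1.trans h2.symm)
    · intro h0
      apply hc6K
      rw [← hA6, h0, neg_zero]
  obtain ⟨m00, m01, m10, m11, hm⟩ := kOrb_matrix L0 horb
  -- curve 1
  have L0z : KLevel ζ i5 (kPhi 0 (A, B)).1 (kPhi 0 (A, B)).2 c4 c6 := by
    rw [cong_kPhi_zero]; exact L0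
  have LF0z : KLevel ζ i5 (kPhi 0 (A ^ ℓ, B ^ ℓ)).1 (kPhi 0 (A ^ ℓ, B ^ ℓ)).2 c4 c6 := by
    rw [cong_kPhi_zero]; exact LF0
  obtain ⟨hm0P, hm0Q⟩ := hm 0 c4 c6 L0z LF0z
  have hP0 : kP LF0 = m00 • kP L0 + m01 • kQ L0 := by
    rw [cong_kP_congr LF0 LF0z (cong_kPhi_zero_fst _ _).symm (cong_kPhi_zero_snd _ _).symm, hm0P,
      cong_kP_congr L0z L0 (cong_kPhi_zero_fst _ _) (cong_kPhi_zero_snd _ _),
      cong_kQ_congr L0z L0 rfl rfl (cong_kPhi_zero_fst _ _) (cong_kPhi_zero_snd _ _)]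
  have hQ0 : kQ LF0 = m10 • kP L0 + m11 • kQ L0 := by
    rw [cong_kQ_congr LF0 LF0z rfl rfl (cong_kPhi_zero_fst _ _).symm
      (cong_kPhi_zero_snd _ _).symm, hm0Q,
      cong_kP_congr L0z L0 (cong_kPhi_zero_fst _ _) (cong_kPhi_zero_snd _ _),
      cong_kQ_congr L0z L0 rfl rfl (cong_kPhi_zero_fst _ _) (cong_kPhi_zero_snd _ _)]
  -- curve 2
  have LF1' : KLevel ζ i5 (kPhi tK (A ^ ℓ, B ^ ℓ)).1 (kPhi tK (A ^ ℓ, B ^ ℓ)).2 c4' c6' := by
    rw [← hphi1, ← hphi2]; exact LF1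
  obtain ⟨hm1P, hm1Q⟩ := hm tK c4' c6' L1 LF1'
  have hP1 : kP LF1 = m00 • kP L1 + m01 • kQ L1 := by
    rw [cong_kP_congr LF1 LF1' hphi1 hphi2, hm1P]
  have hQ1 : kQ LF1 = m10 • kP L1 + m11 • kQ L1 := by
    rw [cong_kQ_congr LF1 LF1' rfl rfl hphi1 hphi2, hm1Q]
  -- the bridges
  have hBr : BrShort (brShortW c4 c6) ((W.reductionMod ℓ)⁄K) := by
    apply brShort_of_eq
    · simp only [WeierstrassCurve.reductionMod, WeierstrassCurve.baseChange,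
        WeierstrassCurve.map_c₄, hc4def, eq_intCast, map_intCast]
    · simp only [WeierstrassCurve.reductionMod, WeierstrassCurve.baseChange,
        WeierstrassCurve.map_c₆, hc6def, eq_intCast, map_intCast]
  have hBr' : BrShort (brShortW c4' c6') ((W'.reductionMod ℓ)⁄K) := by
    apply brShort_of_eq
    · simp only [WeierstrassCurve.reductionMod, WeierstrassCurve.baseChange,
        WeierstrassCurve.map_c₄, hc4'def, eq_intCast, map_intCast]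
    · simp only [WeierstrassCurve.reductionMod, WeierstrassCurve.baseChange,
        WeierstrassCurve.map_c₆, hc6'def, eq_intCast, map_intCast]
  obtain ⟨a1, a2⟩ := cong_frob_matrix (W.reductionMod ℓ) L0 LF0 hℓ5 hBr h6K m00 m01 m10 m11 hP0 hQ0
  obtain ⟨b1, b2⟩ := cong_frob_matrix (W'.reductionMod ℓ) L1 LF1 hℓ5 hBr' h6K m00 m01 m10 m11
    hP1 hQ1
  -- independence
  have ind : ∀ a b : ℤ, a • brMap hBr h6K (kP L0) + b • brMap hBr h6K (kQ L0) = 0 →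
      (5 : ℤ) ∣ a ∧ (5 : ℤ) ∣ b := by
    intro a b h
    apply kP_kQ_indep L0 a b
    apply brMap_injective hBr h6K
    rw [map_add, map_zsmul, map_zsmul, h, map_zero]
  have ind' : ∀ a b : ℤ, a • brMap hBr' h6K (kP L1) + b • brMap hBr' h6K (kQ L1) = 0 →
      (5 : ℤ) ∣ a ∧ (5 : ℤ) ∣ b := by
    intro a b h
    apply kP_kQ_indep L1 a b
    apply brMap_injective hBr' h6K
    rw [map_add, map_zsmul, map_zsmul, h, map_zero]
  -- discriminants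
  have hΔ₁ : (W.reductionMod ℓ).Δ ≠ 0 := by
    rw [WeierstrassCurve.reductionMod, WeierstrassCurve.map_Δ, eq_intCast]
    exact fun h => hΔ ((ZMod.intCast_zmod_eq_zero_iff_dvd _ _).1 h)
  have hΔ₂ : (W'.reductionMod ℓ).Δ ≠ 0 := by
    rw [WeierstrassCurve.reductionMod, WeierstrassCurve.map_Δ, eq_intCast]
    exact fun h => hΔ' ((ZMod.intCast_zmod_eq_zero_iff_dvd _ _).1 h)
  have key := cong_trace_of_matrix (W'.reductionMod ℓ) (W.reductionMod ℓ) K hℓ2 hℓ5 hΔ₂ hΔ₁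
    _ _ _ _ ind' ind m00 m01 ((ℓ : ℤ) * m10) ((ℓ : ℤ) * m11) b1 b2 a1 a2
  exact key

end Fermat.Agent.S52
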