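import Mathlib

/-!
# S52 (3–5 switch): shared definitions — Klein's icosahedral forms

`a = A^5`, `b = B^5` where `(A, B)` are Klein's weight-1/5 forms on `X(5)`.
* `kE4 a b`, `kE6 a b` : the Eisenstein series `E₄`, `E₆` as forms in `(a, b)`;
  `kE4 ^ 3 - kE6 ^ 2 = 1728 * kD`, `kD a b = a * b * (b^2 - 11ab - a^2)^5` (`= Δ = f^5`).
* universal curve: `y² = x³ - 27 c₄ x - 54 c₆` with `c₄ = kE4`, `c₆ = - kE6`.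
* covariant `x ↦ x + t ∇^⊥ f`: in `(a, b)`-coordinates `(a, b) ↦ (a α^5, b β^5)`,
  `α = kAlpha t a b`, `β = kBeta t a b`.
* `rsC4 t c4 c6`, `rsC6 t c4 c6` : the Rubin–Silverberg polynomials: invariants `c₄, c₆` of the
  curve at `x + t ∇^⊥ f(x)` in terms of `t` and of the invariants of the curve at `x`.
All coefficients were derived by computer algebra (NOTES/S52-tools) and are checked here by `ring`.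
-/

set_option autoImplicit false

namespace Fermat.Agent.S52

variable {R : Type*} [CommRing R]

/-- `E₄` as a form of degree 4 in `(a, b) = (A^5, B^5)`. -/
def kE4 (a b : R) : R := b ^ 4 + 228 * a * b ^ 3 + 494 * a ^ 2 * b ^ 2 - 228 * a ^ 3 * b + a ^ 4

/-- `E₆` as a form of degree 6 in `(a, b) = (A^5, B^5)`. -/
def kE6 (a b : R) : R :=
  b ^ 6 - 522 * a * b ^ 5 - 10005 * a ^ 2 * b ^ 4 - 10005 * a ^ 4 * b ^ 2 + 522 * a ^ 5 * b + a ^ 6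

/-- `Δ = f^5` as a form of degree 12 in `(a, b)`. -/
def kD (a b : R) : R := a * b * (b ^ 2 - 11 * a * b - a ^ 2) ^ 5

theorem kE4_cube_sub_kE6_sq (a b : R) : kE4 a b ^ 3 - kE6 a b ^ 2 = 1728 * kD a b := by
  simp only [kE4, kE6, kD]; ring

/-- first component factor of the covariant `x + t ∇^⊥ f`. -/
def kAlpha (t a b : R) : R := 1 + t * (11 * b ^ 2 - 66 * a * b - a ^ 2)

/-- second component factor of the covariant `x + t ∇^⊥ f`. -/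
def kBeta (t a b : R) : R := 1 - t * (b ^ 2 - 66 * a * b - 11 * a ^ 2)

/-- coefficient of `t ^ 0` in `rsC4`. -/
def rsC4Coeff0 (c4 c6 : R) : R :=
  1 * c4

/-- coefficient of `t ^ 1` in `rsC4`. -/
def rsC4Coeff1 (c4 c6 : R) : R :=
  20 * c6

/-- coefficient of `t ^ 2` in `rsC4`. -/
def rsC4Coeff2 (c4 c6 : R) : R :=
  190 * c4 ^ 2

/-- coefficient of `t ^ 3` in `rsC4`. -/
def rsC4Coeff3 (c4 c6 : R) : R :=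
  1140 * c4 * c6

/-- coefficient of `t ^ 4` in `rsC4`. -/
def rsC4Coeff4 (c4 c6 : R) : R :=
  5700 * c6 ^ 2 + (-855) * c4 ^ 3

/-- coefficient of `t ^ 5` in `rsC4`. -/
def rsC4Coeff5 (c4 c6 : R) : R :=
  15504 * c4 ^ 2 * c6

/-- coefficient of `t ^ 6` in `rsC4`. -/
def rsC4Coeff6 (c4 c6 : R) : R :=
  (-63840) * c4 * c6 ^ 2 + 102600 * c4 ^ 4

/-- coefficient of `t ^ 7` in `rsC4`. -/
def rsC4Coeff7 (c4 c6 : R) : R :=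
  (-182400) * c6 ^ 3 + 259920 * c4 ^ 3 * c6

/-- coefficient of `t ^ 8` in `rsC4`. -/
def rsC4Coeff8 (c4 c6 : R) : R :=
  1126320 * c4 ^ 2 * c6 ^ 2 + (-1000350) * c4 ^ 5

/-- coefficient of `t ^ 9` in `rsC4`. -/
def rsC4Coeff9 (c4 c6 : R) : R :=
  7904000 * c4 * c6 ^ 3 + (-7736040) * c4 ^ 4 * c6

/-- coefficient of `t ^ 10` in `rsC4`. -/
def rsC4Coeff10 (c4 c6 : R) : R :=
  15808000 * c6 ^ 4 + (-5619744) * c4 ^ 3 * c6 ^ 2 + (-10003500) * c4 ^ 6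

/-- coefficient of `t ^ 11` in `rsC4`. -/
def rsC4Coeff11 (c4 c6 : R) : R :=
  54853760 * c4 ^ 2 * c6 ^ 3 + (-54685800) * c4 ^ 5 * c6

/-- coefficient of `t ^ 12` in `rsC4`. -/
def rsC4Coeff12 (c4 c6 : R) : R :=
  37939200 * c4 * c6 ^ 4 + 7202520 * c4 ^ 4 * c6 ^ 2 + (-45015750) * c4 ^ 7

/-- coefficient of `t ^ 13` in `rsC4`. -/
def rsC4Coeff13 (c4 c6 : R) : R :=
  58368000 * c6 ^ 5 + (-23201280) * c4 ^ 3 * c6 ^ 3 + (-35089200) * c4 ^ 6 * c6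

/-- coefficient of `t ^ 14` in `rsC4`. -/
def rsC4Coeff14 (c4 c6 : R) : R :=
  287462400 * c4 ^ 2 * c6 ^ 4 + (-495188640) * c4 ^ 5 * c6 ^ 2 + 207765000 * c4 ^ 8

/-- coefficient of `t ^ 15` in `rsC4`. -/
def rsC4Coeff15 (c4 c6 : R) : R :=
  466944000 * c4 * c6 ^ 5 + (-882458496) * c4 ^ 4 * c6 ^ 3 + 415530000 * c4 ^ 7 * c6

/-- coefficient of `t ^ 16` in `rsC4`. -/
def rsC4Coeff16 (c4 c6 : R) : R :=
  583680000 * c6 ^ 6 + (-1220474880) * c4 ^ 3 * c6 ^ 4 + 714711600 * c4 ^ 6 * c6 ^ 2 +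
    (-77911875) * c4 ^ 9

/-- coefficient of `t ^ 17` in `rsC4`. -/
def rsC4Coeff17 (c4 c6 : R) : R :=
  361881600 * c4 ^ 2 * c6 ^ 5 + (-715080960) * c4 ^ 5 * c6 ^ 3 + 353200500 * c4 ^ 8 * c6

/-- coefficient of `t ^ 18` in `rsC4`. -/
def rsC4Coeff18 (c4 c6 : R) : R :=
  (-622592000) * c4 * c6 ^ 6 + 2026391040 * c4 ^ 4 * c6 ^ 4 + (-2182917600) * c4 ^ 7 * c6 ^ 2 +
    779118750 * c4 ^ 10

/-- coefficient of `t ^ 19` in `rsC4`. -/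
def rsC4Coeff19 (c4 c6 : R) : R :=
  (-655360000) * c6 ^ 7 + 2005401600 * c4 ^ 3 * c6 ^ 5 + (-2044414080) * c4 ^ 6 * c6 ^ 3 +
    694372500 * c4 ^ 9 * c6

/-- coefficient of `t ^ 20` in `rsC4`. -/
def rsC4Coeff20 (c4 c6 : R) : R :=
  (-180224000) * c4 ^ 2 * c6 ^ 6 + 544997376 * c4 ^ 5 * c6 ^ 4 + (-549301500) * c4 ^ 8 * c6 ^ 2 +
    184528125 * c4 ^ 11

/-- Rubin–Silverberg polynomial for `c₄` (degree 20 in `t`). -/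
def rsC4 (t c4 c6 : R) : R :=
  rsC4Coeff0 c4 c6 + rsC4Coeff1 c4 c6 * t + rsC4Coeff2 c4 c6 * t ^ 2 + rsC4Coeff3 c4 c6 * t ^ 3 +
    rsC4Coeff4 c4 c6 * t ^ 4 + rsC4Coeff5 c4 c6 * t ^ 5 + rsC4Coeff6 c4 c6 * t ^ 6 + rsC4Coeff7
    c4 c6 * t ^ 7 + rsC4Coeff8 c4 c6 * t ^ 8 + rsC4Coeff9 c4 c6 * t ^ 9 + rsC4Coeff10 c4 c6 * t ^
    10 + rsC4Coeff11 c4 c6 * t ^ 11 + rsC4Coeff12 c4 c6 * t ^ 12 + rsC4Coeff13 c4 c6 * t ^ 13 +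
    rsC4Coeff14 c4 c6 * t ^ 14 + rsC4Coeff15 c4 c6 * t ^ 15 + rsC4Coeff16 c4 c6 * t ^ 16 +
    rsC4Coeff17 c4 c6 * t ^ 17 + rsC4Coeff18 c4 c6 * t ^ 18 + rsC4Coeff19 c4 c6 * t ^ 19 +
    rsC4Coeff20 c4 c6 * t ^ 20

theorem rsC4_def (t c4 c6 : R) : rsC4 t c4 c6 =
    rsC4Coeff0 c4 c6 + rsC4Coeff1 c4 c6 * t + rsC4Coeff2 c4 c6 * t ^ 2 + rsC4Coeff3 c4 c6 * t ^ 3
      + rsC4Coeff4 c4 c6 * t ^ 4 + rsC4Coeff5 c4 c6 * t ^ 5 + rsC4Coeff6 c4 c6 * t ^ 6 +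
      rsC4Coeff7 c4 c6 * t ^ 7 + rsC4Coeff8 c4 c6 * t ^ 8 + rsC4Coeff9 c4 c6 * t ^ 9 +
      rsC4Coeff10 c4 c6 * t ^ 10 + rsC4Coeff11 c4 c6 * t ^ 11 + rsC4Coeff12 c4 c6 * t ^ 12 +
      rsC4Coeff13 c4 c6 * t ^ 13 + rsC4Coeff14 c4 c6 * t ^ 14 + rsC4Coeff15 c4 c6 * t ^ 15 +
      rsC4Coeff16 c4 c6 * t ^ 16 + rsC4Coeff17 c4 c6 * t ^ 17 + rsC4Coeff18 c4 c6 * t ^ 18 +
      rsC4Coeff19 c4 c6 * t ^ 19 + rsC4Coeff20 c4 c6 * t ^ 20 := rfl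

/-- coefficient of `t ^ 0` in `rsC6`. -/
def rsC6Coeff0 (c4 c6 : R) : R :=
  1 * c6

/-- coefficient of `t ^ 1` in `rsC6`. -/
def rsC6Coeff1 (c4 c6 : R) : R :=
  30 * c4 ^ 2

/-- coefficient of `t ^ 2` in `rsC6`. -/
def rsC6Coeff2 (c4 c6 : R) : R :=
  435 * c4 * c6

/-- coefficient of `t ^ 3` in `rsC6`. -/
def rsC6Coeff3 (c4 c6 : R) : R :=
  2900 * c6 ^ 2 + 1160 * c4 ^ 3

/-- coefficient of `t ^ 4` in `rsC6`. -/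
def rsC6Coeff4 (c4 c6 : R) : R :=
  27405 * c4 ^ 2 * c6

/-- coefficient of `t ^ 5` in `rsC6`. -/
def rsC6Coeff5 (c4 c6 : R) : R :=
  46980 * c4 * c6 ^ 2 + 95526 * c4 ^ 4

/-- coefficient of `t ^ 6` in `rsC6`. -/
def rsC6Coeff6 (c4 c6 : R) : R :=
  156600 * c6 ^ 3 + 437175 * c4 ^ 3 * c6

/-- coefficient of `t ^ 7` in `rsC6`. -/
def rsC6Coeff7 (c4 c6 : R) : R :=
  3915000 * c4 ^ 2 * c6 ^ 2 + (-1879200) * c4 ^ 5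

/-- coefficient of `t ^ 8` in `rsC6`. -/
def rsC6Coeff8 (c4 c6 : R) : R :=
  14407200 * c4 * c6 ^ 3 + (-8554275) * c4 ^ 4 * c6

/-- coefficient of `t ^ 9` in `rsC6`. -/
def rsC6Coeff9 (c4 c6 : R) : R :=
  32016000 * c6 ^ 4 + (-42021000) * c4 ^ 3 * c6 ^ 2 + 24312150 * c4 ^ 6

/-- coefficient of `t ^ 10` in `rsC6`. -/
def rsC6Coeff10 (c4 c6 : R) : R :=
  (-216588240) * c4 ^ 2 * c6 ^ 3 + 246633255 * c4 ^ 5 * c6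

/-- coefficient of `t ^ 11` in `rsC6`. -/
def rsC6Coeff11 (c4 c6 : R) : R :=
  (-1459929600) * c4 * c6 ^ 4 + 1352475900 * c4 ^ 4 * c6 ^ 2 + 162081000 * c4 ^ 7

/-- coefficient of `t ^ 12` in `rsC6`. -/
def rsC6Coeff12 (c4 c6 : R) : R :=
  (-2433216000) * c6 ^ 5 + (-1612005600) * c4 ^ 3 * c6 ^ 3 + 4131714825 * c4 ^ 6 * c6

/-- coefficient of `t ^ 13` in `rsC6`. -/
def rsC6Coeff13 (c4 c6 : R) : R :=
  (-12044419200) * c4 ^ 2 * c6 ^ 4 + 5235216300 * c4 ^ 5 * c6 ^ 2 + 6928962750 * c4 ^ 8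

/-- coefficient of `t ^ 14` in `rsC6`. -/
def rsC6Coeff14 (c4 c6 : R) : R :=
  (-43045111800) * c4 ^ 4 * c6 ^ 3 + 43190534475 * c4 ^ 7 * c6

/-- coefficient of `t ^ 15` in `rsC6`. -/
def rsC6Coeff15 (c4 c6 : R) : R :=
  (-79420170240) * c4 ^ 3 * c6 ^ 4 + 79575287760 * c4 ^ 6 * c6 ^ 2

/-- coefficient of `t ^ 16` in `rsC6`. -/
def rsC6Coeff16 (c4 c6 : R) : R :=
  (-297825638400) * c4 ^ 2 * c6 ^ 5 + 474659611200 * c4 ^ 5 * c6 ^ 3 + (-176688550125) * c4 ^ 8 *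
    c6

/-- coefficient of `t ^ 17` in `rsC6`. -/
def rsC6Coeff17 (c4 c6 : R) : R :=
  (-700766208000) * c4 * c6 ^ 6 + 935084908800 * c4 ^ 4 * c6 ^ 4 + 77604382800 * c4 ^ 7 * c6 ^ 2
    + (-311803323750) * c4 ^ 10

/-- coefficient of `t ^ 18` in `rsC6`. -/
def rsC6Coeff18 (c4 c6 : R) : R :=
  (-778629120000) * c6 ^ 7 + (-303665356800) * c4 ^ 3 * c6 ^ 5 + 2776512362400 * c4 ^ 6 * c6 ^ 3
    + (-1694131392375) * c4 ^ 9 * c6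

/-- coefficient of `t ^ 19` in `rsC6`. -/
def rsC6Coeff19 (c4 c6 : R) : R :=
  (-4290656256000) * c4 ^ 2 * c6 ^ 6 + 8100765158400 * c4 ^ 5 * c6 ^ 4 + (-3481840250100) * c4 ^
    8 * c6 ^ 2 + (-328214025000) * c4 ^ 11

/-- coefficient of `t ^ 20` in `rsC6`. -/
def rsC6Coeff20 (c4 c6 : R) : R :=
  (-3442360320000) * c4 * c6 ^ 7 + 3892110842880 * c4 ^ 4 * c6 ^ 5 + 2424887357760 * c4 ^ 7 * c6
    ^ 3 + (-2874607835625) * c4 ^ 10 * c6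

/-- coefficient of `t ^ 21` in `rsC6`. -/
def rsC6Coeff21 (c4 c6 : R) : R :=
  (-3278438400000) * c6 ^ 8 + 5125838438400 * c4 ^ 3 * c6 ^ 6 + (-2709129888000) * c4 ^ 6 * c6 ^
    4 + 3077188825500 * c4 ^ 9 * c6 ^ 2 + (-2215444668750) * c4 ^ 12

/-- coefficient of `t ^ 22` in `rsC6`. -/
def rsC6Coeff22 (c4 c6 : R) : R :=
  (-4573421568000) * c4 ^ 2 * c6 ^ 7 + 7701051801600 * c4 ^ 5 * c6 ^ 5 + (-1724509423800) * c4 ^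
    8 * c6 ^ 3 + (-1403114956875) * c4 ^ 11 * c6

/-- coefficient of `t ^ 23` in `rsC6`. -/
def rsC6Coeff23 (c4 c6 : R) : R :=
  6157762560000 * c4 * c6 ^ 8 + (-30337884979200) * c4 ^ 4 * c6 ^ 6 + 49888700928000 * c4 ^ 7 *
    c6 ^ 4 + (-33414470973000) * c4 ^ 10 * c6 ^ 2 + 7705894500000 * c4 ^ 13

/-- coefficient of `t ^ 24` in `rsC6`. -/
def rsC6Coeff24 (c4 c6 : R) : R :=
  5131468800000 * c6 ^ 9 + (-22779445248000) * c4 ^ 3 * c6 ^ 7 + 35246094796800 * c4 ^ 6 * c6 ^ 5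
    + (-22687218914400) * c4 ^ 9 * c6 ^ 3 + 5089101159375 * c4 ^ 12 * c6

/-- coefficient of `t ^ 25` in `rsC6`. -/
def rsC6Coeff25 (c4 c6 : R) : R :=
  (-18216714240000) * c4 ^ 2 * c6 ^ 8 + 71274600677376 * c4 ^ 5 * c6 ^ 6 + (-105528606261120) *
    c4 ^ 8 * c6 ^ 4 + 70097953635000 * c4 ^ 11 * c6 ^ 2 + (-17627233668750) * c4 ^ 14

/-- coefficient of `t ^ 26` in `rsC6`. -/
def rsC6Coeff26 (c4 c6 : R) : R :=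
  (-41051750400000) * c4 * c6 ^ 9 + 163803539865600 * c4 ^ 4 * c6 ^ 7 + (-245438120632320) * c4 ^
    7 * c6 ^ 5 + 163672057566000 * c4 ^ 10 * c6 ^ 3 + (-40985726371875) * c4 ^ 13 * c6

/-- coefficient of `t ^ 27` in `rsC6`. -/
def rsC6Coeff27 (c4 c6 : R) : R :=
  (-30408704000000) * c6 ^ 10 + 111934439424000 * c4 ^ 3 * c6 ^ 8 + (-143803576074240) * c4 ^ 6 *
    c6 ^ 6 + 63806176396800 * c4 ^ 9 * c6 ^ 4 + 8104032382500 * c4 ^ 12 * c6 ^ 2 +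
    (-9632368125000) * c4 ^ 15

/-- coefficient of `t ^ 28` in `rsC6`. -/
def rsC6Coeff28 (c4 c6 : R) : R :=
  (-21438136320000) * c4 ^ 2 * c6 ^ 9 + 85731449241600 * c4 ^ 5 * c6 ^ 7 + (-128580522647040) *
    c4 ^ 8 * c6 ^ 5 + 85719228804000 * c4 ^ 11 * c6 ^ 3 + (-21432019078125) * c4 ^ 14 * c6

/-- coefficient of `t ^ 29` in `rsC6`. -/
def rsC6Coeff29 (c4 c6 : R) : R :=
  5033164800000 * c4 * c6 ^ 10 + (-31344427008000) * c4 ^ 4 * c6 ^ 8 + 75042714746880 * c4 ^ 7 *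
    c6 ^ 6 + (-87394892457600) * c4 ^ 10 * c6 ^ 4 + 49873523512500 * c4 ^ 13 * c6 ^ 2 +
    (-11210083593750) * c4 ^ 16

/-- coefficient of `t ^ 30` in `rsC6`. -/
def rsC6Coeff30 (c4 c6 : R) : R :=
  3355443200000 * c6 ^ 11 + (-17532190720000) * c4 ^ 3 * c6 ^ 9 + 36574189977600 * c4 ^ 6 * c6 ^
    7 + (-38083944628224) * c4 ^ 9 * c6 ^ 5 + 19796866155000 * c4 ^ 12 * c6 ^ 3 +
    (-4110363984375) * c4 ^ 15 * c6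

/-- Rubin–Silverberg polynomial for `c₆` (degree 30 in `t`). -/
def rsC6 (t c4 c6 : R) : R :=
  rsC6Coeff0 c4 c6 + rsC6Coeff1 c4 c6 * t + rsC6Coeff2 c4 c6 * t ^ 2 + rsC6Coeff3 c4 c6 * t ^ 3 +
    rsC6Coeff4 c4 c6 * t ^ 4 + rsC6Coeff5 c4 c6 * t ^ 5 + rsC6Coeff6 c4 c6 * t ^ 6 + rsC6Coeff7
    c4 c6 * t ^ 7 + rsC6Coeff8 c4 c6 * t ^ 8 + rsC6Coeff9 c4 c6 * t ^ 9 + rsC6Coeff10 c4 c6 * t ^
    10 + rsC6Coeff11 c4 c6 * t ^ 11 + rsC6Coeff12 c4 c6 * t ^ 12 + rsC6Coeff13 c4 c6 * t ^ 13 +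
    rsC6Coeff14 c4 c6 * t ^ 14 + rsC6Coeff15 c4 c6 * t ^ 15 + rsC6Coeff16 c4 c6 * t ^ 16 +
    rsC6Coeff17 c4 c6 * t ^ 17 + rsC6Coeff18 c4 c6 * t ^ 18 + rsC6Coeff19 c4 c6 * t ^ 19 +
    rsC6Coeff20 c4 c6 * t ^ 20 + rsC6Coeff21 c4 c6 * t ^ 21 + rsC6Coeff22 c4 c6 * t ^ 22 +
    rsC6Coeff23 c4 c6 * t ^ 23 + rsC6Coeff24 c4 c6 * t ^ 24 + rsC6Coeff25 c4 c6 * t ^ 25 +
    rsC6Coeff26 c4 c6 * t ^ 26 + rsC6Coeff27 c4 c6 * t ^ 27 + rsC6Coeff28 c4 c6 * t ^ 28 +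
    rsC6Coeff29 c4 c6 * t ^ 29 + rsC6Coeff30 c4 c6 * t ^ 30

theorem rsC6_def (t c4 c6 : R) : rsC6 t c4 c6 =
    rsC6Coeff0 c4 c6 + rsC6Coeff1 c4 c6 * t + rsC6Coeff2 c4 c6 * t ^ 2 + rsC6Coeff3 c4 c6 * t ^ 3
      + rsC6Coeff4 c4 c6 * t ^ 4 + rsC6Coeff5 c4 c6 * t ^ 5 + rsC6Coeff6 c4 c6 * t ^ 6 +
      rsC6Coeff7 c4 c6 * t ^ 7 + rsC6Coeff8 c4 c6 * t ^ 8 + rsC6Coeff9 c4 c6 * t ^ 9 +
      rsC6Coeff10 c4 c6 * t ^ 10 + rsC6Coeff11 c4 c6 * t ^ 11 + rsC6Coeff12 c4 c6 * t ^ 12 +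
      rsC6Coeff13 c4 c6 * t ^ 13 + rsC6Coeff14 c4 c6 * t ^ 14 + rsC6Coeff15 c4 c6 * t ^ 15 +
      rsC6Coeff16 c4 c6 * t ^ 16 + rsC6Coeff17 c4 c6 * t ^ 17 + rsC6Coeff18 c4 c6 * t ^ 18 +
      rsC6Coeff19 c4 c6 * t ^ 19 + rsC6Coeff20 c4 c6 * t ^ 20 + rsC6Coeff21 c4 c6 * t ^ 21 +
      rsC6Coeff22 c4 c6 * t ^ 22 + rsC6Coeff23 c4 c6 * t ^ 23 + rsC6Coeff24 c4 c6 * t ^ 24 +
      rsC6Coeff25 c4 c6 * t ^ 25 + rsC6Coeff26 c4 c6 * t ^ 26 + rsC6Coeff27 c4 c6 * t ^ 27 +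
      rsC6Coeff28 c4 c6 * t ^ 28 + rsC6Coeff29 c4 c6 * t ^ 29 + rsC6Coeff30 c4 c6 * t ^ 30 := rfl

theorem rsC4_zero (c4 c6 : R) : rsC4 0 c4 c6 = c4 := by
  simp [rsC4, rsC4Coeff0]

theorem rsC6_zero (c4 c6 : R) : rsC6 0 c4 c6 = c6 := by
  simp [rsC6, rsC6Coeff0]

end Fermat.Agent.S52
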