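/-
S52, piece MOD (helper52): the integral Weierstrass model of the switched curve.

For `t = 1728 * M * s`, `M = 60 c₄ c₆ Δ`, the curve with invariants `(rsC4 t c₄ c₆, rsC6 t c₄ c₆)` has the integral model
`switchCurve W s = (a₁, a₂, a₃, a₄ - 36 M s U, a₆ - M s (3 b₂ U + 2 V))`, `U = (rsC4 - c₄)/t`,
`V = (rsC6 - c₆)/t`.  It is congruent to `W` modulo `M`; hence the reductions at
the primes `ℓ ∣ M` coincide, and so do `apOfModel`, good primes and semistability at those primes.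
-/
import Fermat.Agent.S52.Plan
import Fermat.Prelude.Def_FLTPrelim_Modularity

set_option autoImplicit false

namespace Fermat.Agent.S52

section Tails

variable {R : Type*} [CommRing R]

/-- `(rsC4 t c₄ c₆ - c₄) / t`. -/
def rsC4Tail (t c4 c6 : R) : R :=
  rsC4Coeff1 c4 c6 +
    rsC4Coeff2 c4 c6 * t +
    rsC4Coeff3 c4 c6 * t ^ 2 +
    rsC4Coeff4 c4 c6 * t ^ 3 +
    rsC4Coeff5 c4 c6 * t ^ 4 +
    rsC4Coeff6 c4 c6 * t ^ 5 +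
    rsC4Coeff7 c4 c6 * t ^ 6 +
    rsC4Coeff8 c4 c6 * t ^ 7 +
    rsC4Coeff9 c4 c6 * t ^ 8 +
    rsC4Coeff10 c4 c6 * t ^ 9 +
    rsC4Coeff11 c4 c6 * t ^ 10 +
    rsC4Coeff12 c4 c6 * t ^ 11 +
    rsC4Coeff13 c4 c6 * t ^ 12 +
    rsC4Coeff14 c4 c6 * t ^ 13 +
    rsC4Coeff15 c4 c6 * t ^ 14 +
    rsC4Coeff16 c4 c6 * t ^ 15 +
    rsC4Coeff17 c4 c6 * t ^ 16 +
    rsC4Coeff18 c4 c6 * t ^ 17 +
    rsC4Coeff19 c4 c6 * t ^ 18 +
    rsC4Coeff20 c4 c6 * t ^ 19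

/-- `(rsC6 t c₄ c₆ - c₆) / t`. -/
def rsC6Tail (t c4 c6 : R) : R :=
  rsC6Coeff1 c4 c6 +
    rsC6Coeff2 c4 c6 * t +
    rsC6Coeff3 c4 c6 * t ^ 2 +
    rsC6Coeff4 c4 c6 * t ^ 3 +
    rsC6Coeff5 c4 c6 * t ^ 4 +
    rsC6Coeff6 c4 c6 * t ^ 5 +
    rsC6Coeff7 c4 c6 * t ^ 6 +
    rsC6Coeff8 c4 c6 * t ^ 7 +
    rsC6Coeff9 c4 c6 * t ^ 8 +
    rsC6Coeff10 c4 c6 * t ^ 9 +
    rsC6Coeff11 c4 c6 * t ^ 10 +
    rsC6Coeff12 c4 c6 * t ^ 11 +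
    rsC6Coeff13 c4 c6 * t ^ 12 +
    rsC6Coeff14 c4 c6 * t ^ 13 +
    rsC6Coeff15 c4 c6 * t ^ 14 +
    rsC6Coeff16 c4 c6 * t ^ 15 +
    rsC6Coeff17 c4 c6 * t ^ 16 +
    rsC6Coeff18 c4 c6 * t ^ 17 +
    rsC6Coeff19 c4 c6 * t ^ 18 +
    rsC6Coeff20 c4 c6 * t ^ 19 +
    rsC6Coeff21 c4 c6 * t ^ 20 +
    rsC6Coeff22 c4 c6 * t ^ 21 +
    rsC6Coeff23 c4 c6 * t ^ 22 +
    rsC6Coeff24 c4 c6 * t ^ 23 +
    rsC6Coeff25 c4 c6 * t ^ 24 +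
    rsC6Coeff26 c4 c6 * t ^ 25 +
    rsC6Coeff27 c4 c6 * t ^ 26 +
    rsC6Coeff28 c4 c6 * t ^ 27 +
    rsC6Coeff29 c4 c6 * t ^ 28 +
    rsC6Coeff30 c4 c6 * t ^ 29

theorem rsC4_eq_add (t c4 c6 : R) : rsC4 t c4 c6 = c4 + t * rsC4Tail t c4 c6 := by
  simp only [rsC4, rsC4Tail, rsC4Coeff0]
  ring

theorem rsC6_eq_add (t c4 c6 : R) : rsC6 t c4 c6 = c6 + t * rsC6Tail t c4 c6 := by
  simp only [rsC6, rsC6Tail, rsC6Coeff0]
  ring

end Tails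

open WeierstrassCurve

/-! ### The model -/

/-- The modulus `M = 60 c₄ c₆ Δ`. -/
def switchM (W : WeierstrassCurve ℤ) : ℤ := 60 * W.c₄ * W.c₆ * W.Δ

/-- The parameter `t = 1728 M s`. -/
def switchT (W : WeierstrassCurve ℤ) (s : ℤ) : ℤ := 1728 * switchM W * s

/-- The integral model of the curve with invariants `rsC4 t c₄ c₆`, `rsC6 t c₄ c₆`,
`t = 1728 M s`: same `a₁, a₂, a₃` as `W`. -/
def switchCurve (W : WeierstrassCurve ℤ) (s : ℤ) : WeierstrassCurve ℤ where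
  a₁ := W.a₁
  a₂ := W.a₂
  a₃ := W.a₃
  a₄ := W.a₄ - 36 * (switchM W * s) * rsC4Tail (switchT W s) W.c₄ W.c₆
  a₆ := W.a₆ - switchM W * s * (3 * W.b₂ * rsC4Tail (switchT W s) W.c₄ W.c₆
    + 2 * rsC6Tail (switchT W s) W.c₄ W.c₆)

variable (W : WeierstrassCurve ℤ) (s : ℤ)

@[simp] theorem switchCurve_a₁ : (switchCurve W s).a₁ = W.a₁ := rfl

@[simp] theorem switchCurve_a₂ : (switchCurve W s).a₂ = W.a₂ := rfl

@[simp] theorem switchCurve_a₃ : (switchCurve W s).a₃ = W.a₃ := rfl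

theorem switchCurve_a₄ : (switchCurve W s).a₄ =
    W.a₄ - 36 * (switchM W * s) * rsC4Tail (switchT W s) W.c₄ W.c₆ := rfl

theorem switchCurve_a₆ : (switchCurve W s).a₆ =
    W.a₆ - switchM W * s * (3 * W.b₂ * rsC4Tail (switchT W s) W.c₄ W.c₆
      + 2 * rsC6Tail (switchT W s) W.c₄ W.c₆) := rfl

theorem switchCurve_b₂ : (switchCurve W s).b₂ = W.b₂ := rfl

/-- **(M1)** for `c₄`. -/
theorem switchCurve_c₄ : (switchCurve W s).c₄ = rsC4 (switchT W s) W.c₄ W.c₆ := by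
  rw [rsC4_eq_add]
  simp only [WeierstrassCurve.c₄, WeierstrassCurve.b₂, WeierstrassCurve.b₄, switchCurve_a₁,
    switchCurve_a₂, switchCurve_a₃, switchCurve_a₄]
  generalize rsC4Tail (switchT W s) _ _ = U
  simp only [switchT]
  ring

/-- **(M1)** for `c₆`. -/
theorem switchCurve_c₆ : (switchCurve W s).c₆ = rsC6 (switchT W s) W.c₄ W.c₆ := by
  rw [rsC6_eq_add]
  simp only [WeierstrassCurve.c₆, WeierstrassCurve.b₂, WeierstrassCurve.b₄, WeierstrassCurve.b₆,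
    switchCurve_a₁, switchCurve_a₂, switchCurve_a₃, switchCurve_a₄, switchCurve_a₆]
  generalize rsC4Tail (switchT W s) _ _ = U
  generalize rsC6Tail (switchT W s) _ _ = V
  simp only [switchT]
  ring

theorem switchCurve_zero : switchCurve W 0 = W := by
  ext <;> simp [switchCurve]

/-! ### (M2): congruence modulo `M` -/

/-- `M ∣ a₄' - a₄`. -/
theorem switchM_dvd_a₄_sub : switchM W ∣ (switchCurve W s).a₄ - W.a₄ := by
  rw [switchCurve_a₄]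
  exact ⟨-(36 * s * rsC4Tail (switchT W s) W.c₄ W.c₆), by ring⟩

/-- `M ∣ a₆' - a₆`. -/
theorem switchM_dvd_a₆_sub : switchM W ∣ (switchCurve W s).a₆ - W.a₆ := by
  rw [switchCurve_a₆]
  exact ⟨-(s * (3 * W.b₂ * rsC4Tail (switchT W s) W.c₄ W.c₆
    + 2 * rsC6Tail (switchT W s) W.c₄ W.c₆)), by ring⟩

/-- **(M2)** the reductions modulo a divisor `ℓ` of `M` coincide. -/
theorem switchCurve_reductionMod {ℓ : ℕ} (hℓ : (ℓ : ℤ) ∣ switchM W) :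
    (switchCurve W s).reductionMod ℓ = W.reductionMod ℓ := by
  have h4 : ((switchCurve W s).a₄ : ZMod ℓ) = (W.a₄ : ZMod ℓ) := by
    have := (ZMod.intCast_zmod_eq_zero_iff_dvd _ ℓ).mpr (hℓ.trans (switchM_dvd_a₄_sub W s))
    push_cast at this
    exact sub_eq_zero.mp this
  have h6 : ((switchCurve W s).a₆ : ZMod ℓ) = (W.a₆ : ZMod ℓ) := by
    have := (ZMod.intCast_zmod_eq_zero_iff_dvd _ ℓ).mpr (hℓ.trans (switchM_dvd_a₆_sub W s))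
    push_cast at this
    exact sub_eq_zero.mp this
  unfold WeierstrassCurve.reductionMod
  ext
  · simp [WeierstrassCurve.map]
  · simp [WeierstrassCurve.map]
  · simp [WeierstrassCurve.map]
  · simpa [WeierstrassCurve.map] using h4
  · simpa [WeierstrassCurve.map] using h6

/-- **(M2)** same `a_ℓ` at the primes dividing `M`. -/
theorem switchCurve_apOfModel {ℓ : ℕ} (hℓ : (ℓ : ℤ) ∣ switchM W) :
    (switchCurve W s).apOfModel ℓ = W.apOfModel ℓ := by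
  unfold WeierstrassCurve.apOfModel
  rw [switchCurve_reductionMod W s hℓ]

theorem switchCurve_dvd_of_reductionMod {ℓ : ℕ} {W₁ W₂ : WeierstrassCurve ℤ}
    (h : W₁.reductionMod ℓ = W₂.reductionMod ℓ) :
    ((ℓ : ℤ) ∣ W₁.Δ ↔ (ℓ : ℤ) ∣ W₂.Δ) ∧ ((ℓ : ℤ) ∣ W₁.c₄ ↔ (ℓ : ℤ) ∣ W₂.c₄) := by
  unfold WeierstrassCurve.reductionMod at h
  have hΔ := congrArg WeierstrassCurve.Δ h
  have hc := congrArg WeierstrassCurve.c₄ h
  rw [WeierstrassCurve.map_Δ, WeierstrassCurve.map_Δ] at hΔ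
  rw [WeierstrassCurve.map_c₄, WeierstrassCurve.map_c₄] at hc
  simp only [eq_intCast] at hΔ hc
  constructor
  · rw [← ZMod.intCast_zmod_eq_zero_iff_dvd, ← ZMod.intCast_zmod_eq_zero_iff_dvd, hΔ]
  · rw [← ZMod.intCast_zmod_eq_zero_iff_dvd, ← ZMod.intCast_zmod_eq_zero_iff_dvd, hc]

/-- **(M2)** `ℓ ∣ Δ' ↔ ℓ ∣ Δ` at the primes dividing `M`. -/
theorem switchCurve_dvd_Δ_iff {ℓ : ℕ} (hℓ : (ℓ : ℤ) ∣ switchM W) :
    (ℓ : ℤ) ∣ (switchCurve W s).Δ ↔ (ℓ : ℤ) ∣ W.Δ :=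
  (switchCurve_dvd_of_reductionMod (switchCurve_reductionMod W s hℓ)).1

/-- **(M2)** `ℓ ∣ c₄' ↔ ℓ ∣ c₄` at the primes dividing `M`. -/
theorem switchCurve_dvd_c₄_iff {ℓ : ℕ} (hℓ : (ℓ : ℤ) ∣ switchM W) :
    (ℓ : ℤ) ∣ (switchCurve W s).c₄ ↔ (ℓ : ℤ) ∣ W.c₄ :=
  (switchCurve_dvd_of_reductionMod (switchCurve_reductionMod W s hℓ)).2

/-- **(M2)** good primes coincide among the primes dividing `M`. -/
theorem switchCurve_isGoodPrimeFor_iff {ℓ : ℕ} (hℓ : (ℓ : ℤ) ∣ switchM W) :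
    (switchCurve W s).IsGoodPrimeFor ℓ ↔ W.IsGoodPrimeFor ℓ := by
  unfold WeierstrassCurve.IsGoodPrimeFor
  rw [switchCurve_dvd_Δ_iff W s hℓ]

/-- Semistability at the primes dividing `M`. -/
theorem switchCurve_semistable_at {ℓ : ℕ} (hℓp : ℓ.Prime) (hW : W.IsSemistableModel)
    (hℓ : (ℓ : ℤ) ∣ switchM W) (hΔ : (ℓ : ℤ) ∣ (switchCurve W s).Δ) :
    ¬ (ℓ : ℤ) ∣ (switchCurve W s).c₄ := by
  rw [switchCurve_dvd_c₄_iff W s hℓ]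
  exact hW ℓ hℓp ((switchCurve_dvd_Δ_iff W s hℓ).mp hΔ)

/-! ### (M3): the discriminant does not vanish -/

theorem switchT_dvd_c₄_sub : switchT W s ∣ (switchCurve W s).c₄ - W.c₄ := by
  rw [switchCurve_c₄, rsC4_eq_add]
  exact ⟨rsC4Tail (switchT W s) W.c₄ W.c₆, by ring⟩

theorem switchT_dvd_c₆_sub : switchT W s ∣ (switchCurve W s).c₆ - W.c₆ := by
  rw [switchCurve_c₆, rsC6_eq_add]
  exact ⟨rsC6Tail (switchT W s) W.c₄ W.c₆, by ring⟩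

/-- `1728 Δ' ≡ 1728 Δ mod t`. -/
theorem switchT_dvd_Δ_sub : switchT W s ∣ 1728 * (switchCurve W s).Δ - 1728 * W.Δ := by
  have h1 := (switchCurve W s).c_relation
  have h2 := W.c_relation
  obtain ⟨u, hu⟩ := switchT_dvd_c₄_sub W s
  obtain ⟨v, hv⟩ := switchT_dvd_c₆_sub W s
  refine ⟨u * ((switchCurve W s).c₄ ^ 2 + (switchCurve W s).c₄ * W.c₄ + W.c₄ ^ 2)
    - v * ((switchCurve W s).c₆ + W.c₆), ?_⟩
  linear_combination h1 - h2 + ((switchCurve W s).c₄ ^ 2 + (switchCurve W s).c₄ * W.c₄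
    + W.c₄ ^ 2) * hu - ((switchCurve W s).c₆ + W.c₆) * hv

/-- **(M3)** `Δ' ≠ 0`. -/
theorem switchCurve_Δ_ne_zero (hΔ : W.Δ ≠ 0) (h4 : W.c₄ ≠ 0) (h6 : W.c₆ ≠ 0) (hs : s ≠ 0) :
    (switchCurve W s).Δ ≠ 0 := by
  intro h0
  have hd := switchT_dvd_Δ_sub W s
  rw [h0, mul_zero, zero_sub, dvd_neg] at hd
  have hne : (1728 : ℤ) * W.Δ ≠ 0 := mul_ne_zero (by norm_num) hΔ
  have hle := Int.le_of_dvd (abs_pos.mpr hne) ((dvd_abs _ _).mpr ((abs_dvd _ _).mpr hd))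
  -- `|t| = 1728 * 60 * |c₄| * |c₆| * |Δ| * |s| ≥ 1728 * 60 * |Δ|`
  have e : |switchT W s| = 1728 * |W.Δ| * (60 * (|W.c₄| * |W.c₆| * |s|)) := by
    simp only [switchT, switchM, abs_mul]
    norm_num
    ring
  have h1 : (1 : ℤ) ≤ |W.c₄| := Int.one_le_abs h4
  have h2 : (1 : ℤ) ≤ |W.c₆| := Int.one_le_abs h6
  have h3 : (1 : ℤ) ≤ |s| := Int.one_le_abs hs
  have h4' : (1 : ℤ) ≤ |W.Δ| := Int.one_le_abs hΔ
  have h5 : (1 : ℤ) ≤ |W.c₄| * |W.c₆| * |s| := by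
    have := mul_le_mul (mul_le_mul h1 h2 (by norm_num) (by positivity)) h3 (by norm_num)
      (by positivity)
    simpa using this
  have e2 : |(1728 : ℤ) * W.Δ| = 1728 * |W.Δ| := by
    rw [abs_mul]; norm_num
  rw [e, e2] at hle
  nlinarith

end Fermat.Agent.S52
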