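import Fermat.Agent.S52.PlanRS
import Fermat.Agent.S52.Model
import Fermat.Agent.S52.Exists

/-!
# S52, piece SS: the switched curve is semistable

`switchCurve_isSemistable : W.IsSemistableModel → W.Δ ≠ 0 → ∀ s, (switchCurve W s).IsSemistableModel`.

* primes `ℓ ∣ M = 60 c₄ c₆ Δ`: `switchCurve_semistable_at` (Model.lean);
* primes `ℓ ∤ M`: over `k = F̄_ℓ` take `(a, b)` with `kE4 a b = c̄₄`, `-kE6 a b = c̄₆` (X0). If `ℓ`
  divides `Δ'` and `c₄'`, it divides `c₆'`, so by the Rubin–Silverberg identities (PlanRS)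
  `kE4` and `kE6` vanish at `(a α⁵, b β⁵)`; by NOCOMMON `a α⁵ = b β⁵ = 0`, and `a, b ≠ 0` because
  `kD a b ≠ 0`; so `α = β = 0`, whence `12 t (b² - 11ab - a²) = α - β = 0` with `t ≠ 0`,
  i.e. `kD a b = 0`: contradiction (`ss_core`).
-/

set_option autoImplicit false

namespace Fermat.Agent.S52

open WeierstrassCurve

section maps

variable {R S : Type*} [CommRing R] [CommRing S]

theorem ss_map_rsC4 (f : R →+* S) (t c4 c6 : R) :
    f (rsC4 t c4 c6) = rsC4 (f t) (f c4) (f c6) := by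
  simp only [rsC4, rsC4Coeff0, rsC4Coeff1, rsC4Coeff2, rsC4Coeff3, rsC4Coeff4, rsC4Coeff5,
    rsC4Coeff6, rsC4Coeff7, rsC4Coeff8, rsC4Coeff9, rsC4Coeff10, rsC4Coeff11, rsC4Coeff12,
    rsC4Coeff13, rsC4Coeff14, rsC4Coeff15, rsC4Coeff16, rsC4Coeff17, rsC4Coeff18, rsC4Coeff19,
    rsC4Coeff20, map_add, map_mul, map_pow, map_neg, map_one, map_ofNat]

theorem ss_map_rsC6 (f : R →+* S) (t c4 c6 : R) :
    f (rsC6 t c4 c6) = rsC6 (f t) (f c4) (f c6) := by
  simp only [rsC6, rsC6Coeff0, rsC6Coeff1, rsC6Coeff2, rsC6Coeff3, rsC6Coeff4, rsC6Coeff5,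
    rsC6Coeff6, rsC6Coeff7, rsC6Coeff8, rsC6Coeff9, rsC6Coeff10, rsC6Coeff11, rsC6Coeff12,
    rsC6Coeff13, rsC6Coeff14, rsC6Coeff15, rsC6Coeff16, rsC6Coeff17, rsC6Coeff18, rsC6Coeff19,
    rsC6Coeff20, rsC6Coeff21, rsC6Coeff22, rsC6Coeff23, rsC6Coeff24, rsC6Coeff25, rsC6Coeff26,
    rsC6Coeff27, rsC6Coeff28, rsC6Coeff29, rsC6Coeff30, map_add, map_mul, map_pow, map_neg,
    map_one, map_ofNat]

end maps

section field

variable {k : Type*} [Field k] [IsAlgClosed k]

/-- Over an algebraically closed field with `30 ≠ 0`: for invariants `c4, c6 ≠ 0` with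
`c4 ^ 3 ≠ c6 ^ 2`, the Rubin–Silverberg polynomials `rsC4 t c4 c6` and `rsC6 t c4 c6` never vanish
simultaneously. -/
theorem ss_core (h30 : (30 : k) ≠ 0) {c4 c6 : k} (hc4 : c4 ≠ 0) (hc6 : c6 ≠ 0)
    (hΔ : c4 ^ 3 - c6 ^ 2 ≠ 0) (t : k) (h4 : rsC4 t c4 c6 = 0) (h6 : rsC6 t c4 c6 = 0) :
    False := by
  obtain ⟨a, b, ha, hb⟩ := exists_klein_ab h30 hc4 hc6 hΔ
  have e4 := kE4_covariant t a b
  have e6 := kE6_covariant t a b
  rw [ha, hb, h4] at e4
  rw [ha, hb, h6, neg_eq_zero] at e6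
  obtain ⟨hA, hB⟩ := kE4_kE6_eq_zero_imp h30 e4 e6
  -- `kD a b ≠ 0`
  have hD : (1728 : k) * kD a b ≠ 0 := by
    have h := kE4_cube_sub_kE6_sq a b
    rw [← h]
    intro h0
    apply hΔ
    rw [← ha, ← hb]
    linear_combination h0
  have hD' : kD a b ≠ 0 := right_ne_zero_of_mul hD
  have ha0 : a ≠ 0 := by
    intro h
    apply hD'
    simp [kD, h]
  have hb0 : b ≠ 0 := by
    intro h
    apply hD'
    simp [kD, h]
  have hq : b ^ 2 - 11 * a * b - a ^ 2 ≠ 0 := by
    intro h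
    apply hD'
    simp [kD, h]
  have hα : kAlpha t a b = 0 := by
    rcases mul_eq_zero.mp hA with h | h
    · exact absurd h ha0
    · exact pow_eq_zero_iff (by norm_num) |>.mp h
  have hβ : kBeta t a b = 0 := by
    rcases mul_eq_zero.mp hB with h | h
    · exact absurd h hb0
    · exact pow_eq_zero_iff (by norm_num) |>.mp h
  simp only [kAlpha, kBeta] at hα hβ
  have h12 : (12 : k) ≠ 0 := by
    have h2 : (2 : k) ≠ 0 := fun h => h30 (by linear_combination 15 * h)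
    have h3 : (3 : k) ≠ 0 := fun h => h30 (by linear_combination 10 * h)
    have e : (12 : k) = 2 ^ 2 * 3 := by norm_num
    rw [e]
    exact mul_ne_zero (pow_ne_zero _ h2) h3
  have ht : t ≠ 0 := by
    intro h
    rw [h] at hβ
    simp at hβ
  have hz : t * (12 * (b ^ 2 - 11 * a * b - a ^ 2)) = 0 := by
    linear_combination hα - hβ
  rcases mul_eq_zero.mp hz with h | h
  · exact ht h
  · rcases mul_eq_zero.mp h with h | h
    · exact h12 h
    · exact hq h

end field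

/-- **SS**: the switched curve is semistable (the hypothesis `Δ ≠ 0` is not used; it is kept so
that the signature is the one of `StmtSS` in `Wiring.lean`). -/
theorem switchCurve_isSemistable {W : WeierstrassCurve ℤ} (hW : W.IsSemistableModel)
    (_hΔ : W.Δ ≠ 0) (s : ℤ) : (switchCurve W s).IsSemistableModel := by
  intro ℓ hℓ hdΔ hdc4
  by_cases hM : (ℓ : ℤ) ∣ switchM W
  · exact switchCurve_semistable_at W s hℓ hW hM hdΔ hdc4
  · have : Fact ℓ.Prime := ⟨hℓ⟩
    let f : ℤ →+* AlgebraicClosure (ZMod ℓ) := Int.castRingHom (AlgebraicClosure (ZMod ℓ))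
    have hf : ∀ x : ℤ, f x = 0 ↔ (ℓ : ℤ) ∣ x := fun x =>
      CharP.intCast_eq_zero_iff (AlgebraicClosure (ZMod ℓ)) ℓ x
    -- the factors of `M` are units mod `ℓ`
    have hM' : f (switchM W) ≠ 0 := fun h => hM ((hf _).mp h)
    simp only [switchM, map_mul] at hM'
    have h60 : f 60 ≠ 0 := left_ne_zero_of_mul (left_ne_zero_of_mul (left_ne_zero_of_mul hM'))
    have hc4 : f W.c₄ ≠ 0 := right_ne_zero_of_mul (left_ne_zero_of_mul (left_ne_zero_of_mul hM'))
    have hc6 : f W.c₆ ≠ 0 := right_ne_zero_of_mul (left_ne_zero_of_mul hM')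
    have hΔ : f W.Δ ≠ 0 := right_ne_zero_of_mul hM'
    have h60' : (60 : AlgebraicClosure (ZMod ℓ)) ≠ 0 := by
      simpa [f] using h60
    have h30 : (30 : AlgebraicClosure (ZMod ℓ)) ≠ 0 := fun h => h60' (by linear_combination 2 * h)
    have h2 : (2 : AlgebraicClosure (ZMod ℓ)) ≠ 0 := fun h => h30 (by linear_combination 15 * h)
    have h3 : (3 : AlgebraicClosure (ZMod ℓ)) ≠ 0 := fun h => h30 (by linear_combination 10 * h)
    have h1728 : (1728 : AlgebraicClosure (ZMod ℓ)) ≠ 0 := by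
      have e : (1728 : AlgebraicClosure (ZMod ℓ)) = 2 ^ 6 * 3 ^ 3 := by norm_num
      rw [e]
      exact mul_ne_zero (pow_ne_zero _ h2) (pow_ne_zero _ h3)
    have hrel : f W.c₄ ^ 3 - f W.c₆ ^ 2 ≠ 0 := by
      have h := congrArg f W.c_relation
      simp only [map_mul, map_sub, map_pow, map_ofNat] at h
      rw [← h]
      exact mul_ne_zero h1728 hΔ
    -- `c₄'`, `c₆'` vanish mod `ℓ`
    have h4 : f (switchCurve W s).c₄ = 0 := (hf _).mpr hdc4
    have hΔ' : f (switchCurve W s).Δ = 0 := (hf _).mpr hdΔ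
    have h6 : f (switchCurve W s).c₆ = 0 := by
      have h := congrArg f (switchCurve W s).c_relation
      simp only [map_mul, map_sub, map_pow, map_ofNat] at h
      rw [h4, hΔ'] at h
      have : f (switchCurve W s).c₆ ^ 2 = 0 := by linear_combination h
      exact pow_eq_zero_iff (by norm_num) |>.mp this
    rw [switchCurve_c₄, ss_map_rsC4] at h4
    rw [switchCurve_c₆, ss_map_rsC6] at h6
    exact ss_core h30 hc4 hc6 hrel _ h4 h6

end Fermat.Agent.S52
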