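import Mathlib
import Fermat.Prelude.Def_FLTPrelim_Modularity

/-!
# S52 piece AR (arithmetic)

A semistable integral Weierstrass model with `Δ ≠ 0` has `c₄ ≠ 0` and `c₆ ≠ 0`.
-/

set_option autoImplicit false

namespace Fermat.Agent.S52

/-- an integer without prime divisors is `±1`. -/
theorem ar_eq_one_or_neg_one (d : ℤ) (h : ∀ p : ℕ, p.Prime → ¬ (p : ℤ) ∣ d) : d = 1 ∨ d = -1 := by
  have h1 : d.natAbs = 1 := by
    by_contra hne
    obtain ⟨p, hp, hpd⟩ := Nat.exists_prime_and_dvd hne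
    exact h p hp (Int.natCast_dvd.2 hpd)
  exact Int.natAbs_eq_natAbs_iff.1 (by simpa using h1)

/-- `1728` is not a square. -/
theorem ar_sq_ne_1728 (x : ℤ) : x ^ 2 ≠ 1728 := by
  intro h
  have h1 : x < 42 := by nlinarith
  have h2 : -42 < x := by nlinarith
  interval_cases x <;> omega

/-- the cube roots of `±1728` are `±12`. -/
theorem ar_cube_eq (x : ℤ) (h : x ^ 3 = 1728 ∨ x ^ 3 = -1728) : x = 12 ∨ x = -12 := by
  have h1 : x < 13 := by
    by_contra hc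
    have hx : 13 ≤ x := not_lt.1 hc
    have : (13 : ℤ) ^ 3 ≤ x ^ 3 := pow_le_pow_left₀ (by norm_num) hx 3
    rcases h with h | h <;> omega
  have h2 : -13 < x := by
    by_contra hc
    have hx : 13 ≤ -x := by omega
    have : (13 : ℤ) ^ 3 ≤ (-x) ^ 3 := pow_le_pow_left₀ (by norm_num) hx 3
    have e : (-x) ^ 3 = -(x ^ 3) := by ring
    rcases h with h | h <;> omega
  interval_cases x <;> omega

/-- `(x² + 4y)² ≡ 0, 1 mod 8`, never `4`. -/
theorem ar_mod8 (x y : ZMod 8) : (x ^ 2 + 4 * y) ^ 2 ≠ 4 := by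
  revert x y; decide

/-- `b₂² − 24 b₄ = ±12` is impossible for an integral Weierstrass curve. -/
theorem ar_c4_ne_twelve (W : WeierstrassCurve ℤ) : ¬ (W.c₄ = 12 ∨ W.c₄ = -12) := by
  intro h
  have hc : ((W.c₄ : ℤ) : ZMod 8) = 4 := by
    rcases h with h | h <;> rw [h] <;> decide
  have e : W.c₄ = (W.a₁ ^ 2 + 4 * W.a₂) ^ 2 - 24 * W.b₄ := by
    rw [WeierstrassCurve.c₄, WeierstrassCurve.b₂]
  rw [e] at hc
  push_cast at hc
  have h24 : (24 : ZMod 8) = 0 := by decide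
  rw [h24, zero_mul, sub_zero] at hc
  exact ar_mod8 _ _ hc

/-- **AR**: semistable and `Δ ≠ 0` imply `c₄ ≠ 0` and `c₆ ≠ 0`. -/
theorem c4_ne_zero_and_c6_ne_zero (W : WeierstrassCurve ℤ) (_hΔ : W.Δ ≠ 0)
    (hss : W.IsSemistableModel) : W.c₄ ≠ 0 ∧ W.c₆ ≠ 0 := by
  have hrel : 1728 * W.Δ = W.c₄ ^ 3 - W.c₆ ^ 2 := W.c_relation
  constructor
  · intro h4
    have hnp : ∀ p : ℕ, p.Prime → ¬ (p : ℤ) ∣ W.Δ := by
      intro p hp hd
      exact hss p hp hd (h4 ▸ dvd_zero _)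
    rw [h4] at hrel
    rcases ar_eq_one_or_neg_one _ hnp with h1 | h1
    · rw [h1] at hrel
      nlinarith [sq_nonneg W.c₆]
    · rw [h1] at hrel
      exact ar_sq_ne_1728 W.c₆ (by linarith)
  · intro h6
    rw [h6] at hrel
    have hnp : ∀ p : ℕ, p.Prime → ¬ (p : ℤ) ∣ W.Δ := by
      intro p hp hd
      apply hss p hp hd
      have h3 : (p : ℤ) ∣ W.c₄ ^ 3 := by
        have : W.c₄ ^ 3 = 1728 * W.Δ := by linarith
        rw [this]
        exact Dvd.dvd.mul_left hd _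
      exact (Nat.prime_iff_prime_int.1 hp).dvd_of_dvd_pow h3
    have hcube : W.c₄ ^ 3 = 1728 ∨ W.c₄ ^ 3 = -1728 := by
      rcases ar_eq_one_or_neg_one _ hnp with h1 | h1
      · left; rw [h1] at hrel; linarith
      · right; rw [h1] at hrel; linarith
    exact ar_c4_ne_twelve W (ar_cube_eq _ hcube)

end Fermat.Agent.S52
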