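import Fermat.Agent.S52.PlanRS

/-!
# S52, piece GEN: the 3-division quartic of the Rubin–Silverberg family has no polynomial root

For `c4 c6 : ℚ` with `c4 ≠ 0`, `c6 ≠ 0`, `c4 ^ 3 ≠ c6 ^ 2` there is no polynomial `p ∈ ℚ[t]` with
`3 p⁴ - 162 rsC4(t) p² - 648 rsC6(t) p - 729 rsC4(t)² = 0`
(`gen_no_poly_root`, `gen_no_poly_root_eval`, `gen_no_poly_root_scaled`).

Proof. Over an algebraically closed field take `(a₀, b₀)` with `kE4 a₀ b₀ = c4`,
`- kE6 a₀ b₀ = c6`. With `s = α(t) / β(t)` (a Möbius transformation of `t`) the Rubin–Silverberg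
identities turn a polynomial root `p` (necessarily of degree `≤ 10`) into a polynomial `ξ(s)` of
degree `≤ 10` with `3 ξ⁴ - 162 e4(σ) ξ² + 648 e6(σ) ξ - 729 e4(σ)² = 0`, `σ = σ₀ s⁵`,
`σ₀ = a₀ / b₀ ≠ 0`. At `s = 0` this gives `ξ(0) ∈ {3, -9}`. `ξ(0) = 3` is impossible (look at the
order of vanishing at `s = 0`); for `ξ(0) = -9` the root is simple, hence
`ξ ≡ -9 - 54 σ - 117 σ² - 216 σ³ mod s²⁰`, which contradicts `deg ξ ≤ 10`.
-/

set_option autoImplicit false

open Polynomial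

namespace Fermat.Agent.S52

section Algebra

variable {R : Type*} [CommRing R]

/-- `E₄` in the inhomogeneous coordinate `σ = a / b`. -/
def genE4 (σ : R) : R := 1 + 228 * σ + 494 * σ ^ 2 - 228 * σ ^ 3 + σ ^ 4

/-- `E₆` in the inhomogeneous coordinate `σ = a / b`. -/
def genE6 (σ : R) : R :=
  1 - 522 * σ - 10005 * σ ^ 2 - 10005 * σ ^ 4 + 522 * σ ^ 5 + σ ^ 6

/-- The 3-division quartic (in the variable `X = 36 x + 3 b₂`) of the curve with
`c₄ = e4`, `c₆ = - e6`. -/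
def genPsi (e4 e6 x : R) : R := 3 * x ^ 4 - 162 * e4 * x ^ 2 + 648 * e6 * x - 729 * e4 ^ 2

/-- The difference quotient of `genPsi`. -/
def genQ (e4 e6 x y : R) : R :=
  3 * (x ^ 3 + x ^ 2 * y + x * y ^ 2 + y ^ 3) - 162 * e4 * (x + y) + 648 * e6

theorem genPsi_sub (e4 e6 x y : R) :
    genPsi e4 e6 x - genPsi e4 e6 y = (x - y) * genQ e4 e6 x y := by
  simp only [genPsi, genQ]; ring

theorem genPsi_scale (μ e4 e6 x : R) :
    genPsi (μ ^ 2 * e4) (μ ^ 3 * e6) (μ * x) = μ ^ 4 * genPsi e4 e6 x := by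
  simp only [genPsi]; ring

theorem gen_kE4_smul (l a b : R) : kE4 (l * a) (l * b) = l ^ 4 * kE4 a b := by
  simp only [kE4]; ring

theorem gen_kE6_smul (l a b : R) : kE6 (l * a) (l * b) = l ^ 6 * kE6 a b := by
  simp only [kE6]; ring

theorem gen_kE4_one (σ : R) : kE4 σ 1 = genE4 σ := by
  simp only [kE4, genE4]; ring

theorem gen_kE6_one (σ : R) : kE6 σ 1 = genE6 σ := by
  simp only [kE6, genE6]; ring

/-- The truncated power series solution with constant term `-9`. -/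
def genXiStar (σ : R) : R := -9 - 54 * σ - 117 * σ ^ 2 - 216 * σ ^ 3

/-- The cofactor in `genPsi (genXiStar σ) = σ ^ 4 * genRem σ`. -/
def genRem (σ : R) : R :=
  -4478976 + 137168640 * σ - 1273708800 * σ ^ 2 + 2422566144 * σ ^ 3 + 8581718016 * σ ^ 4 +
    17566543872 * σ ^ 5 + 18018920448 * σ ^ 6 + 14149085184 * σ ^ 7 + 6530347008 * σ ^ 8

theorem genPsi_genXiStar (σ : R) :
    genPsi (genE4 σ) (genE6 σ) (genXiStar σ) = σ ^ 4 * genRem σ := by
  simp only [genPsi, genE4, genE6, genXiStar, genRem]; ring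

end Algebra

section Core

variable {K : Type*} [Field K] [CharZero K]

/-- `E₁ = (genE4 σ - 1) / σ`. -/
noncomputable def genE4' (σ : K[X]) : K[X] := 228 + 494 * σ - 228 * σ ^ 2 + σ ^ 3

/-- `F₁ = (genE6 σ - 1) / σ`. -/
noncomputable def genE6' (σ : K[X]) : K[X] := -522 - 10005 * σ - 10005 * σ ^ 3 + 522 * σ ^ 4 + σ ^ 5

/-- The case `ξ(0) = 3` (triple root of the quartic at the cusp) is impossible. -/
theorem gen_case_three (σ0 : K) (hσ : σ0 ≠ 0) (ξ : K[X]) (h0 : ξ.eval 0 = 3)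
    (h : genPsi (genE4 (C σ0 * X ^ 5)) (genE6 (C σ0 * X ^ 5)) ξ = 0) : False := by
  -- `ξ = 3 + X η₁`
  have hd1 : (X : K[X]) ∣ ξ - 3 := by
    rw [Polynomial.X_dvd_iff, Polynomial.coeff_zero_eq_eval_zero]
    simp [h0]
  obtain ⟨η₁, hη₁⟩ := hd1
  have hξ1 : ξ = 3 + X * η₁ := by rw [← hη₁]; ring
  set σ : K[X] := C σ0 * X ^ 5 with hσdef
  have key1 : genPsi (genE4 σ) (genE6 σ) ξ =
      X ^ 3 * (36 * η₁ ^ 3 + X * (3 * η₁ ^ 4 + C σ0 * X * (1944 * genE6' σ - 2916 * genE4' σ) +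
        C σ0 * X ^ 2 * η₁ * (648 * genE6' σ - 972 * genE4' σ) -
        162 * C σ0 * X ^ 3 * genE4' σ * η₁ ^ 2 - 729 * C σ0 ^ 2 * X ^ 6 * genE4' σ ^ 2)) := by
    rw [hξ1]
    simp only [genPsi, genE4, genE6, genE4', genE6', hσdef]
    ring
  rw [key1] at h
  have hX3 : (X : K[X]) ^ 3 ≠ 0 := pow_ne_zero _ Polynomial.X_ne_zero
  have h1 := (mul_eq_zero.mp h).resolve_left hX3
  have h1e := congrArg (Polynomial.eval 0) h1
  simp only [eval_add, eval_mul, eval_pow, eval_X, eval_ofNat, eval_zero, zero_mul,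
    add_zero] at h1e
  have hη0 : η₁.eval 0 = 0 := by
    have h36 : (36 : K) ≠ 0 := by norm_num
    have := (mul_eq_zero.mp h1e).resolve_left h36
    exact pow_eq_zero_iff (by norm_num) |>.mp this
  have hd2 : (X : K[X]) ∣ η₁ := by
    rw [Polynomial.X_dvd_iff, Polynomial.coeff_zero_eq_eval_zero, hη0]
  obtain ⟨η₂, hη₂⟩ := hd2
  have key2 : 36 * η₁ ^ 3 + X * (3 * η₁ ^ 4 + C σ0 * X * (1944 * genE6' σ - 2916 * genE4' σ) +
        C σ0 * X ^ 2 * η₁ * (648 * genE6' σ - 972 * genE4' σ) -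
        162 * C σ0 * X ^ 3 * genE4' σ * η₁ ^ 2 - 729 * C σ0 ^ 2 * X ^ 6 * genE4' σ ^ 2) =
      X ^ 2 * (C σ0 * (1944 * genE6' σ - 2916 * genE4' σ) + X * (36 * η₂ ^ 3 +
        3 * X ^ 2 * η₂ ^ 4 + C σ0 * X * η₂ * (648 * genE6' σ - 972 * genE4' σ) -
        162 * C σ0 * X ^ 3 * genE4' σ * η₂ ^ 2 - 729 * C σ0 ^ 2 * X ^ 4 * genE4' σ ^ 2)) := by
    rw [hη₂]
    ring
  rw [key2] at h1
  have hX2 : (X : K[X]) ^ 2 ≠ 0 := pow_ne_zero _ Polynomial.X_ne_zero
  have h2 := (mul_eq_zero.mp h1).resolve_left hX2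
  have h2e := congrArg (Polynomial.eval 0) h2
  simp only [genE4', genE6', hσdef, eval_add, eval_sub, eval_mul, eval_pow, eval_X, eval_C,
    eval_ofNat, eval_neg, eval_zero] at h2e
  have h3 : σ0 * (-1679616) = 0 := by
    rw [← h2e]
    ring
  rcases mul_eq_zero.mp h3 with h4 | h4
  · exact hσ h4
  · norm_num at h4

/-- The case `ξ(0) = -9` (simple root of the quartic at the cusp) is impossible for a
polynomial of degree `≤ 10`. -/
theorem gen_case_neg_nine (σ0 : K) (hσ : σ0 ≠ 0) (ξ : K[X]) (hdeg : ξ.natDegree ≤ 10)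
    (h0 : ξ.eval 0 = -9)
    (h : genPsi (genE4 (C σ0 * X ^ 5)) (genE6 (C σ0 * X ^ 5)) ξ = 0) : False := by
  set σ : K[X] := C σ0 * X ^ 5 with hσdef
  set ξs : K[X] := genXiStar σ with hξs
  set Q : K[X] := genQ (genE4 σ) (genE6 σ) ξ ξs with hQ
  have h1 : (ξ - ξs) * Q = X ^ 20 * (-(C σ0 ^ 4 * genRem σ)) := by
    rw [hQ, ← genPsi_sub, h, hξs, genPsi_genXiStar, hσdef]
    ring
  have hξs0 : ξs.eval 0 = -9 := by
    simp [hξs, genXiStar, hσdef]
  have hQ0 : Q.eval 0 = -5184 := by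
    simp only [hQ, genQ, genE4, genE6, eval_add, eval_sub, eval_mul, eval_pow, eval_ofNat,
      eval_one, h0, hξs0]
    simp only [hσdef, eval_mul, eval_pow, eval_X, eval_C]
    norm_num
  have hXQ : ¬ (X : K[X]) ∣ Q := by
    rw [Polynomial.X_dvd_iff, Polynomial.coeff_zero_eq_eval_zero, hQ0]
    norm_num
  have hdvd : (X : K[X]) ^ 20 ∣ ξ - ξs :=
    Polynomial.prime_X.pow_dvd_of_dvd_mul_right 20 hXQ ⟨_, h1⟩
  have hξs_eq : ξs = C (-9) + C (-54 * σ0) * X ^ 5 + C (-117 * σ0 ^ 2) * X ^ 10 +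
      C (-216 * σ0 ^ 3) * X ^ 15 := by
    simp only [hξs, genXiStar, hσdef, map_neg, map_mul, map_pow, map_ofNat]
    ring
  have hcoeff : (ξ - ξs).coeff 15 = 216 * σ0 ^ 3 := by
    rw [coeff_sub, coeff_eq_zero_of_natDegree_lt (lt_of_le_of_lt hdeg (by norm_num)), hξs_eq]
    simp only [coeff_add, coeff_C_mul_X_pow, coeff_C]
    norm_num
  have hne : ξ - ξs ≠ 0 := by
    intro h2
    rw [h2, coeff_zero] at hcoeff
    have : (216 : K) * σ0 ^ 3 ≠ 0 := mul_ne_zero (by norm_num) (pow_ne_zero _ hσ)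
    exact this hcoeff.symm
  have hdeg2 : (ξ - ξs).natDegree < 20 := by
    have hs : ξs.natDegree ≤ 15 := by
      rw [hξs_eq]
      compute_degree
    have := Polynomial.natDegree_sub_le ξ ξs
    omega
  refine hne (Polynomial.eq_zero_of_dvd_of_natDegree_lt hdvd ?_)
  rw [Polynomial.natDegree_X_pow]
  exact hdeg2

/-- There is no polynomial `ξ` of degree `≤ 10` in `s` which is a root of the 3-division
quartic of the universal curve over the `s`-line (`σ = σ₀ s⁵`). -/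
theorem gen_no_solution_s (σ0 : K) (hσ : σ0 ≠ 0) (ξ : K[X]) (hdeg : ξ.natDegree ≤ 10)
    (h : genPsi (genE4 (C σ0 * X ^ 5)) (genE6 (C σ0 * X ^ 5)) ξ = 0) : False := by
  have he := congrArg (Polynomial.eval 0) h
  simp only [genPsi, genE4, genE6, eval_add, eval_sub, eval_mul, eval_pow, eval_X, eval_C,
    eval_ofNat, eval_one, eval_zero] at he
  have hfac : 3 * (ξ.eval 0 - 3) ^ 3 * (ξ.eval 0 + 9) = 0 := by
    linear_combination he
  rcases mul_eq_zero.mp hfac with h1 | h1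
  · have h3 : (3 : K) ≠ 0 := by norm_num
    have h2 := (mul_eq_zero.mp h1).resolve_left h3
    have h4 : ξ.eval 0 - 3 = 0 := pow_eq_zero_iff (by norm_num) |>.mp h2
    exact gen_case_three σ0 hσ ξ (sub_eq_zero.mp h4) h
  · exact gen_case_neg_nine σ0 hσ ξ hdeg (eq_neg_of_add_eq_zero_left h1) h

end Core

section Maps

variable {R S : Type*} [CommRing R] [CommRing S]

theorem gen_map_rsC4 (f : R →+* S) (t c4 c6 : R) :
    f (rsC4 t c4 c6) = rsC4 (f t) (f c4) (f c6) := by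
  simp only [rsC4, rsC4Coeff0, rsC4Coeff1, rsC4Coeff2, rsC4Coeff3, rsC4Coeff4, rsC4Coeff5, rsC4Coeff6, rsC4Coeff7, rsC4Coeff8, rsC4Coeff9, rsC4Coeff10, rsC4Coeff11, rsC4Coeff12, rsC4Coeff13, rsC4Coeff14, rsC4Coeff15, rsC4Coeff16, rsC4Coeff17, rsC4Coeff18, rsC4Coeff19, rsC4Coeff20,
    map_add, map_mul, map_pow, map_neg, map_ofNat, map_one]

theorem gen_map_rsC6 (f : R →+* S) (t c4 c6 : R) :
    f (rsC6 t c4 c6) = rsC6 (f t) (f c4) (f c6) := by
  simp only [rsC6, rsC6Coeff0, rsC6Coeff1, rsC6Coeff2, rsC6Coeff3, rsC6Coeff4, rsC6Coeff5, rsC6Coeff6, rsC6Coeff7, rsC6Coeff8, rsC6Coeff9, rsC6Coeff10, rsC6Coeff11, rsC6Coeff12, rsC6Coeff13, rsC6Coeff14, rsC6Coeff15, rsC6Coeff16, rsC6Coeff17, rsC6Coeff18, rsC6Coeff19, rsC6Coeff20, rsC6Coeff21, rsC6Coeff22, rsC6Coeff23, rsC6Coeff24, rsC6Coeff25, rsC6Coeff26, rsC6Coeff27, rsC6Coeff28, rsC6Coeff29, rsC6Coeff30,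
    map_add, map_mul, map_pow, map_neg, map_ofNat, map_one]

end Maps

section Transfer

variable {K : Type*} [Field K] [CharZero K]

omit [CharZero K] in
theorem gen_natDegree_rsC4_le (c4 c6 : K) :
    (rsC4 (X : K[X]) (C c4) (C c6)).natDegree ≤ 20 := by
  simp only [rsC4, rsC4Coeff0, rsC4Coeff1, rsC4Coeff2, rsC4Coeff3, rsC4Coeff4, rsC4Coeff5, rsC4Coeff6, rsC4Coeff7, rsC4Coeff8, rsC4Coeff9, rsC4Coeff10, rsC4Coeff11, rsC4Coeff12, rsC4Coeff13, rsC4Coeff14, rsC4Coeff15, rsC4Coeff16, rsC4Coeff17, rsC4Coeff18, rsC4Coeff19, rsC4Coeff20]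
  compute_degree

omit [CharZero K] in
theorem gen_natDegree_rsC6_le (c4 c6 : K) :
    (rsC6 (X : K[X]) (C c4) (C c6)).natDegree ≤ 30 := by
  simp only [rsC6, rsC6Coeff0, rsC6Coeff1, rsC6Coeff2, rsC6Coeff3, rsC6Coeff4, rsC6Coeff5, rsC6Coeff6, rsC6Coeff7, rsC6Coeff8, rsC6Coeff9, rsC6Coeff10, rsC6Coeff11, rsC6Coeff12, rsC6Coeff13, rsC6Coeff14, rsC6Coeff15, rsC6Coeff16, rsC6Coeff17, rsC6Coeff18, rsC6Coeff19, rsC6Coeff20, rsC6Coeff21, rsC6Coeff22, rsC6Coeff23, rsC6Coeff24, rsC6Coeff25, rsC6Coeff26, rsC6Coeff27, rsC6Coeff28, rsC6Coeff29, rsC6Coeff30]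
  compute_degree

omit [CharZero K] in
theorem gen_eval_rsC4 (t c4 c6 : K) :
    (rsC4 (X : K[X]) (C c4) (C c6)).eval t = rsC4 t c4 c6 := by
  have h := gen_map_rsC4 (Polynomial.evalRingHom t) (X : K[X]) (C c4) (C c6)
  simpa using h

omit [CharZero K] in
theorem gen_eval_rsC6 (t c4 c6 : K) :
    (rsC6 (X : K[X]) (C c4) (C c6)).eval t = rsC6 t c4 c6 := by
  have h := gen_map_rsC6 (Polynomial.evalRingHom t) (X : K[X]) (C c4) (C c6)
  simpa using h

/-- A polynomial root of the quartic has degree at most `10`. -/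
theorem gen_natDegree_le (c4 c6 : K) (p : K[X])
    (h : 3 * p ^ 4 - 162 * rsC4 X (C c4) (C c6) * p ^ 2 - 648 * rsC6 X (C c4) (C c6) * p
      - 729 * rsC4 X (C c4) (C c6) ^ 2 = 0) : p.natDegree ≤ 10 := by
  by_contra hlt
  have hd : 11 ≤ p.natDegree := by omega
  set R4 : K[X] := rsC4 X (C c4) (C c6) with hR4
  set R6 : K[X] := rsC6 X (C c4) (C c6) with hR6
  have h4 : R4.natDegree ≤ 20 := gen_natDegree_rsC4_le c4 c6
  have h6 : R6.natDegree ≤ 30 := gen_natDegree_rsC6_le c4 c6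
  have h1 : C 3 * p ^ 4 = C 162 * (R4 * p ^ 2) + (C 648 * (R6 * p) + C 729 * R4 ^ 2) := by
    simp only [map_ofNat]
    linear_combination h
  have hL : (C (3 : K) * p ^ 4).natDegree = 4 * p.natDegree := by
    rw [natDegree_C_mul (by norm_num : (3 : K) ≠ 0), natDegree_pow]
  have hp2 : (p ^ 2).natDegree ≤ 2 * p.natDegree := natDegree_pow_le
  have hR42 : (R4 ^ 2).natDegree ≤ 2 * R4.natDegree := natDegree_pow_le
  have hA : (C (162 : K) * (R4 * p ^ 2)).natDegree ≤ 20 + 2 * p.natDegree :=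
    (natDegree_C_mul_le _ _).trans (natDegree_mul_le.trans (by omega))
  have hB : (C (648 : K) * (R6 * p)).natDegree ≤ 30 + p.natDegree :=
    (natDegree_C_mul_le _ _).trans (natDegree_mul_le.trans (by omega))
  have hC : (C (729 : K) * R4 ^ 2).natDegree ≤ 40 :=
    (natDegree_C_mul_le _ _).trans (by omega)
  have hR : (C 162 * (R4 * p ^ 2) + (C 648 * (R6 * p) + C 729 * R4 ^ 2)).natDegree <
      4 * p.natDegree := by
    refine lt_of_le_of_lt (natDegree_add_le _ _) ?_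
    refine max_lt (by omega) ?_
    refine lt_of_le_of_lt (natDegree_add_le _ _) ?_
    exact max_lt (by omega) (by omega)
  rw [← h1, hL] at hR
  exact lt_irrefl _ hR

/-- The polynomial `ξ(s) = p(t(s)) / μ(s)` attached to a polynomial root `p(t)`. -/
noncomputable def genXi (m1 m2 κ : K) (p : K[X]) : K[X] :=
  ∑ i ∈ Finset.range 11, C (p.coeff i / κ) * (X - 1) ^ i * (C m1 + C m2 * X) ^ (10 - i)

omit [CharZero K] in
theorem genXi_natDegree_le (m1 m2 κ : K) (p : K[X]) : (genXi m1 m2 κ p).natDegree ≤ 10 := by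
  refine Polynomial.natDegree_sum_le_of_forall_le _ _ (fun i hi => ?_)
  have hi' : i < 11 := Finset.mem_range.mp hi
  have h1 : ((X : K[X]) - 1).natDegree ≤ 1 := by compute_degree
  have h2 : (C m1 + C m2 * (X : K[X])).natDegree ≤ 1 := by compute_degree
  have h3 : (((X : K[X]) - 1) ^ i).natDegree ≤ i :=
    natDegree_pow_le.trans (by simpa using Nat.mul_le_mul_left i h1)
  have h4 : ((C m1 + C m2 * (X : K[X])) ^ (10 - i)).natDegree ≤ 10 - i :=
    natDegree_pow_le.trans (by simpa using Nat.mul_le_mul_left (10 - i) h2)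
  have h5 : (C (p.coeff i / κ) * ((X : K[X]) - 1) ^ i).natDegree ≤ i :=
    (natDegree_C_mul_le _ _).trans h3
  refine natDegree_mul_le.trans ?_
  omega

omit [CharZero K] in
theorem gen_term_aux (c κ x D : K) (hD : D ≠ 0) (i : ℕ) (hi : i ≤ 10) :
    c / κ * x ^ i * D ^ (10 - i) = c * (x / D) ^ i * (D ^ 10 / κ) := by
  have hpow : D ^ 10 = D ^ i * D ^ (10 - i) := by
    rw [← pow_add]
    congr 1
    omega
  rw [hpow, div_pow]
  field_simp

omit [CharZero K] in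
theorem genXi_eval (m1 m2 κ : K) (p : K[X]) (hp : p.natDegree ≤ 10) (s : K)
    (hD : m1 + m2 * s ≠ 0) :
    (genXi m1 m2 κ p).eval s =
      p.eval ((s - 1) / (m1 + m2 * s)) * ((m1 + m2 * s) ^ 10 / κ) := by
  rw [Polynomial.eval_eq_sum_range' (lt_of_le_of_lt hp (by norm_num : 10 < 11)), genXi,
    Polynomial.eval_finsetSum, Finset.sum_mul]
  refine Finset.sum_congr rfl (fun i hi => ?_)
  have hi' : i < 11 := Finset.mem_range.mp hi
  simp only [eval_mul, eval_C, eval_pow, eval_sub, eval_X, eval_one, eval_add]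
  exact gen_term_aux _ κ _ _ hD i (by omega)

/-- **GEN, core**: over a field of characteristic `0` in which the curve is of the form
`c₄ = kE4 a₀ b₀`, `c₆ = - kE6 a₀ b₀`, the quartic has no polynomial root. -/
theorem gen_core (a0 b0 : K) (hD : kD a0 b0 ≠ 0) (p : K[X])
    (h : 3 * p ^ 4 - 162 * rsC4 X (C (kE4 a0 b0)) (C (-(kE6 a0 b0))) * p ^ 2
      - 648 * rsC6 X (C (kE4 a0 b0)) (C (-(kE6 a0 b0))) * p
      - 729 * rsC4 X (C (kE4 a0 b0)) (C (-(kE6 a0 b0))) ^ 2 = 0) : False := by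
  have hdeg := gen_natDegree_le _ _ p h
  -- nonvanishing
  have ha0 : a0 ≠ 0 := by
    rintro rfl
    exact hD (by simp [kD])
  have hb0 : b0 ≠ 0 := by
    rintro rfl
    exact hD (by simp [kD])
  set d0 : K := b0 ^ 2 - 11 * a0 * b0 - a0 ^ 2 with hd0
  have hd0ne : d0 ≠ 0 := by
    intro h0
    apply hD
    simp only [kD]
    rw [← hd0, h0]
    ring
  set m1 : K := 11 * b0 ^ 2 - 66 * a0 * b0 - a0 ^ 2 with hm1
  set m2 : K := b0 ^ 2 - 66 * a0 * b0 - 11 * a0 ^ 2 with hm2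
  have hm12 : m1 + m2 = 12 * d0 := by rw [hm1, hm2, hd0]; ring
  set κ : K := b0 ^ 2 * (12 * d0) ^ 10 with hκ
  have hκne : κ ≠ 0 := mul_ne_zero (pow_ne_zero _ hb0)
    (pow_ne_zero _ (mul_ne_zero (by norm_num) hd0ne))
  set σ0 : K := a0 / b0 with hσ0
  have hσ0ne : σ0 ≠ 0 := div_ne_zero ha0 hb0
  set ξ : K[X] := genXi m1 m2 κ p with hξ
  have hξdeg : ξ.natDegree ≤ 10 := genXi_natDegree_le m1 m2 κ p
  -- the polynomial identity for `ξ`
  have hΨ : genPsi (genE4 (C σ0 * X ^ 5)) (genE6 (C σ0 * X ^ 5)) ξ = 0 := by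
    apply Polynomial.eq_zero_of_infinite_isRoot
    have hDp : (C m1 + C m2 * (X : K[X])) ≠ 0 := by
      intro h0
      have := congrArg (Polynomial.eval 1) h0
      simp only [eval_add, eval_mul, eval_C, eval_X, mul_one, eval_zero] at this
      rw [hm12] at this
      exact mul_ne_zero (by norm_num) hd0ne this
    have hfin : {s : K | (C m1 + C m2 * (X : K[X])).IsRoot s}.Finite :=
      Polynomial.finite_setOfPred_isRoot hDp
    refine hfin.infinite_compl.mono ?_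
    intro s hs
    have hDs : m1 + m2 * s ≠ 0 := by
      intro h0
      apply hs
      show (C m1 + C m2 * (X : K[X])).IsRoot s
      simp [Polynomial.IsRoot, h0]
    show (genPsi (genE4 (C σ0 * X ^ 5)) (genE6 (C σ0 * X ^ 5)) ξ).IsRoot s
    set D : K := m1 + m2 * s with hDdef
    set t : K := (s - 1) / D with ht
    have hα : kAlpha t a0 b0 = 12 * d0 * s / D := by
      simp only [kAlpha, ← hm1, ht]
      field_simp
      rw [hDdef]
      linear_combination s * hm12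
    have hβ : kBeta t a0 b0 = 12 * d0 / D := by
      simp only [kBeta, ← hm2, ht]
      field_simp
      rw [hDdef]
      linear_combination hm12
    set β : K := 12 * d0 / D with hβdef
    have hβne : β ≠ 0 := div_ne_zero (mul_ne_zero (by norm_num) hd0ne) hDs
    set μ : K := b0 ^ 2 * β ^ 10 with hμ
    have hμne : μ ≠ 0 := mul_ne_zero (pow_ne_zero _ hb0) (pow_ne_zero _ hβne)
    have hαβ : kAlpha t a0 b0 = s * β := by rw [hα, hβdef]; ring
    have hx : a0 * (s * β) ^ 5 = (b0 * β ^ 5) * (σ0 * s ^ 5) := by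
      rw [hσ0]
      field_simp
    have hR4 : rsC4 t (kE4 a0 b0) (-(kE6 a0 b0)) = μ ^ 2 * genE4 (σ0 * s ^ 5) := by
      have hk := gen_kE4_smul (b0 * β ^ 5) (σ0 * s ^ 5) 1
      rw [mul_one] at hk
      rw [← kE4_covariant, hαβ, hβ, hx, hk, gen_kE4_one, hμ]
      ring
    have hR6 : rsC6 t (kE4 a0 b0) (-(kE6 a0 b0)) = -(μ ^ 3 * genE6 (σ0 * s ^ 5)) := by
      have hk := gen_kE6_smul (b0 * β ^ 5) (σ0 * s ^ 5) 1
      rw [mul_one] at hk
      rw [← kE6_covariant, hαβ, hβ, hx, hk, gen_kE6_one, hμ]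
      ring
    have hξs : ξ.eval s = p.eval t / μ := by
      rw [hξ, genXi_eval m1 m2 κ p hdeg s hDs, hμ, hβdef, hκ, ← hDdef, ← ht]
      field_simp
    have he := congrArg (Polynomial.eval t) h
    simp only [eval_sub, eval_mul, eval_pow, eval_ofNat, eval_zero, gen_eval_rsC4,
      gen_eval_rsC6, hR4, hR6] at he
    have hscale := genPsi_scale μ (genE4 (σ0 * s ^ 5)) (genE6 (σ0 * s ^ 5)) (ξ.eval s)
    have hμξ : μ * ξ.eval s = p.eval t := by rw [hξs]; field_simp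
    rw [hμξ] at hscale
    have hzero : genPsi (μ ^ 2 * genE4 (σ0 * s ^ 5)) (μ ^ 3 * genE6 (σ0 * s ^ 5)) (p.eval t) = 0 := by
      simp only [genPsi]
      linear_combination he
    rw [hzero] at hscale
    have hfin2 : genPsi (genE4 (σ0 * s ^ 5)) (genE6 (σ0 * s ^ 5)) (ξ.eval s) = 0 :=
      (mul_eq_zero.mp hscale.symm).resolve_left (pow_ne_zero _ hμne)
    simp only [Polynomial.IsRoot, genPsi, genE4, genE6, eval_add, eval_sub, eval_mul, eval_pow,
      eval_ofNat, eval_one, eval_C, eval_X]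
    simpa only [genPsi, genE4, genE6] using hfin2
  exact gen_no_solution_s σ0 hσ0ne ξ hξdeg hΨ

end Transfer

section Exists

variable {K : Type*} [Field K] [CharZero K]

omit [CharZero K] in
/-- Bezout identity: `genE4` and `genE6` have no common zero in characteristic `0`. -/
theorem gen_bezout (σ : K) :
    (950431323 + 20237705983 * σ - 103588896 * σ ^ 2 + 20237108822 * σ ^ 3
        - 1055557719 * σ ^ 4 - 2022161 * σ ^ 5) * genE4 σ +
      (455818677 + 1001301767 * σ - 461063031 * σ ^ 2 + 2022161 * σ ^ 3) * genE6 σ =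
      1406250000 := by
  simp only [genE4, genE6]; ring

theorem gen_not_both_zero (σ : K) (h4 : genE4 σ = 0) (h6 : genE6 σ = 0) : False := by
  have h := gen_bezout σ
  rw [h4, h6, mul_zero, mul_zero, add_zero] at h
  norm_num at h

omit [CharZero K] in
theorem gen_monic_E4 : (genE4 (X : K[X])).Monic := by
  have h : genE4 (X : K[X]) = X ^ 4 + (1 + 228 * X + 494 * X ^ 2 - 228 * X ^ 3) := by
    simp only [genE4]; ring
  rw [h]
  refine Polynomial.monic_X_pow_add ?_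
  compute_degree!

omit [CharZero K] in
theorem gen_monic_E6 : (genE6 (X : K[X])).Monic := by
  have h : genE6 (X : K[X]) =
      X ^ 6 + (1 - 522 * X - 10005 * X ^ 2 - 10005 * X ^ 4 + 522 * X ^ 5) := by
    simp only [genE6]; ring
  rw [h]
  refine Polynomial.monic_X_pow_add ?_
  compute_degree!

omit [CharZero K] in
theorem gen_natDegree_E4 : (genE4 (X : K[X])).natDegree = 4 := by
  have h : genE4 (X : K[X]) = X ^ 4 + (1 + 228 * X + 494 * X ^ 2 - 228 * X ^ 3) := by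
    simp only [genE4]; ring
  rw [h]
  have hlow : (1 + 228 * (X : K[X]) + 494 * X ^ 2 - 228 * X ^ 3).natDegree ≤ 3 := by
    compute_degree
  rw [Polynomial.natDegree_add_eq_left_of_natDegree_lt]
  · exact natDegree_X_pow 4
  · rw [natDegree_X_pow]
    omega

omit [CharZero K] in
theorem gen_natDegree_E6 : (genE6 (X : K[X])).natDegree = 6 := by
  have h : genE6 (X : K[X]) =
      X ^ 6 + (1 - 522 * X - 10005 * X ^ 2 - 10005 * X ^ 4 + 522 * X ^ 5) := by
    simp only [genE6]; ring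
  rw [h]
  have hlow : (1 - 522 * (X : K[X]) - 10005 * X ^ 2 - 10005 * X ^ 4 + 522 * X ^ 5).natDegree
      ≤ 5 := by
    compute_degree
  rw [Polynomial.natDegree_add_eq_left_of_natDegree_lt]
  · exact natDegree_X_pow 6
  · rw [natDegree_X_pow]
    omega

/-- **X0-lite**: over an algebraically closed field of characteristic `0` every pair
`(c4, c6)` with `c4 c6 (c4³ - c6²) ≠ 0` is of the form `(kE4 a b, - kE6 a b)`. -/
theorem gen_exists_ab [IsAlgClosed K] (c4 c6 : K) (hc4 : c4 ≠ 0) (hc6 : c6 ≠ 0)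
    (hΔ : c4 ^ 3 ≠ c6 ^ 2) : ∃ a b : K, kE4 a b = c4 ∧ -(kE6 a b) = c6 := by
  -- a root of `c6² e4³ - c4³ e6²`
  set P : K[X] := C (c6 ^ 2) * genE4 X ^ 3 - C (c4 ^ 3) * genE6 X ^ 2 with hP
  have hcoeff : P.coeff 12 = c6 ^ 2 - c4 ^ 3 := by
    have h4 : (genE4 (X : K[X]) ^ 3).coeff 12 = 1 := by
      have hm := (gen_monic_E4 (K := K)).pow 3
      have hd : (genE4 (X : K[X]) ^ 3).natDegree = 12 := by
        rw [(gen_monic_E4 (K := K)).natDegree_pow, gen_natDegree_E4]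
      rw [← hd]
      exact hm.coeff_natDegree
    have h6 : (genE6 (X : K[X]) ^ 2).coeff 12 = 1 := by
      have hm := (gen_monic_E6 (K := K)).pow 2
      have hd : (genE6 (X : K[X]) ^ 2).natDegree = 12 := by
        rw [(gen_monic_E6 (K := K)).natDegree_pow, gen_natDegree_E6]
      rw [← hd]
      exact hm.coeff_natDegree
    rw [hP, coeff_sub, coeff_C_mul, coeff_C_mul, h4, h6, mul_one, mul_one]
  have hPdeg : P.degree ≠ 0 := by
    intro h0
    have hnat : P.natDegree = 0 := Polynomial.natDegree_eq_zero_iff_degree_le_zero.mpr h0.le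
    have : P.coeff 12 = 0 := Polynomial.coeff_eq_zero_of_natDegree_lt (by omega)
    rw [hcoeff] at this
    exact hΔ (sub_eq_zero.mp this).symm
  obtain ⟨σ, hσ⟩ := IsAlgClosed.exists_root P hPdeg
  have hrel : c6 ^ 2 * genE4 σ ^ 3 = c4 ^ 3 * genE6 σ ^ 2 := by
    have h1 : P.eval σ = 0 := hσ
    have he4 : (genE4 (X : K[X])).eval σ = genE4 σ := by
      simp [genE4]
    have he6 : (genE6 (X : K[X])).eval σ = genE6 σ := by
      simp [genE6]
    rw [hP, eval_sub, eval_mul, eval_mul, eval_C, eval_C, eval_pow, eval_pow, he4, he6] at h1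
    exact sub_eq_zero.mp h1
  have h4ne : genE4 σ ≠ 0 := by
    intro h4
    have h6 : genE6 σ = 0 := by
      rw [h4] at hrel
      have : c4 ^ 3 * genE6 σ ^ 2 = 0 := by rw [← hrel]; ring
      rcases mul_eq_zero.mp this with h | h
      · exact absurd (pow_eq_zero_iff (by norm_num) |>.mp h) hc4
      · exact pow_eq_zero_iff (by norm_num) |>.mp h
    exact gen_not_both_zero σ h4 h6
  have h6ne : genE6 σ ≠ 0 := by
    intro h6
    have h4 : genE4 σ = 0 := by
      rw [h6] at hrel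
      have : c6 ^ 2 * genE4 σ ^ 3 = 0 := by rw [hrel]; ring
      rcases mul_eq_zero.mp this with h | h
      · exact absurd (pow_eq_zero_iff (by norm_num) |>.mp h) hc6
      · exact pow_eq_zero_iff (by norm_num) |>.mp h
    exact h4ne h4
  obtain ⟨b, hb⟩ := IsAlgClosed.exists_pow_nat_eq (-(c6 * genE4 σ) / (c4 * genE6 σ))
    (by norm_num : 0 < 2)
  refine ⟨b * σ, b, ?_, ?_⟩
  · have h1 := gen_kE4_smul b σ 1
    rw [mul_one] at h1
    rw [h1, gen_kE4_one]
    have hb4 : b ^ 4 = (-(c6 * genE4 σ) / (c4 * genE6 σ)) ^ 2 := by rw [← hb]; ring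
    rw [hb4]
    field_simp
    linear_combination hrel
  · have h1 := gen_kE6_smul b σ 1
    rw [mul_one] at h1
    rw [h1, gen_kE6_one]
    have hb6 : b ^ 6 = (-(c6 * genE4 σ) / (c4 * genE6 σ)) ^ 3 := by rw [← hb]; ring
    rw [hb6]
    field_simp
    linear_combination hrel

end Exists

section Final

/-- **GEN**: for `c4 c6 : ℚ` with `c4 c6 (c4³ - c6²) ≠ 0` the 3-division quartic of the
Rubin–Silverberg family has no root in `ℚ[t]`. -/
theorem gen_no_poly_root (c4 c6 : ℚ) (hc4 : c4 ≠ 0) (hc6 : c6 ≠ 0) (hΔ : c4 ^ 3 ≠ c6 ^ 2)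
    (p : ℚ[X]) :
    3 * p ^ 4 - 162 * rsC4 X (C c4) (C c6) * p ^ 2 - 648 * rsC6 X (C c4) (C c6) * p
      - 729 * rsC4 X (C c4) (C c6) ^ 2 ≠ 0 := by
  intro h
  let K := AlgebraicClosure ℚ
  let ι : ℚ →+* K := algebraMap ℚ K
  have hι : Function.Injective ι := (algebraMap ℚ K).injective
  obtain ⟨a0, b0, h4, h6⟩ := gen_exists_ab (K := K) (ι c4) (ι c6)
    (by simpa using hc4) (by simpa using hc6)
    (by
      intro hh
      apply hΔ
      apply hι
      simpa using hh)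
  have hD : kD a0 b0 ≠ 0 := by
    intro hD0
    have := kE4_cube_sub_kE6_sq a0 b0
    rw [hD0, mul_zero] at this
    apply hΔ
    apply hι
    rw [map_pow, map_pow, ← h4, ← h6]
    linear_combination this
  have hm := congrArg (Polynomial.mapRingHom ι) h
  simp only [map_sub, map_mul, map_pow, map_ofNat, gen_map_rsC4, gen_map_rsC6, map_zero,
    Polynomial.coe_mapRingHom, Polynomial.map_X, Polynomial.map_C] at hm
  rw [← h4, ← h6] at hm
  exact gen_core a0 b0 hD (p.map ι) hm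

/-- Evaluated form of `gen_no_poly_root`, with the parameter rescaled by `m ≠ 0`. -/
theorem gen_no_poly_root_scaled (c4 c6 m : ℚ) (hc4 : c4 ≠ 0) (hc6 : c6 ≠ 0)
    (hΔ : c4 ^ 3 ≠ c6 ^ 2) (hm : m ≠ 0) (p : ℚ[X]) :
    ¬ ∀ s : ℚ, 3 * p.eval s ^ 4 - 162 * rsC4 (m * s) c4 c6 * p.eval s ^ 2
      - 648 * rsC6 (m * s) c4 c6 * p.eval s - 729 * rsC4 (m * s) c4 c6 ^ 2 = 0 := by
  intro hall
  set q : ℚ[X] := p.comp (C (1 / m) * X) with hq
  apply gen_no_poly_root c4 c6 hc4 hc6 hΔ q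
  apply Polynomial.funext
  intro t
  have hqt : q.eval t = p.eval (t / m) := by
    rw [hq, eval_comp, eval_mul, eval_C, eval_X]
    congr 1
    field_simp
  have hmt : m * (t / m) = t := by field_simp
  have := hall (t / m)
  rw [hmt] at this
  simp only [eval_sub, eval_mul, eval_pow, eval_ofNat, gen_eval_rsC4, gen_eval_rsC6, hqt,
    eval_zero]
  exact this

/-- Evaluated form of `gen_no_poly_root`. -/
theorem gen_no_poly_root_eval (c4 c6 : ℚ) (hc4 : c4 ≠ 0) (hc6 : c6 ≠ 0)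
    (hΔ : c4 ^ 3 ≠ c6 ^ 2) (p : ℚ[X]) :
    ¬ ∀ s : ℚ, 3 * p.eval s ^ 4 - 162 * rsC4 s c4 c6 * p.eval s ^ 2
      - 648 * rsC6 s c4 c6 * p.eval s - 729 * rsC4 s c4 c6 ^ 2 = 0 := by
  intro hall
  apply gen_no_poly_root_scaled c4 c6 1 hc4 hc6 hΔ one_ne_zero p
  intro s
  simpa using hall s

end Final

end Fermat.Agent.S52
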