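import Fermat.Agent.S52.IrredCurve
import Fermat.Agent.S52.Generic

/-!
# S52 / IRR: a member of the Rubin–Silverberg family with irreducible mod-3 representation

`irr_exists`: for integers `c4, c6, m` with `c4 ≠ 0`, `c6 ≠ 0`, `c4³ ≠ c6²`, `m ≠ 0` there is an
integer `s ≠ 0` such that EVERY Weierstrass curve `W'` over `ℤ` with `Δ ≠ 0`,
`c₄(W') = rsC4 (m s) c4 c6` and `c₆(W') = rsC6 (m s) c4 c6` has irreducible mod-3 representation.
(HIT + GEN + PSI3 + S51.T3.)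
-/

set_option autoImplicit false

namespace Fermat.Agent.S52

theorem irr_exists (c4 c6 m : ℤ) (hc4 : c4 ≠ 0) (hc6 : c6 ≠ 0) (hΔ : c4 ^ 3 ≠ c6 ^ 2)
    (hm : m ≠ 0) :
    ∃ s : ℤ, s ≠ 0 ∧ ∀ W' : WeierstrassCurve ℤ, W'.Δ ≠ 0 →
      W'.c₄ = rsC4 (m * s) c4 c6 → W'.c₆ = rsC6 (m * s) c4 c6 → W'.ModRepIsIrreducible 3 :=
  irr_exists_of_gen c4 c6 m hΔ (fun p =>
    gen_no_poly_root_scaled (c4 : ℚ) (c6 : ℚ) (m : ℚ) (by exact_mod_cast hc4)
      (by exact_mod_cast hc6) (by exact_mod_cast hΔ) (by exact_mod_cast hm) p)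

end Fermat.Agent.S52
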