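import Fermat.Agent.S52.Model
import Fermat.Agent.S52.Arith
import Fermat.Agent.S52.Irred

/-!
# S52: final wiring, with SS and CONG as hypotheses

`s52_of_pieces hss hcong W hΔ hW` is the frozen statement of S52 (without the unused hypothesis
`h5`), deduced from
* AR (`c4_ne_zero_and_c6_ne_zero`), MODEL (`switchCurve`, M1–M3), IRR (`irr_exists`) — landed;
* `hss`   = SS   (`switchCurve` is semistable for every `s`);
* `hcong` = CONG (`cong_core`: the congruence at the primes `ℓ ∤ 30 c₄ c₆ Δ Δ'`).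
-/

set_option autoImplicit false

open WeierstrassCurve

namespace Fermat.Agent.S52

/-- the statement of SS. -/
def StmtSS : Prop :=
  ∀ W : WeierstrassCurve ℤ, W.IsSemistableModel → W.Δ ≠ 0 →
    ∀ s : ℤ, (switchCurve W s).IsSemistableModel

/-- the statement of CONG (core form). -/
def StmtCong : Prop :=
  ∀ (W W' : WeierstrassCurve ℤ) (t : ℤ), W'.c₄ = rsC4 t W.c₄ W.c₆ → W'.c₆ = rsC6 t W.c₄ W.c₆ →
    ∀ ℓ : ℕ, ℓ.Prime → ¬ ℓ ∣ 30 → ¬ (ℓ : ℤ) ∣ W.c₄ → ¬ (ℓ : ℤ) ∣ W.c₆ → ¬ (ℓ : ℤ) ∣ W.Δ →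
      ¬ (ℓ : ℤ) ∣ W'.Δ → (5 : ℤ) ∣ W'.apOfModel ℓ - W.apOfModel ℓ

theorem s52_of_pieces (hss : StmtSS) (hcong : StmtCong)
    (W : WeierstrassCurve ℤ) (hΔ : W.Δ ≠ 0) (hW : W.IsSemistableModel) :
    ∃ W' : WeierstrassCurve ℤ, W'.Δ ≠ 0 ∧ W'.IsSemistableModel ∧ W'.ModRepIsIrreducible 3 ∧
      ∀ ℓ : ℕ, ℓ.Prime → W.IsGoodPrimeFor ℓ → W'.IsGoodPrimeFor ℓ → ℓ ≠ 5 →
        (5 : ℤ) ∣ (W'.apOfModel ℓ - W.apOfModel ℓ) := by
  obtain ⟨h4, h6⟩ := c4_ne_zero_and_c6_ne_zero W hΔ hW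
  have hrel : W.c₄ ^ 3 ≠ W.c₆ ^ 2 := by
    intro h
    have h1 := W.c_relation
    rw [h, sub_self] at h1
    exact hΔ (by
      rcases mul_eq_zero.1 h1 with h2 | h2
      · norm_num at h2
      · exact h2)
  have hM : switchM W ≠ 0 := by
    unfold switchM
    exact mul_ne_zero (mul_ne_zero (mul_ne_zero (by norm_num) h4) h6) hΔ
  have hm : (1728 : ℤ) * switchM W ≠ 0 := mul_ne_zero (by norm_num) hM
  obtain ⟨s, hs, hirr⟩ := irr_exists W.c₄ W.c₆ (1728 * switchM W) h4 h6 hrel hm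
  have hΔ' : (switchCurve W s).Δ ≠ 0 := switchCurve_Δ_ne_zero W s hΔ h4 h6 hs
  refine ⟨switchCurve W s, hΔ', hss W hW hΔ s, ?_, ?_⟩
  · exact hirr (switchCurve W s) hΔ' (switchCurve_c₄ W s) (switchCurve_c₆ W s)
  · intro ℓ hℓ hgood hgood' _
    by_cases hdiv : (ℓ : ℤ) ∣ switchM W
    · rw [switchCurve_apOfModel W s hdiv, sub_self]
      exact dvd_zero _
    · unfold switchM at hdiv
      have h30 : ¬ ℓ ∣ 30 := by
        intro h
        apply hdiv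
        have h60 : (ℓ : ℤ) ∣ 60 := by
          have : (ℓ : ℤ) ∣ 30 := by exact_mod_cast h
          exact this.trans ⟨2, by norm_num⟩
        exact Dvd.dvd.mul_right (Dvd.dvd.mul_right (Dvd.dvd.mul_right h60 _) _) _
      have hc4 : ¬ (ℓ : ℤ) ∣ W.c₄ := fun h =>
        hdiv (Dvd.dvd.mul_right (Dvd.dvd.mul_right (Dvd.dvd.mul_left h _) _) _)
      have hc6 : ¬ (ℓ : ℤ) ∣ W.c₆ := fun h =>
        hdiv (Dvd.dvd.mul_right (Dvd.dvd.mul_left h _) _)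
      exact hcong W (switchCurve W s) (switchT W s) (switchCurve_c₄ W s) (switchCurve_c₆ W s)
        ℓ hℓ h30 hc4 hc6 hgood hgood'

end Fermat.Agent.S52
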