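import Mathlib.Data.ZMod.Basic
import Mathlib.Algebra.Group.Hom.Defs
import Mathlib.Algebra.Module.Basic
import Mathlib.Tactic

/-!
# S52 / CONG, abstract core

Two abelian groups `E₁`, `E₂` with endomorphisms `φ₁`, `φ₂` (Frobenius) satisfying
`φᵢ² − tᵢ φᵢ + ℓ = 0`.  If there are pairs `(P₁, Q₁)`, `(P₂, Q₂)`, independent modulo `5`, on which
`φ₁`, `φ₂` act by the SAME integer matrix, and `5 ∤ ℓ`, then `5 ∣ t₁ − t₂`.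
-/

set_option autoImplicit false

namespace Fermat.Agent.S52

/-- the congruences forced by one quadratic relation. -/
theorem cong_rel_mod {E : Type*} [AddCommGroup E] (φ : E →+ E) (P Q : E)
    (indep : ∀ a b : ℤ, a • P + b • Q = 0 → (5 : ℤ) ∣ a ∧ (5 : ℤ) ∣ b)
    (m00 m01 m10 m11 : ℤ)
    (hP : φ P = m00 • P + m01 • Q) (hQ : φ Q = m10 • P + m11 • Q)
    (t ℓ : ℤ) (hrel : ∀ R : E, φ (φ R) - t • φ R + ℓ • R = 0) :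
    ((5 : ℤ) ∣ m00 * m00 + m01 * m10 - t * m00 + ℓ) ∧ ((5 : ℤ) ∣ m00 * m01 + m01 * m11 - t * m01) ∧
    ((5 : ℤ) ∣ m10 * m00 + m11 * m10 - t * m10) ∧ ((5 : ℤ) ∣ m10 * m01 + m11 * m11 - t * m11 + ℓ) := by
  have h1 := hrel P
  have h2 := hrel Q
  rw [hP, map_add, map_zsmul, map_zsmul, hP, hQ] at h1
  rw [hQ, map_add, map_zsmul, map_zsmul, hP, hQ] at h2
  have e1 : (m00 * m00 + m01 * m10 - t * m00 + ℓ) • P + (m00 * m01 + m01 * m11 - t * m01) • Q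
      = 0 := by
    rw [← h1]
    simp only [add_smul, sub_smul, mul_smul, smul_add]
    abel
  have e2 : (m10 * m00 + m11 * m10 - t * m10) • P + (m10 * m01 + m11 * m11 - t * m11 + ℓ) • Q
      = 0 := by
    rw [← h2]
    simp only [add_smul, sub_smul, mul_smul, smul_add]
    abel
  exact ⟨(indep _ _ e1).1, (indep _ _ e1).2, (indep _ _ e2).1, (indep _ _ e2).2⟩

/-- **CONG, abstract core**. -/
theorem cong_abstract {E₁ E₂ : Type*} [AddCommGroup E₁] [AddCommGroup E₂]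
    (φ₁ : E₁ →+ E₁) (φ₂ : E₂ →+ E₂) (P₁ Q₁ : E₁) (P₂ Q₂ : E₂)
    (indep₁ : ∀ a b : ℤ, a • P₁ + b • Q₁ = 0 → (5 : ℤ) ∣ a ∧ (5 : ℤ) ∣ b)
    (indep₂ : ∀ a b : ℤ, a • P₂ + b • Q₂ = 0 → (5 : ℤ) ∣ a ∧ (5 : ℤ) ∣ b)
    (m00 m01 m10 m11 : ℤ)
    (hP₁ : φ₁ P₁ = m00 • P₁ + m01 • Q₁) (hQ₁ : φ₁ Q₁ = m10 • P₁ + m11 • Q₁)
    (hP₂ : φ₂ P₂ = m00 • P₂ + m01 • Q₂) (hQ₂ : φ₂ Q₂ = m10 • P₂ + m11 • Q₂)
    (t₁ t₂ ℓ : ℤ)
    (hrel₁ : ∀ R : E₁, φ₁ (φ₁ R) - t₁ • φ₁ R + ℓ • R = 0)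
    (hrel₂ : ∀ R : E₂, φ₂ (φ₂ R) - t₂ • φ₂ R + ℓ • R = 0)
    (hℓ : ¬ (5 : ℤ) ∣ ℓ) : (5 : ℤ) ∣ t₁ - t₂ := by
  obtain ⟨a1, a2, a3, a4⟩ := cong_rel_mod φ₁ P₁ Q₁ indep₁ m00 m01 m10 m11 hP₁ hQ₁ t₁ ℓ hrel₁
  obtain ⟨b1, b2, b3, b4⟩ := cong_rel_mod φ₂ P₂ Q₂ indep₂ m00 m01 m10 m11 hP₂ hQ₂ t₂ ℓ hrel₂
  by_contra hdiv
  have h5 : Prime (5 : ℤ) := by norm_num
  have d00 : (5 : ℤ) ∣ (t₁ - t₂) * m00 := by
    have := dvd_sub b1 a1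
    have e : (m00 * m00 + m01 * m10 - t₂ * m00 + ℓ) - (m00 * m00 + m01 * m10 - t₁ * m00 + ℓ)
        = (t₁ - t₂) * m00 := by ring
    rwa [e] at this
  have d01 : (5 : ℤ) ∣ (t₁ - t₂) * m01 := by
    have := dvd_sub b2 a2
    have e : (m00 * m01 + m01 * m11 - t₂ * m01) - (m00 * m01 + m01 * m11 - t₁ * m01)
        = (t₁ - t₂) * m01 := by ring
    rwa [e] at this
  have c00 : (5 : ℤ) ∣ m00 := (h5.dvd_or_dvd d00).resolve_left hdiv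
  have c01 : (5 : ℤ) ∣ m01 := (h5.dvd_or_dvd d01).resolve_left hdiv
  apply hℓ
  have e : ℓ = (m00 * m00 + m01 * m10 - t₁ * m00 + ℓ) - (m00 * (m00 - t₁) + m01 * m10) := by ring
  rw [e]
  exact dvd_sub a1 (dvd_add (Dvd.dvd.mul_right c00 _) (Dvd.dvd.mul_right c01 _))

end Fermat.Agent.S52
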