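import Fermat.Agent.S52.Klein.Defs
import Fermat.Agent.S52.Generic

/-!
# S52 / CONG: Klein's forms and ring homomorphisms (in particular Frobenius)

Elementary compatibilities used by the assembly `Cong.lean`:
* all of Klein's forms commute with ring homomorphisms;
* `kPhi 0 x = x`, `kPhi` commutes with ring homomorphisms;
* the invariants of `kPhi t x` are the Rubin–Silverberg polynomials (from `Plan.lean`).
-/

set_option autoImplicit false
set_option linter.unusedSimpArgs false

namespace Fermat.Agent.S52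

section maps

variable {R S : Type*} [CommRing R] [CommRing S] (f : R →+* S)

theorem cong_map_kE4 (a b : R) : f (kE4 a b) = kE4 (f a) (f b) := by
  simp only [kE4, map_add, map_sub, map_mul, map_pow, map_ofNat]

theorem cong_map_kE6 (a b : R) : f (kE6 a b) = kE6 (f a) (f b) := by
  simp only [kE6, map_add, map_sub, map_mul, map_pow, map_ofNat]

theorem cong_map_kF (A B : R) : f (kF A B) = kF (f A) (f B) := by
  simp only [kF, map_add, map_sub, map_mul, map_pow, map_ofNat]

theorem cong_map_kX1 (A B : R) : f (kX1 A B) = kX1 (f A) (f B) := by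
  simp only [kX1, map_add, map_sub, map_mul, map_pow, map_ofNat]

theorem cong_map_kY1 (A B : R) : f (kY1 A B) = kY1 (f A) (f B) := by
  simp only [kY1, map_add, map_sub, map_mul, map_pow, map_ofNat]

theorem cong_map_kX0n (ζ A B : R) : f (kX0n ζ A B) = kX0n (f ζ) (f A) (f B) := by
  simp only [kX0n, map_add, map_sub, map_mul, map_pow, map_ofNat, map_neg]

theorem cong_map_kY0n (ζ A B : R) : f (kY0n ζ A B) = kY0n (f ζ) (f A) (f B) := by
  simp only [kY0n, map_add, map_sub, map_mul, map_pow, map_ofNat, map_neg]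

theorem cong_map_kX0 (ζ i5 A B : R) : f (kX0 ζ i5 A B) = kX0 (f ζ) (f i5) (f A) (f B) := by
  simp only [kX0, map_mul, cong_map_kX0n]

theorem cong_map_kY0 (ζ i5 A B : R) : f (kY0 ζ i5 A B) = kY0 (f ζ) (f i5) (f A) (f B) := by
  simp only [kY0, map_mul, cong_map_kY0n]

theorem cong_map_kAlpha (t a b : R) : f (kAlpha t a b) = kAlpha (f t) (f a) (f b) := by
  simp only [kAlpha, map_add, map_sub, map_mul, map_pow, map_ofNat, map_one]

theorem cong_map_kBeta (t a b : R) : f (kBeta t a b) = kBeta (f t) (f a) (f b) := by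
  simp only [kBeta, map_add, map_sub, map_mul, map_pow, map_ofNat, map_one]

theorem cong_map_kPhi_fst (t : R) (x : R × R) :
    f (kPhi t x).1 = (kPhi (f t) (f x.1, f x.2)).1 := by
  simp only [kPhi, map_mul, map_pow, cong_map_kAlpha]

theorem cong_map_kPhi_snd (t : R) (x : R × R) :
    f (kPhi t x).2 = (kPhi (f t) (f x.1, f x.2)).2 := by
  simp only [kPhi, map_mul, map_pow, cong_map_kBeta]

end maps

section phi

variable {R : Type*} [CommRing R]

theorem cong_kPhi_zero (x : R × R) : kPhi 0 x = x := by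
  simp [kPhi, kAlpha, kBeta]

theorem cong_kPhi_zero_fst (A B : R) : (kPhi 0 (A, B)).1 = A := by
  rw [cong_kPhi_zero]

theorem cong_kPhi_zero_snd (A B : R) : (kPhi 0 (A, B)).2 = B := by
  rw [cong_kPhi_zero]

/-- the `c₄`-invariant of `Φ_t(x)` is the Rubin–Silverberg polynomial. -/
theorem cong_kE4_kPhi (t A B : R) :
    kE4 ((kPhi t (A, B)).1 ^ 5) ((kPhi t (A, B)).2 ^ 5)
      = rsC4 t (kE4 (A ^ 5) (B ^ 5)) (-(kE6 (A ^ 5) (B ^ 5))) := by
  rw [← kE4_covariant]
  simp only [kPhi, mul_pow]

/-- the `c₆`-invariant of `Φ_t(x)` is the Rubin–Silverberg polynomial. -/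
theorem cong_kE6_kPhi (t A B : R) :
    -(kE6 ((kPhi t (A, B)).1 ^ 5) ((kPhi t (A, B)).2 ^ 5))
      = rsC6 t (kE4 (A ^ 5) (B ^ 5)) (-(kE6 (A ^ 5) (B ^ 5))) := by
  rw [← kE6_covariant]
  simp only [kPhi, mul_pow]

end phi

end Fermat.Agent.S52
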