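import Mathlib.LinearAlgebra.Lagrange
import Mathlib.Data.Nat.Factorial.Basic
import Mathlib.Algebra.Order.BigOperators.Ring.Finset
import Mathlib.Data.Int.NatAbs
import Mathlib.Tactic

/-!
# S52 / HIT, part 3: Lagrange interpolation with integer nodes — integrality and size

If integer values `x c` at integer nodes `c ∈ [1, L]` agree modulo `Mod` with an integer
polynomial of degree `< J`, and `Mod` is large, then the Lagrange interpolation polynomial
through `J` of the nodes takes the value `x b` at every further node `b`.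
-/

set_option autoImplicit false

namespace Fermat.Agent.S52

open Polynomial

/-- the rational node map -/
def hitNode : ℤ → ℚ := fun c => (c : ℚ)

theorem hitNode_injOn (s : Finset ℤ) : Set.InjOn hitNode (s : Set ℤ) :=
  fun _ _ _ _ h => Int.cast_injective h

theorem hit_eval_basis (s : Finset ℤ) (i : ℤ) (b : ℚ) :
    (Lagrange.basis s hitNode i).eval b
      = ∏ j ∈ s.erase i, (((i : ℚ) - (j : ℚ))⁻¹ * (b - (j : ℚ))) := by
  rw [Lagrange.basis, Polynomial.eval_prod]
  apply Finset.prod_congr rfl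
  intro j _
  simp [Lagrange.basisDivisor, hitNode]

/-- Integrality and size of `(L!)^J · ℓ_i(b)`. -/
theorem hit_basis_int {L J : ℕ} (B₀ : Finset ℤ) (hcard : B₀.card = J)
    (hB₀ : ∀ c ∈ B₀, 1 ≤ c ∧ c ≤ (L : ℤ)) {b : ℤ} (hb : 1 ≤ b ∧ b ≤ (L : ℤ))
    {i : ℤ} (hi : i ∈ B₀) :
    ∃ c : ℤ, (c : ℚ) = ((L.factorial : ℚ)) ^ J * (Lagrange.basis B₀ hitNode i).eval (b : ℚ) ∧
      c.natAbs ≤ (L.factorial * L) ^ J := by
  have hJ : (B₀.erase i).card + 1 = J := by
    rw [Finset.card_erase_of_mem hi, hcard]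
    have : 0 < B₀.card := Finset.card_pos.mpr ⟨i, hi⟩
    omega
  -- the integer factors
  have hfac : ∀ j ∈ B₀.erase i, ∃ t : ℤ, (t : ℚ) = (L.factorial : ℚ) *
      (((i : ℚ) - (j : ℚ))⁻¹ * ((b : ℚ) - (j : ℚ))) ∧ t.natAbs ≤ L.factorial * L := by
    intro j hj
    have hji : j ≠ i := (Finset.mem_erase.mp hj).1
    have hjB : j ∈ B₀ := (Finset.mem_erase.mp hj).2
    have h1 := hB₀ i hi
    have h2 := hB₀ j hjB
    have hne : i - j ≠ 0 := sub_ne_zero.mpr (Ne.symm hji)
    have hpos : 0 < (i - j).natAbs := Int.natAbs_pos.mpr hne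
    have hle : (i - j).natAbs ≤ L := by omega
    have hdvd : ((i - j).natAbs) ∣ L.factorial := Nat.dvd_factorial hpos hle
    have hdvd' : (i - j) ∣ (L.factorial : ℤ) := Int.natAbs_dvd_natAbs.mp (by simpa using hdvd)
    obtain ⟨q, hq⟩ := hdvd'
    refine ⟨q * (b - j), ?_, ?_⟩
    · have hneQ : ((i : ℚ) - (j : ℚ)) ≠ 0 := by
        have : ((i - j : ℤ) : ℚ) ≠ 0 := Int.cast_ne_zero.mpr hne
        simpa using this
      have hq' : (L.factorial : ℚ) = ((i : ℚ) - (j : ℚ)) * (q : ℚ) := by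
        have := congrArg (fun z : ℤ => (z : ℚ)) hq
        simpa using this
      rw [hq']
      push_cast
      field_simp
    · rw [Int.natAbs_mul]
      apply Nat.mul_le_mul
      · -- |q| ≤ L!
        have hqabs : (L.factorial : ℤ).natAbs = (i - j).natAbs * q.natAbs := by
          rw [hq, Int.natAbs_mul]
        have : q.natAbs ≤ (i - j).natAbs * q.natAbs := Nat.le_mul_of_pos_left _ hpos
        rw [← hqabs] at this
        simpa using this
      · omega
  choose! t ht1 ht2 using hfac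
  refine ⟨(L.factorial : ℤ) * ∏ j ∈ B₀.erase i, t j, ?_, ?_⟩
  · rw [hit_eval_basis, ← hJ, pow_succ, Int.cast_mul, Int.cast_prod]
    rw [Finset.prod_congr rfl (fun j hj => ht1 j hj), Finset.prod_mul_distrib,
      Finset.prod_const]
    push_cast
    ring
  · have hprod : (∏ j ∈ B₀.erase i, t j).natAbs = ∏ j ∈ B₀.erase i, (t j).natAbs :=
      map_prod Int.natAbsHom t (B₀.erase i)
    rw [Int.natAbs_mul, hprod]
    rw [← hJ, pow_succ, mul_comm]
    apply Nat.mul_le_mul
    · calc ∏ j ∈ B₀.erase i, (t j).natAbs ≤ ∏ _j ∈ B₀.erase i, (L.factorial * L) :=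
            Finset.prod_le_prod' (fun j hj => ht2 j hj)
        _ = (L.factorial * L) ^ (B₀.erase i).card := by rw [Finset.prod_const]
    · simp only [Int.natAbs_natCast]
      have hL : 1 ≤ L := by
        have := hB₀ i hi
        omega
      exact Nat.le_mul_of_pos_right _ hL

theorem hit_eval_interpolate (s : Finset ℤ) (r : ℤ → ℚ) (b : ℚ) :
    (Lagrange.interpolate s hitNode r).eval b
      = ∑ i ∈ s, r i * (Lagrange.basis s hitNode i).eval b := by
  rw [Lagrange.interpolate_apply, Polynomial.eval_finsetSum]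
  apply Finset.sum_congr rfl
  intro i _
  rw [Polynomial.eval_mul, Polynomial.eval_C]

/-- **Interpolation step.** -/
theorem hit_interp {L J : ℕ} (B₀ : Finset ℤ) (hcard : B₀.card = J)
    (hB₀ : ∀ c ∈ B₀, 1 ≤ c ∧ c ≤ (L : ℤ)) {b : ℤ} (hb : 1 ≤ b ∧ b ≤ (L : ℤ))
    (x : ℤ → ℤ) (Xmax : ℕ) (hx : ∀ c ∈ insert b B₀, (x c).natAbs ≤ Xmax)
    (Q : Polynomial ℤ) (hQ : Q.degree < J) (Mod : ℤ)
    (hmod : ∀ c ∈ insert b B₀, Mod ∣ x c - Q.eval c)
    (hbig : (J + 1) * (L.factorial * L) ^ J * Xmax < Mod.natAbs) :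
    (Lagrange.interpolate B₀ hitNode (fun c => (x c : ℚ))).eval (b : ℚ) = (x b : ℚ) := by
  classical
  have hvs := hitNode_injOn B₀
  have hex : ∀ i, i ∈ B₀ → ∃ c : ℤ,
      (c : ℚ) = ((L.factorial : ℚ)) ^ J * (Lagrange.basis B₀ hitNode i).eval (b : ℚ) ∧
      c.natAbs ≤ (L.factorial * L) ^ J := fun i hi => hit_basis_int B₀ hcard hB₀ hb hi
  choose! c hc1 hc2 using hex
  set F : ℤ := (L.factorial : ℤ) ^ J with hF
  have hFq : (F : ℚ) = ((L.factorial : ℚ)) ^ J := by rw [hF]; push_cast; rfl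
  have hF0 : (F : ℚ) ≠ 0 := by
    rw [hFq]; exact pow_ne_zero _ (Nat.cast_ne_zero.mpr (Nat.factorial_ne_zero L))
  have hFabs : F.natAbs ≤ (L.factorial * L) ^ J := by
    rw [hF, Int.natAbs_pow, Int.natAbs_natCast]
    apply Nat.pow_le_pow_left
    exact Nat.le_mul_of_pos_right _ (by omega)
  -- the polynomial Q is its own interpolation
  set Qq : Polynomial ℚ := Q.map (Int.castRingHom ℚ) with hQq
  have hQdeg : Qq.degree < (B₀.card : WithBot ℕ) := by
    rw [hcard]
    exact lt_of_le_of_lt (Polynomial.degree_map_le) hQ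
  have hQint := Lagrange.eq_interpolate (f := Qq) hvs hQdeg
  have hQb : Qq.eval (b : ℚ) = ∑ i ∈ B₀, ((Q.eval i : ℤ) : ℚ) * (Lagrange.basis B₀ hitNode i).eval (b : ℚ) := by
    conv_lhs => rw [hQint]
    rw [hit_eval_interpolate]
    apply Finset.sum_congr rfl
    intro i _
    simp only [hitNode, hQq, Polynomial.eval_intCast_map, eq_intCast, Int.cast_id]
  have hQb' : Qq.eval (b : ℚ) = ((Q.eval b : ℤ) : ℚ) := by
    simp only [hQq, Polynomial.eval_intCast_map, eq_intCast, Int.cast_id]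
  -- the two integers
  set Z : ℤ := F * x b - ∑ i ∈ B₀, x i * c i with hZ
  set Z' : ℤ := F * Q.eval b - ∑ i ∈ B₀, Q.eval i * c i with hZ'
  have hZ'0 : Z' = 0 := by
    have : (Z' : ℚ) = 0 := by
      rw [hZ']
      push_cast
      rw [← hQb', hQb, Finset.mul_sum, ← Finset.sum_sub_distrib]
      apply Finset.sum_eq_zero
      intro i hi
      rw [hc1 i hi, hFq]
      ring
    exact_mod_cast this
  have hZq : (Z : ℚ) = F * ((x b : ℚ)
      - (Lagrange.interpolate B₀ hitNode (fun c => (x c : ℚ))).eval (b : ℚ)) := by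
    rw [hZ, hit_eval_interpolate]
    push_cast
    rw [mul_sub, Finset.mul_sum]
    congr 1
    apply Finset.sum_congr rfl
    intro i hi
    rw [hc1 i hi, hFq]
    ring
  have hdiv : Mod ∣ Z := by
    have : Z = Z - Z' := by rw [hZ'0, sub_zero]
    rw [this, hZ, hZ']
    have e : F * x b - ∑ i ∈ B₀, x i * c i - (F * Q.eval b - ∑ i ∈ B₀, Q.eval i * c i)
        = F * (x b - Q.eval b) - ∑ i ∈ B₀, (x i - Q.eval i) * c i := by
      rw [Finset.sum_congr rfl (fun i _ => sub_mul (x i) (Q.eval i) (c i)),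
        Finset.sum_sub_distrib]
      ring
    rw [e]
    apply dvd_sub
    · exact Dvd.dvd.mul_left (hmod b (Finset.mem_insert_self b B₀)) F
    · apply Finset.dvd_sum
      intro i hi
      exact Dvd.dvd.mul_right (hmod i (Finset.mem_insert_of_mem hi)) (c i)
  have hsize : Z.natAbs ≤ (J + 1) * (L.factorial * L) ^ J * Xmax := by
    rw [hZ]
    have h1 : (F * x b).natAbs ≤ (L.factorial * L) ^ J * Xmax := by
      rw [Int.natAbs_mul]
      exact Nat.mul_le_mul hFabs (hx b (Finset.mem_insert_self b B₀))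
    have h2 : (∑ i ∈ B₀, x i * c i).natAbs ≤ J * ((L.factorial * L) ^ J * Xmax) := by
      refine (Int.natAbs_sum_le _ _).trans ?_
      have hJc : J * ((L.factorial * L) ^ J * Xmax)
          = ∑ _i ∈ B₀, ((L.factorial * L) ^ J * Xmax) := by
        rw [Finset.sum_const, smul_eq_mul, hcard]
      rw [hJc]
      apply Finset.sum_le_sum
      intro i hi
      rw [Int.natAbs_mul, mul_comm]
      exact Nat.mul_le_mul (hc2 i hi) (hx i (Finset.mem_insert_of_mem hi))
    calc (F * x b - ∑ i ∈ B₀, x i * c i).natAbs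
        ≤ (F * x b).natAbs + (∑ i ∈ B₀, x i * c i).natAbs := Int.natAbs_sub_le _ _
      _ ≤ (L.factorial * L) ^ J * Xmax + J * ((L.factorial * L) ^ J * Xmax) := Nat.add_le_add h1 h2
      _ = (J + 1) * (L.factorial * L) ^ J * Xmax := by ring
  have hZ0 : Z = 0 := by
    by_contra hne
    have := Int.natAbs_le_of_dvd_ne_zero hdiv hne
    omega
  rw [hZ0] at hZq
  have : (x b : ℚ) - (Lagrange.interpolate B₀ hitNode (fun c => (x c : ℚ))).eval (b : ℚ) = 0 := by
    have h := hZq.symm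
    rw [Int.cast_zero] at h
    exact (mul_eq_zero.mp h).resolve_left hF0
  linarith

end Fermat.Agent.S52
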