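import Fermat.Agent.S52.HitScale
import Fermat.Agent.S52.HitInterp
import Mathlib.Combinatorics.Pigeonhole
import Mathlib.Data.Nat.Prime.Infinite
import Mathlib.Data.Nat.Prime.Int

/-!
# S52 / HIT: Hilbert irreducibility, the "rational root" case, by an `r`-adic argument

`hit_lite`: if `G ∈ ℤ[s][X]` is monic in `X`, `G(0, X)` is separable over `ℚ` and `G(s, X)` has a
rational root for every integer `s ≠ 0`, then `G(s, X)` has a root `p(s) ∈ ℚ[s]`.
-/

set_option autoImplicit false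

namespace Fermat.Agent.S52

open Polynomial

/-- the number of roots modulo a prime is at most the degree -/
theorem hit_card_roots_le {G : Polynomial (Polynomial ℤ)} (hG : G.Monic) (r : ℕ)
    [Fact r.Prime] :
    (((hitAt G 0).map (Int.castRingHom (ZMod r))).roots.toFinset).card ≤ G.natDegree := by
  refine (Multiset.toFinset_card_le _).trans ?_
  refine (Polynomial.card_roots' _).trans ?_
  rw [(hitAt_monic hG 0).natDegree_map, hitAt_natDegree hG]

theorem hit_mem_roots {G : Polynomial (Polynomial ℤ)} (hG : G.Monic) (r : ℕ) [Fact r.Prime]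
    {x : ℤ} (hx : (r : ℤ) ∣ (hitAt G 0).eval x) :
    ((x : ℤ) : ZMod r) ∈ ((hitAt G 0).map (Int.castRingHom (ZMod r))).roots.toFinset := by
  rw [Multiset.mem_toFinset, Polynomial.mem_roots (((hitAt_monic hG 0).map _).ne_zero)]
  rw [Polynomial.IsRoot.def, Polynomial.eval_intCast_map, eq_intCast,
    ZMod.intCast_zmod_eq_zero_iff_dvd]
  simpa using hx

/-- **HIT-lite**, version with roots only required for `s ≠ 0`. -/
theorem hit_lite_ne (G : Polynomial (Polynomial ℤ)) (hmonic : G.Monic)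
    (hsep : ((G.map (Polynomial.evalRingHom (0:ℤ))).map (Int.castRingHom ℚ)).Separable)
    (hroot : ∀ s : ℤ, s ≠ 0 →
      ∃ x : ℚ, ((G.map (Polynomial.evalRingHom s)).map (Int.castRingHom ℚ)).eval x = 0) :
    ∃ p : Polynomial ℚ, (G.map (Polynomial.mapRingHom (Int.castRingHom ℚ))).eval p = 0 := by
  classical
  -- integer roots
  have hint : ∀ s : ℤ, ∃ y : ℤ, s ≠ 0 → (hitAt G s).eval y = 0 := by
    intro s
    by_cases hs : s = 0
    · exact ⟨0, fun h => absurd hs h⟩
    · obtain ⟨x, hx⟩ := hroot s hs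
      obtain ⟨y, -, hy⟩ := hit_int_root (hitAt G s) (hitAt_monic hmonic s) hx
      exact ⟨y, fun _ => hy⟩
  choose xs hxs using hint
  -- the degree is positive
  set n := G.natDegree with hn
  have hn0 : 1 ≤ n := by
    by_contra h
    have h0 : n = 0 := by omega
    have h1 := hxs 1 one_ne_zero
    have hdeg : (hitAt G 1).natDegree = 0 := by rw [hitAt_natDegree hmonic, ← hn, h0]
    have hone : hitAt G 1 = 1 := by
      have hm := hitAt_monic hmonic 1
      have := Polynomial.eq_C_of_natDegree_eq_zero hdeg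
      have hc : (hitAt G 1).coeff 0 = 1 := by
        have h2 := hm.leadingCoeff
        rwa [Polynomial.leadingCoeff, hdeg] at h2
      rw [this, hc]; simp
    rw [hone] at h1
    simp at h1
  -- the auxiliary prime
  obtain ⟨d, hd0, hd⟩ := hit_exists_disc (hitAt G 0) hsep
  obtain ⟨r, hrd, hrp⟩ := Nat.exists_infinite_primes (d.natAbs + 1)
  have : Fact r.Prime := ⟨hrp⟩
  have hrZ : Prime (r : ℤ) := Nat.prime_iff_prime_int.mp hrp
  have hrnd : ¬ (r : ℤ) ∣ d := by
    intro h
    have := Int.natAbs_le_of_dvd_ne_zero h hd0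
    simp only [Int.natAbs_natCast] at this
    omega
  have hr2 : 2 ≤ r := hrp.two_le
  -- parameters
  set m := hitM G with hm
  set A := hitH G with hA
  set J := m + 1 with hJ
  set K₀ := m + n * m + 2 with hK₀
  set L := n * K₀ with hL
  set C₀ := (J + 1) * (L.factorial * L) ^ J * (A * L ^ m) with hC₀
  set e := C₀ + 1 with he
  have he1 : 1 ≤ e := by omega
  have hre : C₀ < r ^ e := by
    calc C₀ < e := by omega
      _ < 2 ^ e := Nat.lt_two_pow_self
      _ ≤ r ^ e := Nat.pow_le_pow_left hr2 e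
  have hL1 : 1 ≤ L := by
    rw [hL]
    exact Nat.mul_pos (by omega) (by omega)
  -- nodes and values
  set S : Finset ℤ := Finset.Icc (1 : ℤ) (L : ℤ) with hS
  have hScard : S.card = L := by rw [hS, Int.card_Icc]; simp
  have hrpow : ∀ v : ℤ, v ∈ S → ((r : ℤ) ^ e * v) ≠ 0 := by
    intro v hv
    have := (Finset.mem_Icc.mp hv).1
    have hr0 : (r : ℤ) ≠ 0 := by exact_mod_cast hrp.ne_zero
    exact mul_ne_zero (pow_ne_zero _ hr0) (by omega)
  set x : ℤ → ℤ := fun v => xs ((r : ℤ) ^ e * v) with hx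
  have hxroot : ∀ v ∈ S, (hitAt G ((r : ℤ) ^ e * v)).eval (x v) = 0 :=
    fun v hv => hxs _ (hrpow v hv)
  have hrdvd : ∀ v : ℤ, (r : ℤ) ∣ (r : ℤ) ^ e * v :=
    fun v => Dvd.dvd.mul_right (dvd_pow_self _ (by omega)) v
  have hxmod : ∀ v ∈ S, (r : ℤ) ∣ (hitAt G 0).eval (x v) :=
    fun v hv => hit_root_mod G (hrdvd v) (hxroot v hv)
  -- the branch map and the pigeonhole principle
  set t := ((hitAt G 0).map (Int.castRingHom (ZMod r))).roots.toFinset with ht
  have hmaps : ∀ v ∈ S, ((x v : ℤ) : ZMod r) ∈ t := fun v hv => hit_mem_roots hmonic r (hxmod v hv)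
  have htcard : t.card ≤ n := hit_card_roots_le hmonic r
  have hpig : t.card * (K₀ - 1) < S.card := by
    rw [hScard, hL]
    calc t.card * (K₀ - 1) ≤ n * (K₀ - 1) := Nat.mul_le_mul_right _ htcard
      _ < n * K₀ := Nat.mul_lt_mul_of_pos_left (by omega) (by omega)
  obtain ⟨ybar, -, hfib⟩ := Finset.exists_lt_card_fiber_of_mul_lt_card_of_maps_to hmaps hpig
  set B : Finset ℤ := S.filter (fun v => ((x v : ℤ) : ZMod r) = ybar) with hB
  have hBcard : K₀ ≤ B.card := by omega
  have hBS : ∀ v ∈ B, v ∈ S := fun v hv => (Finset.mem_filter.mp hv).1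
  have hBne : B.Nonempty := Finset.card_pos.mp (by omega)
  obtain ⟨v₀, hv₀⟩ := hBne
  set ρ := x v₀ with hρdef
  have hρ : (r : ℤ) ∣ (hitAt G 0).eval ρ := hxmod v₀ (hBS v₀ hv₀)
  have hρ' : ¬ (r : ℤ) ∣ (hitAt G 0).derivative.eval ρ := hd (r : ℤ) ρ hrnd hρ
  have hbranch : ∀ v ∈ B, (r : ℤ) ∣ x v - ρ := by
    intro v hv
    have h1 : ((x v : ℤ) : ZMod r) = ybar := (Finset.mem_filter.mp hv).2
    have h2 : ((ρ : ℤ) : ZMod r) = ybar := (Finset.mem_filter.mp hv₀).2
    have h3 : ((ρ : ℤ) : ZMod r) = ((x v : ℤ) : ZMod r) := by rw [h1, h2]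
    exact (ZMod.intCast_eq_intCast_iff_dvd_sub _ _ _).mp h3
  -- Claim A
  obtain ⟨Q, hQdeg, hQ⟩ := hit_branch G hrZ hρ hρ' he1 J
  -- the interpolation nodes
  obtain ⟨B₀, hB₀B, hB₀card⟩ := Finset.exists_subset_card_eq (s := B) (n := J) (by omega)
  set p : Polynomial ℚ := Lagrange.interpolate B₀ hitNode (fun c => (x c : ℚ)) with hp
  have hSmem : ∀ v ∈ S, 1 ≤ v ∧ v ≤ (L : ℤ) := fun v hv => Finset.mem_Icc.mp hv
  -- size of the roots
  set Xmax := A * (r ^ e * L) ^ m with hXmax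
  have hsize : ∀ v ∈ S, (x v).natAbs ≤ Xmax := by
    intro v hv
    refine (hit_root_size hmonic (hrpow v hv) (hxroot v hv)).trans ?_
    rw [hXmax]
    apply Nat.mul_le_mul_left
    apply Nat.pow_le_pow_left
    rw [Int.natAbs_mul, Int.natAbs_pow, Int.natAbs_natCast]
    apply Nat.mul_le_mul_left
    have := hSmem v hv
    omega
  have hbig : (J + 1) * (L.factorial * L) ^ J * Xmax < ((r : ℤ) ^ (e * J)).natAbs := by
    have e1 : (J + 1) * (L.factorial * L) ^ J * (A * (r ^ e * L) ^ m)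
        = C₀ * (r ^ e) ^ m := by
      rw [hC₀, Nat.mul_pow (r ^ e) L m]; ring
    have e2 : r ^ (e * J) = r ^ e * (r ^ e) ^ m := by
      rw [hJ, Nat.mul_succ, pow_add, pow_mul, mul_comm]
    rw [Int.natAbs_pow, Int.natAbs_natCast, hXmax, e1, e2]
    exact Nat.mul_lt_mul_of_pos_right hre (Nat.pow_pos (Nat.pow_pos (by omega)))
  have hpval : ∀ b ∈ B, p.eval (b : ℚ) = (x b : ℚ) := by
    intro b hb
    apply hit_interp B₀ hB₀card (fun c hc => hSmem c (hBS c (hB₀B hc))) (hSmem b (hBS b hb))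
      x Xmax ?_ Q hQdeg ((r : ℤ) ^ (e * J)) ?_ hbig
    · intro c hc
      rcases Finset.mem_insert.mp hc with rfl | hc
      · exact hsize _ (hBS _ hb)
      · exact hsize c (hBS c (hB₀B hc))
    · intro c hc
      rcases Finset.mem_insert.mp hc with rfl | hc
      · exact hQ _ _ (hxroot _ (hBS _ hb)) (hbranch _ hb)
      · exact hQ c _ (hxroot c (hBS c (hB₀B hc))) (hbranch c (hB₀B hc))
  -- the substituted polynomial vanishes at many points
  have hpdeg : p.natDegree ≤ m := by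
    have h1 : p.degree < (B₀.card : WithBot ℕ) := Lagrange.degree_interpolate_lt _ (hitNode_injOn B₀)
    rw [hB₀card] at h1
    by_cases hp0 : p = 0
    · rw [hp0]; simp
    · have := (Polynomial.natDegree_lt_iff_degree_lt hp0).mpr h1
      omega
  set F := hitSubst G (((r : ℤ) ^ e : ℤ) : ℚ) p with hF
  have hFdeg : F.natDegree ≤ m + n * m := hitSubst_natDegree_le G _ p hpdeg
  have hFroot : ∀ q ∈ B.image (fun b : ℤ => (b : ℚ)), F.eval q = 0 := by
    intro q hq
    obtain ⟨b, hb, rfl⟩ := Finset.mem_image.mp hq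
    rw [hF, hitSubst_eval G ((r : ℤ) ^ e) p b (x b) (hpval b hb), hxroot b (hBS b hb)]
    simp
  have hFcard : F.natDegree < (B.image (fun b : ℤ => (b : ℚ))).card := by
    rw [Finset.card_image_of_injective _ Int.cast_injective]
    omega
  have hF0 : F = 0 := Polynomial.eq_zero_of_natDegree_lt_card_of_eval_eq_zero' F _ hFroot hFcard
  have hc0 : ((((r : ℤ) ^ e : ℤ)) : ℚ) ≠ 0 := by
    have hr0 : (r : ℤ) ≠ 0 := by exact_mod_cast hrp.ne_zero
    exact Int.cast_ne_zero.mpr (pow_ne_zero _ hr0)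
  exact ⟨_, hitSubst_unscale G hc0 p hF0⟩

/-- **HIT-lite** in the form asked by the S52 route. -/
theorem hit_lite (G : Polynomial (Polynomial ℤ)) (hmonic : G.Monic)
    (hsep : ((G.map (Polynomial.evalRingHom (0:ℤ))).map (Int.castRingHom ℚ)).Separable)
    (hroot : ∀ s : ℤ,
      ∃ x : ℚ, ((G.map (Polynomial.evalRingHom s)).map (Int.castRingHom ℚ)).eval x = 0) :
    ∃ p : Polynomial ℚ, (G.map (Polynomial.mapRingHom (Int.castRingHom ℚ))).eval p = 0 :=
  hit_lite_ne G hmonic hsep (fun s _ => hroot s)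

end Fermat.Agent.S52
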