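import Fermat.Agent.S52.HitNewton
import Mathlib.FieldTheory.Separable
import Mathlib.RingTheory.Localization.Integral
import Mathlib.RingTheory.Polynomial.RationalRoot
import Mathlib.Data.Int.Order.Basic

/-!
# S52 / HIT, part 2: the auxiliary prime, integrality of rational roots, size of integer roots
-/

set_option autoImplicit false

namespace Fermat.Agent.S52

open Polynomial

/-- A separable (over `ℚ`) integer polynomial has only simple roots modulo every prime not
dividing a certain nonzero integer `d`. -/
theorem hit_exists_disc (f : Polynomial ℤ) (hsep : (f.map (Int.castRingHom ℚ)).Separable) :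
    ∃ d : ℤ, d ≠ 0 ∧ ∀ r ρ : ℤ, ¬ r ∣ d → r ∣ f.eval ρ → ¬ r ∣ f.derivative.eval ρ := by
  obtain ⟨a, b, hab⟩ := (Polynomial.separable_def' _).mp hsep
  obtain ⟨da, hda, hA⟩ := IsLocalization.integerNormalization_spec (nonZeroDivisors ℤ) a
  obtain ⟨db, hdb, hB⟩ := IsLocalization.integerNormalization_spec (nonZeroDivisors ℤ) b
  set A := IsLocalization.integerNormalization (nonZeroDivisors ℤ) a
  set B := IsLocalization.integerNormalization (nonZeroDivisors ℤ) b
  have hda0 : da ≠ 0 := nonZeroDivisors.ne_zero hda
  have hdb0 : db ≠ 0 := nonZeroDivisors.ne_zero hdb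
  refine ⟨da * db, mul_ne_zero hda0 hdb0, ?_⟩
  -- the integer Bezout identity
  have hA' : A.map (Int.castRingHom ℚ) = (da : Polynomial ℚ) * a := by
    rw [← zsmul_eq_mul]
    simpa only [algebraMap_int_eq] using hA
  have hB' : B.map (Int.castRingHom ℚ) = (db : Polynomial ℚ) * b := by
    rw [← zsmul_eq_mul]
    simpa only [algebraMap_int_eq] using hB
  have key : (db : Polynomial ℤ) * A * f + (da : Polynomial ℤ) * B * f.derivative
      = ((da * db : ℤ) : Polynomial ℤ) := by
    apply Polynomial.map_injective (Int.castRingHom ℚ) Int.cast_injective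
    rw [Polynomial.map_add, Polynomial.map_mul, Polynomial.map_mul, Polynomial.map_mul,
      Polynomial.map_mul, Polynomial.map_intCast, Polynomial.map_intCast, Polynomial.map_intCast,
      hA', hB', ← Polynomial.derivative_map]
    have : ((db : Polynomial ℚ) * ((da : Polynomial ℚ) * a) * (f.map (Int.castRingHom ℚ))
        + (da : Polynomial ℚ) * ((db : Polynomial ℚ) * b) * derivative (f.map (Int.castRingHom ℚ)))
        = (da : Polynomial ℚ) * (db : Polynomial ℚ) * (a * f.map (Int.castRingHom ℚ)
          + b * derivative (f.map (Int.castRingHom ℚ))) := by ring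
    rw [this, hab, mul_one]
    push_cast
    rfl
  intro r ρ hrd h1 h2
  apply hrd
  have := congrArg (Polynomial.eval ρ) key
  simp only [eval_add, eval_mul, Polynomial.eval_intCast, Int.cast_id] at this
  have h3 : da * db = db * eval ρ A * eval ρ f + da * eval ρ B * eval ρ (derivative f) := by
    rw [this]
  rw [h3]
  exact dvd_add (Dvd.dvd.mul_left h1 _) (Dvd.dvd.mul_left h2 _)

/-- rational roots of monic integer polynomials are integers -/
theorem hit_int_root (f : Polynomial ℤ) (hf : f.Monic) {x : ℚ}
    (hx : (f.map (Int.castRingHom ℚ)).eval x = 0) : ∃ y : ℤ, (y : ℚ) = x ∧ f.eval y = 0 := by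
  have h1 : Polynomial.aeval x f = 0 := by
    rw [Polynomial.aeval_def, ← Polynomial.eval_map]
    simpa using hx
  obtain ⟨y, hy⟩ := isInteger_of_is_root_of_monic hf h1
  refine ⟨y, by simpa using hy, ?_⟩
  have hy' : (y : ℚ) = x := by simpa using hy
  rw [← hy'] at hx
  have : ((f.eval y : ℤ) : ℚ) = 0 := by
    rw [← hx]
    simp [Polynomial.eval_map, Polynomial.eval₂_at_intCast]
  exact_mod_cast this

/-- total absolute size of a polynomial -/
noncomputable def hitSize (g : Polynomial ℤ) : ℕ := ∑ j ∈ g.support, (g.coeff j).natAbs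

theorem hit_eval_le (g : Polynomial ℤ) {a : ℤ} (ha : a ≠ 0) {m : ℕ} (hm : g.natDegree ≤ m) :
    (g.eval a).natAbs ≤ hitSize g * a.natAbs ^ m := by
  rw [Polynomial.eval_eq_sum, Polynomial.sum_def, hitSize, Finset.sum_mul]
  refine (Int.natAbs_sum_le _ _).trans (Finset.sum_le_sum fun j hj => ?_)
  rw [Int.natAbs_mul, Int.natAbs_pow]
  apply Nat.mul_le_mul_left
  have hj' : j ≤ m := (Polynomial.le_natDegree_of_mem_supp j hj).trans hm
  exact Nat.pow_le_pow_right (Int.natAbs_pos.mpr ha) hj'

/-- Cauchy-type bound for integer roots of monic integer polynomials. -/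
theorem hit_root_le (f : Polynomial ℤ) (hf : f.Monic) {x : ℤ} (hx : f.eval x = 0) :
    x.natAbs ≤ hitSize f := by
  have hlead : 1 ≤ hitSize f := by
    rw [hitSize]
    have hn : f.natDegree ∈ f.support := by
      rw [Polynomial.mem_support_iff, Polynomial.coeff_natDegree, hf.leadingCoeff]
      exact one_ne_zero
    refine le_trans ?_ (Finset.single_le_sum (f := fun j => (f.coeff j).natAbs)
      (fun _ _ => Nat.zero_le _) hn)
    simp [Polynomial.coeff_natDegree, hf.leadingCoeff]
  by_cases h1 : x.natAbs ≤ 1
  · exact h1.trans hlead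
  rw [not_le] at h1
  set n := f.natDegree with hn
  have hn0 : n ≠ 0 := by
    intro h0
    have : f = 1 := by
      have := Polynomial.eq_C_of_natDegree_eq_zero (hn ▸ h0)
      rw [this]
      have hc : f.coeff 0 = 1 := by
        have := hf.leadingCoeff
        rwa [Polynomial.leadingCoeff, ← hn, h0] at this
      rw [hc]; simp
    rw [this] at hx
    simp at hx
  -- x^n = - Σ_{i<n} a_i x^i
  have hsum : f.eval x = x ^ n + ∑ i ∈ Finset.range n, f.coeff i * x ^ i := by
    rw [Polynomial.eval_eq_sum_range, Finset.sum_range_succ, ← hn, Polynomial.coeff_natDegree,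
      hf.leadingCoeff, one_mul, add_comm]
  rw [hx] at hsum
  have hpow : x ^ n = - ∑ i ∈ Finset.range n, f.coeff i * x ^ i := by linarith
  have habs : x.natAbs ^ n ≤ (∑ i ∈ Finset.range n, (f.coeff i).natAbs) * x.natAbs ^ (n - 1) := by
    have : (x ^ n).natAbs = (∑ i ∈ Finset.range n, f.coeff i * x ^ i).natAbs := by
      rw [hpow, Int.natAbs_neg]
    rw [← Int.natAbs_pow, this, Finset.sum_mul]
    refine (Int.natAbs_sum_le _ _).trans (Finset.sum_le_sum fun i hi => ?_)
    rw [Int.natAbs_mul, Int.natAbs_pow]
    apply Nat.mul_le_mul_left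
    exact Nat.pow_le_pow_right (by omega) (by have := Finset.mem_range.mp hi; omega)
  have hpos : 0 < x.natAbs ^ (n - 1) := Nat.pow_pos (by omega)
  have hle : x.natAbs ≤ ∑ i ∈ Finset.range n, (f.coeff i).natAbs := by
    have h2 : x.natAbs ^ n = x.natAbs * x.natAbs ^ (n - 1) := by
      conv_lhs => rw [show n = (n - 1) + 1 by omega, pow_succ]
      ring
    rw [h2] at habs
    exact Nat.le_of_mul_le_mul_right habs hpos
  refine hle.trans ?_
  rw [hitSize]
  -- sum over range n of natAbs coeff ≤ sum over support
  have : ∑ i ∈ Finset.range n, (f.coeff i).natAbs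
      = ∑ i ∈ (Finset.range n).filter (fun i => f.coeff i ≠ 0), (f.coeff i).natAbs := by
    rw [Finset.sum_filter]
    apply Finset.sum_congr rfl
    intro i _
    by_cases h : f.coeff i = 0 <;> simp [h]
  rw [this]
  apply Finset.sum_le_sum_of_subset
  intro i hi
  rw [Finset.mem_filter] at hi
  exact Polynomial.mem_support_iff.mpr hi.2

end Fermat.Agent.S52
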