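import Mathlib.Algebra.Polynomial.Identities
import Mathlib.Algebra.Polynomial.Derivative
import Mathlib.Algebra.Polynomial.Eval.Degree
import Mathlib.Data.Int.GCD
import Mathlib.RingTheory.Coprime.Lemmas
import Mathlib.Data.Nat.Prime.Basic
import Mathlib.RingTheory.Int.Basic

/-!
# S52 / HIT, part 1: `r`-adic Newton iteration with a polynomial parameter

`G : ℤ[s][X]` (outer variable `X`, inner variable `s`).  For a prime `r` and a simple root `ρ` of
`G(0, X)` modulo `r` we construct, for every `k`, a polynomial `P ∈ ℤ[u]` such that every integer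
root `x ≡ ρ (mod r)` of `G(a, X)` with `r ∣ a` satisfies `x ≡ P(a) (mod r ^ k)`.
-/

set_option autoImplicit false

namespace Fermat.Agent.S52

open Polynomial

/-- `G(a, X) ∈ ℤ[X]`. -/
noncomputable def hitAt (G : Polynomial (Polynomial ℤ)) (a : ℤ) : Polynomial ℤ :=
  G.map (Polynomial.evalRingHom a)

theorem hit_eval_eval (G : Polynomial (Polynomial ℤ)) (P : Polynomial ℤ) (a : ℤ) :
    (G.eval P).eval a = (hitAt G a).eval (P.eval a) := by
  have h := Polynomial.hom_eval₂ G (RingHom.id (Polynomial ℤ)) (Polynomial.evalRingHom a) P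
  simp only [RingHom.comp_id, Polynomial.coe_evalRingHom, Polynomial.eval₂_id] at h
  rw [hitAt, Polynomial.eval_map]
  exact h

/-- coefficientwise congruence of `G(a, X)` and `G(0, X)` when `r ∣ a`, in evaluated form. -/
theorem hit_eval_congr (f : Polynomial ℤ) {r a b : ℤ} (h : r ∣ a - b) :
    r ∣ f.eval a - f.eval b := by
  obtain ⟨z, hz⟩ := f.evalSubFactor a b
  rw [hz]
  exact Dvd.dvd.mul_left h z

theorem hitAt_eval_congr (G : Polynomial (Polynomial ℤ)) {r a : ℤ} (h : r ∣ a) (y : ℤ) :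
    r ∣ (hitAt G a).eval y - (hitAt G 0).eval y := by
  have h1 : (hitAt G a).eval y = (G.eval (C y)).eval a := by
    rw [hit_eval_eval, eval_C]
  have h2 : (hitAt G 0).eval y = (G.eval (C y)).eval 0 := by
    rw [hit_eval_eval, eval_C]
  rw [h1, h2]
  exact hit_eval_congr _ (by simpa using h)

theorem hitAt_derivative (G : Polynomial (Polynomial ℤ)) (a : ℤ) :
    (hitAt G a).derivative = hitAt (G.derivative) a := by
  rw [hitAt, hitAt, Polynomial.derivative_map]

/-- Uniqueness of Hensel lifts over `ℤ`. -/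
theorem hit_unique {r : ℤ} (hr : Prime r) (f : Polynomial ℤ) {x y : ℤ} {k : ℕ}
    (hx : f.eval x = 0) (hy : r ^ k ∣ f.eval y) (hxy : r ∣ x - y)
    (hd : ¬ r ∣ f.derivative.eval y) : r ^ k ∣ x - y := by
  obtain ⟨K, hK⟩ := f.binomExpansion y (x - y)
  have hxe : y + (x - y) = x := by ring
  rw [hxe, hx] at hK
  have h1 : (x - y) * (f.derivative.eval y + K * (x - y)) = - f.eval y := by
    linear_combination -hK
  have h2 : r ^ k ∣ (x - y) * (f.derivative.eval y + K * (x - y)) := by
    rw [h1]; exact (dvd_neg).mpr hy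
  have h3 : ¬ r ∣ (f.derivative.eval y + K * (x - y)) := by
    intro h
    apply hd
    have : r ∣ K * (x - y) := Dvd.dvd.mul_left hxy K
    exact (dvd_add_left this).mp h
  have hcop : IsCoprime (r ^ k) (f.derivative.eval y + K * (x - y)) := by
    apply IsCoprime.pow_left
    exact (Prime.coprime_iff_not_dvd hr).mpr h3
  exact hcop.dvd_of_dvd_mul_right h2

/-- One Newton step over `ℤ`. -/
theorem hit_newton_step {r : ℤ} (f : Polynomial ℤ) {y w : ℤ} {k : ℕ} (hk : 1 ≤ k)
    (hy : r ^ k ∣ f.eval y) (hw : r ∣ 1 - w * f.derivative.eval y) :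
    r ^ (k + 1) ∣ f.eval (y - w * f.eval y) := by
  obtain ⟨K, hK⟩ := f.binomExpansion y (- (w * f.eval y))
  have hxe : y + -(w * f.eval y) = y - w * f.eval y := by ring
  rw [hxe] at hK
  rw [hK]
  have h1 : f.eval y + f.derivative.eval y * -(w * f.eval y) + K * (-(w * f.eval y)) ^ 2
      = f.eval y * (1 - w * f.derivative.eval y) + K * w ^ 2 * (f.eval y) ^ 2 := by ring
  rw [h1]
  apply dvd_add
  · rw [pow_succ]
    exact mul_dvd_mul hy hw
  · apply Dvd.dvd.mul_left
    have : r ^ (k + 1) ∣ (r ^ k) ^ 2 := by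
      rw [← pow_mul]
      exact pow_dvd_pow r (by omega)
    exact this.trans (pow_dvd_pow_of_dvd hy 2)

/-- The Newton iterates as polynomials in the parameter `u`. -/
noncomputable def hitIter (G : Polynomial (Polynomial ℤ)) (ρ w : ℤ) : ℕ → Polynomial ℤ
  | 0 => C ρ
  | (k + 1) => hitIter G ρ w k - C w * G.eval (hitIter G ρ w k)

theorem hitIter_spec (G : Polynomial (Polynomial ℤ)) {r : ℤ} {ρ w : ℤ}
    (hρ : r ∣ (hitAt G 0).eval ρ) (hw : r ∣ 1 - w * (hitAt G 0).derivative.eval ρ)
    (k : ℕ) {a : ℤ} (ha : r ∣ a) :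
    r ∣ (hitIter G ρ w k).eval a - ρ ∧
      r ^ (k + 1) ∣ (hitAt G a).eval ((hitIter G ρ w k).eval a) := by
  induction k with
  | zero =>
    refine ⟨by simp [hitIter], ?_⟩
    simp only [hitIter, eval_C, zero_add, pow_one]
    have h2 := hitAt_eval_congr G ha ρ
    have h3 : (hitAt G a).eval ρ = ((hitAt G a).eval ρ - (hitAt G 0).eval ρ)
      + (hitAt G 0).eval ρ := by ring
    rw [h3]; exact dvd_add h2 hρ
  | succ k ih =>
    obtain ⟨ih1, ih2⟩ := ih
    set y := (hitIter G ρ w k).eval a with hy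
    have hstep : (hitIter G ρ w (k + 1)).eval a = y - w * (hitAt G a).eval y := by
      simp only [hitIter, eval_sub, eval_mul, eval_C, hit_eval_eval]
      rfl
    have hfy : r ∣ (hitAt G a).eval y := (dvd_pow_self r (Nat.succ_ne_zero k)).trans ih2
    refine ⟨?_, ?_⟩
    · rw [hstep]
      have : y - w * (hitAt G a).eval y - ρ = (y - ρ) - w * (hitAt G a).eval y := by ring
      rw [this]
      exact dvd_sub ih1 (Dvd.dvd.mul_left hfy w)
    · rw [hstep]
      apply hit_newton_step (hitAt G a) (by omega) ih2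
      -- derivative congruence
      have e1 : r ∣ (hitAt G a).derivative.eval y - (hitAt G 0).derivative.eval y := by
        rw [hitAt_derivative, hitAt_derivative]
        exact hitAt_eval_congr _ ha y
      have e2 : r ∣ (hitAt G 0).derivative.eval y - (hitAt G 0).derivative.eval ρ :=
        hit_eval_congr _ ih1
      have e3 : 1 - w * (hitAt G a).derivative.eval y
          = (1 - w * (hitAt G 0).derivative.eval ρ)
            - w * ((hitAt G a).derivative.eval y - (hitAt G 0).derivative.eval y)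
            - w * ((hitAt G 0).derivative.eval y - (hitAt G 0).derivative.eval ρ) := by ring
      rw [e3]
      exact dvd_sub (dvd_sub hw (Dvd.dvd.mul_left e1 w)) (Dvd.dvd.mul_left e2 w)

/-- Polynomial approximation of the roots on the branch `ρ`, to any `r`-adic precision. -/
theorem hit_branch_poly (G : Polynomial (Polynomial ℤ)) {r : ℤ} (hr : Prime r) {ρ : ℤ}
    (hρ : r ∣ (hitAt G 0).eval ρ) (hρ' : ¬ r ∣ (hitAt G 0).derivative.eval ρ) (k : ℕ) :
    ∃ P : Polynomial ℤ, ∀ a x : ℤ, r ∣ a → (hitAt G a).eval x = 0 → r ∣ x - ρ →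
      r ^ k ∣ x - P.eval a := by
  obtain ⟨u, w, huw⟩ : IsCoprime r ((hitAt G 0).derivative.eval ρ) :=
    (Prime.coprime_iff_not_dvd hr).mpr hρ'
  have hw : r ∣ 1 - w * (hitAt G 0).derivative.eval ρ := ⟨u, by linear_combination huw.symm⟩
  refine ⟨hitIter G ρ w k, fun a x ha hx hxρ => ?_⟩
  obtain ⟨h1, h2⟩ := hitIter_spec G hρ hw k ha
  set y := (hitIter G ρ w k).eval a with hy
  have hxy : r ∣ x - y := by
    have : x - y = (x - ρ) - (y - ρ) := by ring
    rw [this]; exact dvd_sub hxρ h1
  have hd : ¬ r ∣ (hitAt G a).derivative.eval y := by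
    intro h
    apply hρ'
    have e1 : r ∣ (hitAt G a).derivative.eval y - (hitAt G 0).derivative.eval y := by
      rw [hitAt_derivative, hitAt_derivative]
      exact hitAt_eval_congr _ ha y
    have e2 : r ∣ (hitAt G 0).derivative.eval y - (hitAt G 0).derivative.eval ρ :=
      hit_eval_congr _ h1
    have e3 : (hitAt G 0).derivative.eval ρ = (hitAt G a).derivative.eval y
        - ((hitAt G a).derivative.eval y - (hitAt G 0).derivative.eval y)
        - ((hitAt G 0).derivative.eval y - (hitAt G 0).derivative.eval ρ) := by ring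
    rw [e3]
    exact dvd_sub (dvd_sub h e1) e2
  exact hit_unique hr (hitAt G a) hx ((pow_dvd_pow r (Nat.le_succ k)).trans h2) hxy hd

/-- Truncation: `P(r ^ e * v)` is, modulo `r ^ (e * J)`, a polynomial of degree `< J` in `v`. -/
theorem hit_trunc (P : Polynomial ℤ) (r : ℤ) (e J : ℕ) :
    ∃ Q : Polynomial ℤ, Q.degree < J ∧ ∀ v : ℤ, r ^ (e * J) ∣ P.eval (r ^ e * v) - Q.eval v := by
  set P' : Polynomial ℤ := P.comp (C (r ^ e) * X) with hP'
  have hcoeff : ∀ j, P'.coeff j = P.coeff j * (r ^ e) ^ j := by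
    intro j
    rw [hP', Polynomial.comp_C_mul_X_coeff]
  refine ⟨∑ j ∈ Finset.range J, Polynomial.monomial j (P'.coeff j), ?_, ?_⟩
  · rw [Polynomial.degree_lt_iff_coeff_zero]
    intro m hm
    rw [Polynomial.finsetSum_coeff]
    apply Finset.sum_eq_zero
    intro j hj
    rw [Polynomial.coeff_monomial, if_neg]
    have := Finset.mem_range.mp hj
    omega
  · intro v
    have hev : P.eval (r ^ e * v) = P'.eval v := by
      rw [hP', Polynomial.eval_comp]; simp
    rw [hev, ← Polynomial.eval_sub]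
    have hdvd : C (r ^ (e * J)) ∣ P' - ∑ j ∈ Finset.range J, Polynomial.monomial j (P'.coeff j) := by
      rw [Polynomial.C_dvd_iff_dvd_coeff]
      intro i
      rw [Polynomial.coeff_sub, Polynomial.finsetSum_coeff]
      simp only [Polynomial.coeff_monomial]
      by_cases hi : i < J
      · rw [Finset.sum_eq_single i]
        · simp
        · intro b _ hb; rw [if_neg hb]
        · intro h; exact absurd (Finset.mem_range.mpr hi) h
      · rw [Finset.sum_eq_zero, sub_zero, hcoeff]
        · apply Dvd.dvd.mul_left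
          rw [← pow_mul]
          exact pow_dvd_pow r (Nat.mul_le_mul_left e (not_lt.mp hi))
        · intro b hb
          rw [if_neg]
          have := Finset.mem_range.mp hb
          omega
    obtain ⟨R, hR⟩ := hdvd
    rw [hR, Polynomial.eval_mul, Polynomial.eval_C]
    exact dvd_mul_right _ _

/-- **Claim A**: on the branch `ρ`, the integer roots of `G(r ^ e * v, X)` are given, modulo
`r ^ (e * J)`, by a polynomial of degree `< J` in `v`. -/
theorem hit_branch (G : Polynomial (Polynomial ℤ)) {r : ℤ} (hr : Prime r) {ρ : ℤ}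
    (hρ : r ∣ (hitAt G 0).eval ρ) (hρ' : ¬ r ∣ (hitAt G 0).derivative.eval ρ)
    {e : ℕ} (he : 1 ≤ e) (J : ℕ) :
    ∃ Q : Polynomial ℤ, Q.degree < J ∧ ∀ v x : ℤ, (hitAt G (r ^ e * v)).eval x = 0 →
      r ∣ x - ρ → r ^ (e * J) ∣ x - Q.eval v := by
  obtain ⟨P, hP⟩ := hit_branch_poly G hr hρ hρ' (e * J)
  obtain ⟨Q, hQ1, hQ2⟩ := hit_trunc P r e J
  refine ⟨Q, hQ1, fun v x hx hxρ => ?_⟩
  have ha : r ∣ r ^ e * v := Dvd.dvd.mul_right (dvd_pow_self r (by omega)) v
  have h1 := hP (r ^ e * v) x ha hx hxρ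
  have h2 := hQ2 v
  have : x - Q.eval v = (x - P.eval (r ^ e * v)) + (P.eval (r ^ e * v) - Q.eval v) := by ring
  rw [this]
  exact dvd_add h1 h2

end Fermat.Agent.S52
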