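import Fermat.Agent.S52.HitArith
import Mathlib.Algebra.Polynomial.Roots
import Mathlib.Algebra.Polynomial.BigOperators
import Mathlib.Data.ZMod.Basic
import Mathlib.Tactic

/-!
# S52 / HIT, part 4: sizes in the family, scaling `s = r ^ e * v`
-/

set_option autoImplicit false

namespace Fermat.Agent.S52

open Polynomial

/-- degree of `G` in the inner variable `s` -/
noncomputable def hitM (G : Polynomial (Polynomial ℤ)) : ℕ :=
  G.support.sup fun i => (G.coeff i).natDegree

/-- total absolute size of `G` -/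
noncomputable def hitH (G : Polynomial (Polynomial ℤ)) : ℕ :=
  ∑ i ∈ G.support, hitSize (G.coeff i)

theorem hitM_le (G : Polynomial (Polynomial ℤ)) (i : ℕ) : (G.coeff i).natDegree ≤ hitM G := by
  by_cases hi : i ∈ G.support
  · exact Finset.le_sup (f := fun i => (G.coeff i).natDegree) hi
  · rw [Polynomial.notMem_support_iff.mp hi]; simp

theorem hitAt_monic {G : Polynomial (Polynomial ℤ)} (hG : G.Monic) (a : ℤ) :
    (hitAt G a).Monic := hG.map _

theorem hitAt_natDegree {G : Polynomial (Polynomial ℤ)} (hG : G.Monic) (a : ℤ) :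
    (hitAt G a).natDegree = G.natDegree := hG.natDegree_map _

theorem hitSize_hitAt_le (G : Polynomial (Polynomial ℤ)) {a : ℤ} (ha : a ≠ 0) :
    hitSize (hitAt G a) ≤ hitH G * a.natAbs ^ hitM G := by
  rw [hitSize, hitH, Finset.sum_mul]
  have hsub : (hitAt G a).support ⊆ G.support := by
    intro i hi
    rw [Polynomial.mem_support_iff] at hi ⊢
    intro h0
    apply hi
    rw [hitAt, Polynomial.coeff_map, h0, map_zero]
  refine (Finset.sum_le_sum_of_subset (f := fun j => ((hitAt G a).coeff j).natAbs) hsub).trans ?_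
  apply Finset.sum_le_sum
  intro i _
  rw [hitAt, Polynomial.coeff_map, Polynomial.coe_evalRingHom]
  exact hit_eval_le _ ha (hitM_le G i)

/-- size of the integer roots in the family -/
theorem hit_root_size {G : Polynomial (Polynomial ℤ)} (hG : G.Monic) {a x : ℤ} (ha : a ≠ 0)
    (hx : (hitAt G a).eval x = 0) : x.natAbs ≤ hitH G * a.natAbs ^ hitM G :=
  (hit_root_le _ (hitAt_monic hG a) hx).trans (hitSize_hitAt_le G ha)

/-- a root of `G(a, X)` with `r ∣ a` is a root of `G(0, X)` modulo `r` -/
theorem hit_root_mod (G : Polynomial (Polynomial ℤ)) {r a x : ℤ} (ha : r ∣ a)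
    (hx : (hitAt G a).eval x = 0) : r ∣ (hitAt G 0).eval x := by
  have h := hitAt_eval_congr G ha x
  rw [hx, zero_sub] at h
  exact (dvd_neg).mp h

/-- the scaling homomorphism `g(s) ↦ g(c * v)`, composed with the cast `ℤ → ℚ` -/
noncomputable def hitScale (c : ℚ) : Polynomial ℤ →+* Polynomial ℚ :=
  (Polynomial.compRingHom (C c * X)).comp (Polynomial.mapRingHom (Int.castRingHom ℚ))

theorem hitScale_apply (c : ℚ) (g : Polynomial ℤ) :
    hitScale c g = (g.map (Int.castRingHom ℚ)).comp (C c * X) := rfl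

theorem hitScale_eval (c : ℚ) (g : Polynomial ℤ) (b : ℚ) :
    (hitScale c g).eval b = (g.map (Int.castRingHom ℚ)).eval (c * b) := by
  rw [hitScale_apply, Polynomial.eval_comp]
  simp

theorem hitScale_natDegree_le (c : ℚ) (g : Polynomial ℤ) :
    (hitScale c g).natDegree ≤ g.natDegree := by
  rw [hitScale_apply]
  refine (Polynomial.natDegree_comp_le).trans ?_
  have h1 : (C c * X : Polynomial ℚ).natDegree ≤ 1 := by
    refine (Polynomial.natDegree_C_mul_le _ _).trans ?_
    simp
  calc (g.map (Int.castRingHom ℚ)).natDegree * (C c * X : Polynomial ℚ).natDegree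
      ≤ g.natDegree * 1 := Nat.mul_le_mul (Polynomial.natDegree_map_le) h1
    _ = g.natDegree := mul_one _

/-- `G(c v, p(v)) ∈ ℚ[v]` -/
noncomputable def hitSubst (G : Polynomial (Polynomial ℤ)) (c : ℚ) (p : Polynomial ℚ) :
    Polynomial ℚ := G.eval₂ (hitScale c) p

theorem hitSubst_natDegree_le (G : Polynomial (Polynomial ℤ)) (c : ℚ) (p : Polynomial ℚ)
    {d : ℕ} (hp : p.natDegree ≤ d) :
    (hitSubst G c p).natDegree ≤ hitM G + G.natDegree * d := by
  rw [hitSubst, Polynomial.eval₂_eq_sum_range]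
  apply Polynomial.natDegree_sum_le_of_forall_le
  intro i hi
  have hi' : i ≤ G.natDegree := by
    have := Finset.mem_range.mp hi
    omega
  refine (Polynomial.natDegree_mul_le).trans ?_
  apply Nat.add_le_add
  · exact (hitScale_natDegree_le c _).trans (hitM_le G i)
  · refine (Polynomial.natDegree_pow_le).trans ?_
    exact Nat.mul_le_mul hi' hp

theorem hitSubst_eval (G : Polynomial (Polynomial ℤ)) (c : ℤ) (p : Polynomial ℚ) (b x : ℤ)
    (hp : p.eval (b : ℚ) = (x : ℚ)) :
    (hitSubst G (c : ℚ) p).eval (b : ℚ) = (((hitAt G (c * b)).eval x : ℤ) : ℚ) := by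
  have h := Polynomial.hom_eval₂ G (hitScale (c : ℚ)) (Polynomial.evalRingHom (b : ℚ)) p
  simp only [Polynomial.coe_evalRingHom] at h
  rw [hitSubst, h, hp]
  have hcomp : (Polynomial.evalRingHom (b : ℚ)).comp (hitScale (c : ℚ))
      = (Int.castRingHom ℚ).comp (Polynomial.evalRingHom (c * b)) := by
    apply Polynomial.ringHom_ext
    · intro a
      simp [hitScale]
    · simp [hitScale]
  rw [hcomp]
  have h2 := Polynomial.hom_eval₂ G (Polynomial.evalRingHom (c * b)) (Int.castRingHom ℚ) x
  rw [hitAt, Polynomial.eval_map]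
  simpa using h2.symm

/-- undoing the scaling -/
theorem hitSubst_unscale (G : Polynomial (Polynomial ℤ)) {c : ℚ} (hc : c ≠ 0) (p : Polynomial ℚ)
    (h : hitSubst G c p = 0) :
    (G.map (Polynomial.mapRingHom (Int.castRingHom ℚ))).eval (p.comp (C c⁻¹ * X)) = 0 := by
  have h1 := Polynomial.hom_eval₂ G (hitScale c) (Polynomial.compRingHom (C c⁻¹ * X)) p
  rw [← hitSubst, h, map_zero] at h1
  have hcomp : (Polynomial.compRingHom (C c⁻¹ * X)).comp (hitScale c)
      = Polynomial.mapRingHom (Int.castRingHom ℚ) := by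
    apply RingHom.ext
    intro g
    simp only [RingHom.comp_apply, hitScale, Polynomial.coe_compRingHom,
      Polynomial.coe_mapRingHom]
    rw [Polynomial.comp_assoc]
    have : (C c * X : Polynomial ℚ).comp (C c⁻¹ * X) = X := by
      rw [Polynomial.mul_comp, Polynomial.C_comp, Polynomial.X_comp, ← mul_assoc, ← Polynomial.C_mul,
        mul_inv_cancel₀ hc, Polynomial.C_1, one_mul]
    rw [this, Polynomial.comp_X]
  rw [hcomp] at h1
  rw [Polynomial.eval_map]
  simpa using h1.symm

end Fermat.Agent.S52
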