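import Mathlib

/-!
# S52 piece PSI3

* `psi3Quartic c4 c6 = 3X⁴ − 162 c₄ X² − 648 c₆ X − 729 c₄²` (the 3-division polynomial of
  `y² = x³ − 27 c₄ x − 54 c₆`) and its monic form
  `psi3Monic c4 c6 = Y⁴ − 6 c₄ Y² − 8 c₆ Y − 3 c₄²`, with `psi3Quartic (3Y) = 243 · psi3Monic (Y)`.
* (i) for a Weierstrass curve `W`: `psi3Monic c₄ c₆ (12 x + b₂) = 6912 · Ψ₃(x)` and
  `psi3Quartic c₄ c₆ (36 x + 3 b₂) = 36⁴ · Ψ₃(x)`; so over a field with `6 ≠ 0`, `Ψ₃` has a root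
  iff `psi3Monic` has one iff `psi3Quartic` has one.
* (ii) explicit Bezout identity
  `4(Y² − 4c₄)·g − (Y³ − 7c₄Y − 6c₆)·g' = 48 (c₄³ − c₆²)`, hence `psi3Monic` and `psi3Quartic`
  are separable over a field with `6 ≠ 0` when `c₄³ ≠ c₆²`.
-/

set_option autoImplicit false

namespace Fermat.Agent.S52

open Polynomial

section ring

variable {R : Type*} [CommRing R]

/-- the quartic `3X⁴ − 162 c₄ X² − 648 c₆ X − 729 c₄²`. -/
noncomputable def psi3Quartic (c4 c6 : R) : R[X] :=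
  3 * X ^ 4 - 162 * C c4 * X ^ 2 - 648 * C c6 * X - 729 * C c4 ^ 2

/-- the monic quartic `Y⁴ − 6 c₄ Y² − 8 c₆ Y − 3 c₄²`. -/
noncomputable def psi3Monic (c4 c6 : R) : R[X] :=
  X ^ 4 - 6 * C c4 * X ^ 2 - 8 * C c6 * X - 3 * C c4 ^ 2

theorem psi3Quartic_eval (c4 c6 x : R) :
    (psi3Quartic c4 c6).eval x = 3 * x ^ 4 - 162 * c4 * x ^ 2 - 648 * c6 * x - 729 * c4 ^ 2 := by
  simp [psi3Quartic]

theorem psi3Monic_eval (c4 c6 x : R) :
    (psi3Monic c4 c6).eval x = x ^ 4 - 6 * c4 * x ^ 2 - 8 * c6 * x - 3 * c4 ^ 2 := by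
  simp [psi3Monic]

theorem psi3Quartic_map {S : Type*} [CommRing S] (f : R →+* S) (c4 c6 : R) :
    (psi3Quartic c4 c6).map f = psi3Quartic (f c4) (f c6) := by
  simp [psi3Quartic, Polynomial.map_sub, Polynomial.map_mul, Polynomial.map_pow]

theorem psi3Monic_map {S : Type*} [CommRing S] (f : R →+* S) (c4 c6 : R) :
    (psi3Monic c4 c6).map f = psi3Monic (f c4) (f c6) := by
  simp [psi3Monic, Polynomial.map_sub, Polynomial.map_mul, Polynomial.map_pow]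

theorem psi3_low_natDegree (c4 c6 : R) :
    (6 * C c4 * X ^ 2 + 8 * C c6 * X + 3 * C c4 ^ 2 : R[X]).natDegree ≤ 2 := by
  compute_degree

theorem psi3Monic_monic (c4 c6 : R) : (psi3Monic c4 c6).Monic := by
  have e : psi3Monic c4 c6
      = X ^ 4 - (6 * C c4 * X ^ 2 + 8 * C c6 * X + 3 * C c4 ^ 2) := by
    rw [psi3Monic]; ring
  rw [e]
  apply Polynomial.monic_X_pow_sub
  refine lt_of_le_of_lt (Polynomial.degree_le_of_natDegree_le (psi3_low_natDegree c4 c6)) ?_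
  exact_mod_cast (by norm_num : (2 : ℕ) < 4)

theorem psi3Monic_natDegree [Nontrivial R] (c4 c6 : R) : (psi3Monic c4 c6).natDegree = 4 := by
  have e : psi3Monic c4 c6
      = X ^ 4 - (6 * C c4 * X ^ 2 + 8 * C c6 * X + 3 * C c4 ^ 2) := by
    rw [psi3Monic]; ring
  rw [e, Polynomial.natDegree_sub_eq_left_of_natDegree_lt, natDegree_X_pow]
  rw [natDegree_X_pow]
  exact lt_of_le_of_lt (psi3_low_natDegree c4 c6) (by norm_num)

/-- `psi3Quartic (3Y) = 243 · psi3Monic (Y)` (evaluated form). -/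
theorem psi3Quartic_eval_three_mul (c4 c6 y : R) :
    (psi3Quartic c4 c6).eval (3 * y) = 243 * (psi3Monic c4 c6).eval y := by
  rw [psi3Quartic_eval, psi3Monic_eval]; ring

/-- (i), monic form: `g(12x + b₂) = 6912 · Ψ₃(x)`. -/
theorem psi3Monic_eval_curve (W : WeierstrassCurve R) (x : R) :
    (psi3Monic W.c₄ W.c₆).eval (12 * x + W.b₂) = 6912 * W.Ψ₃.eval x := by
  rw [psi3Monic_eval]
  simp only [WeierstrassCurve.Ψ₃, WeierstrassCurve.c₄, WeierstrassCurve.c₆, WeierstrassCurve.b₂,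
    WeierstrassCurve.b₄, WeierstrassCurve.b₆, WeierstrassCurve.b₈, eval_add, eval_mul, eval_pow,
    eval_X, eval_C, eval_ofNat]
  ring

/-- (i), quartic form: `q(36x + 3b₂) = 36⁴ · Ψ₃(x)`. -/
theorem psi3Quartic_eval_curve (W : WeierstrassCurve R) (x : R) :
    (psi3Quartic W.c₄ W.c₆).eval (36 * x + 3 * W.b₂) = 1679616 * W.Ψ₃.eval x := by
  have e : 36 * x + 3 * W.b₂ = 3 * (12 * x + W.b₂) := by ring
  rw [e, psi3Quartic_eval_three_mul, psi3Monic_eval_curve]; ring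

/-- derivative of the monic quartic. -/
theorem psi3Monic_derivative (c4 c6 : R) :
    derivative (psi3Monic c4 c6) = 4 * X ^ 3 - 12 * C c4 * X - 8 * C c6 := by
  simp only [psi3Monic, derivative_sub, derivative_mul, derivative_C,
    derivative_X, derivative_pow, derivative_ofNat]
  simp only [Nat.cast_ofNat, C_ofNat]
  ring

/-- derivative of the quartic. -/
theorem psi3Quartic_derivative (c4 c6 : R) :
    derivative (psi3Quartic c4 c6) = 12 * X ^ 3 - 324 * C c4 * X - 648 * C c6 := by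
  simp only [psi3Quartic, derivative_sub, derivative_mul, derivative_C,
    derivative_X, derivative_pow, derivative_ofNat]
  simp only [Nat.cast_ofNat, C_ofNat]
  ring

/-- (ii) the explicit Bezout identity for the monic quartic. -/
theorem psi3Monic_bezout (c4 c6 : R) :
    4 * (X ^ 2 - 4 * C c4) * psi3Monic c4 c6
      - (X ^ 3 - 7 * C c4 * X - 6 * C c6) * derivative (psi3Monic c4 c6)
      = C (48 * (c4 ^ 3 - c6 ^ 2)) := by
  rw [psi3Monic_derivative, psi3Monic]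
  simp only [C_mul, C_sub, C_pow, C_ofNat]
  ring

/-- (ii) the explicit Bezout identity for the quartic. -/
theorem psi3Quartic_bezout (c4 c6 : R) :
    4 * (X ^ 2 - 36 * C c4) * psi3Quartic c4 c6
      - (X ^ 3 - 63 * C c4 * X - 162 * C c6) * derivative (psi3Quartic c4 c6)
      = C (104976 * (c4 ^ 3 - c6 ^ 2)) := by
  rw [psi3Quartic_derivative, psi3Quartic]
  simp only [C_mul, C_sub, C_pow, C_ofNat]
  ring

end ring

section field

variable {F : Type*} [Field F]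

theorem psi3_aux_ne (h6 : (6 : F) ≠ 0) : (2 : F) ≠ 0 ∧ (3 : F) ≠ 0 := by
  constructor
  · intro h; apply h6; have : (6 : F) = 2 * 3 := by norm_num
    rw [this, h, zero_mul]
  · intro h; apply h6; have : (6 : F) = 2 * 3 := by norm_num
    rw [this, h, mul_zero]

/-- (ii) `psi3Monic c4 c6` is separable when `c4³ ≠ c6²` (and `6 ≠ 0`). -/
theorem psi3Monic_separable (h6 : (6 : F) ≠ 0) (c4 c6 : F) (hd : c4 ^ 3 ≠ c6 ^ 2) :
    (psi3Monic c4 c6).Separable := by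
  obtain ⟨h2, h3⟩ := psi3_aux_ne h6
  have hk : (48 * (c4 ^ 3 - c6 ^ 2) : F) ≠ 0 := by
    have : (48 : F) = 2 ^ 4 * 3 := by norm_num
    rw [this]
    exact mul_ne_zero (mul_ne_zero (pow_ne_zero _ h2) h3) (sub_ne_zero.2 hd)
  refine ⟨C (48 * (c4 ^ 3 - c6 ^ 2))⁻¹ * (4 * (X ^ 2 - 4 * C c4)),
    - (C (48 * (c4 ^ 3 - c6 ^ 2))⁻¹ * (X ^ 3 - 7 * C c4 * X - 6 * C c6)), ?_⟩
  have hb := psi3Monic_bezout c4 c6
  calc C (48 * (c4 ^ 3 - c6 ^ 2))⁻¹ * (4 * (X ^ 2 - 4 * C c4)) * psi3Monic c4 c6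
        + -(C (48 * (c4 ^ 3 - c6 ^ 2))⁻¹ * (X ^ 3 - 7 * C c4 * X - 6 * C c6))
          * derivative (psi3Monic c4 c6)
      = C (48 * (c4 ^ 3 - c6 ^ 2))⁻¹ * (4 * (X ^ 2 - 4 * C c4) * psi3Monic c4 c6
          - (X ^ 3 - 7 * C c4 * X - 6 * C c6) * derivative (psi3Monic c4 c6)) := by ring
    _ = C (48 * (c4 ^ 3 - c6 ^ 2))⁻¹ * C (48 * (c4 ^ 3 - c6 ^ 2)) := by rw [hb]
    _ = 1 := by rw [← C_mul, inv_mul_cancel₀ hk, C_1]

/-- (ii) `psi3Quartic c4 c6` is separable when `c4³ ≠ c6²` (and `6 ≠ 0`). -/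
theorem psi3Quartic_separable (h6 : (6 : F) ≠ 0) (c4 c6 : F) (hd : c4 ^ 3 ≠ c6 ^ 2) :
    (psi3Quartic c4 c6).Separable := by
  obtain ⟨h2, h3⟩ := psi3_aux_ne h6
  have hk : (104976 * (c4 ^ 3 - c6 ^ 2) : F) ≠ 0 := by
    have : (104976 : F) = 2 ^ 4 * 3 ^ 8 := by norm_num
    rw [this]
    exact mul_ne_zero (mul_ne_zero (pow_ne_zero _ h2) (pow_ne_zero _ h3)) (sub_ne_zero.2 hd)
  refine ⟨C (104976 * (c4 ^ 3 - c6 ^ 2))⁻¹ * (4 * (X ^ 2 - 36 * C c4)),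
    - (C (104976 * (c4 ^ 3 - c6 ^ 2))⁻¹ * (X ^ 3 - 63 * C c4 * X - 162 * C c6)), ?_⟩
  have hb := psi3Quartic_bezout c4 c6
  calc C (104976 * (c4 ^ 3 - c6 ^ 2))⁻¹ * (4 * (X ^ 2 - 36 * C c4)) * psi3Quartic c4 c6
        + -(C (104976 * (c4 ^ 3 - c6 ^ 2))⁻¹ * (X ^ 3 - 63 * C c4 * X - 162 * C c6))
          * derivative (psi3Quartic c4 c6)
      = C (104976 * (c4 ^ 3 - c6 ^ 2))⁻¹ * (4 * (X ^ 2 - 36 * C c4) * psi3Quartic c4 c6
          - (X ^ 3 - 63 * C c4 * X - 162 * C c6) * derivative (psi3Quartic c4 c6)) := by ring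
    _ = C (104976 * (c4 ^ 3 - c6 ^ 2))⁻¹ * C (104976 * (c4 ^ 3 - c6 ^ 2)) := by rw [hb]
    _ = 1 := by rw [← C_mul, inv_mul_cancel₀ hk, C_1]

/-- (i) `Ψ₃` has a root iff the monic quartic has one (`y = 12 x + b₂`). -/
theorem psi3_root_iff_monic (h6 : (6 : F) ≠ 0) (W : WeierstrassCurve F) :
    (∃ x : F, W.Ψ₃.eval x = 0) ↔ ∃ y : F, (psi3Monic W.c₄ W.c₆).eval y = 0 := by
  obtain ⟨h2, h3⟩ := psi3_aux_ne h6
  have h12 : (12 : F) ≠ 0 := by
    have : (12 : F) = 2 ^ 2 * 3 := by norm_num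
    rw [this]; exact mul_ne_zero (pow_ne_zero _ h2) h3
  have h6912 : (6912 : F) ≠ 0 := by
    have : (6912 : F) = 2 ^ 8 * 3 ^ 3 := by norm_num
    rw [this]; exact mul_ne_zero (pow_ne_zero _ h2) (pow_ne_zero _ h3)
  constructor
  · rintro ⟨x, hx⟩
    exact ⟨12 * x + W.b₂, by rw [psi3Monic_eval_curve, hx, mul_zero]⟩
  · rintro ⟨y, hy⟩
    refine ⟨(y - W.b₂) / 12, ?_⟩
    have e : 12 * ((y - W.b₂) / 12) + W.b₂ = y := by field_simp; ring
    have := psi3Monic_eval_curve W ((y - W.b₂) / 12)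
    rw [e, hy] at this
    exact (mul_eq_zero.1 this.symm).resolve_left h6912

/-- the monic quartic has a root iff the quartic has one (`X = 3 y`). -/
theorem psi3Monic_root_iff_quartic (h6 : (6 : F) ≠ 0) (c4 c6 : F) :
    (∃ y : F, (psi3Monic c4 c6).eval y = 0) ↔ ∃ X : F, (psi3Quartic c4 c6).eval X = 0 := by
  obtain ⟨h2, h3⟩ := psi3_aux_ne h6
  have h243 : (243 : F) ≠ 0 := by
    have : (243 : F) = 3 ^ 5 := by norm_num
    rw [this]; exact pow_ne_zero _ h3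
  constructor
  · rintro ⟨y, hy⟩
    exact ⟨3 * y, by rw [psi3Quartic_eval_three_mul, hy, mul_zero]⟩
  · rintro ⟨x, hx⟩
    refine ⟨x / 3, ?_⟩
    have e : 3 * (x / 3) = x := by field_simp
    have := psi3Quartic_eval_three_mul c4 c6 (x / 3)
    rw [e, hx] at this
    exact (mul_eq_zero.1 this.symm).resolve_left h243

/-- (i) `Ψ₃` has a root iff `3X⁴ − 162 c₄ X² − 648 c₆ X − 729 c₄²` has one (`X = 36 x + 3 b₂`). -/
theorem psi3_root_iff_quartic (h6 : (6 : F) ≠ 0) (W : WeierstrassCurve F) :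
    (∃ x : F, W.Ψ₃.eval x = 0) ↔
      ∃ X : F, 3 * X ^ 4 - 162 * W.c₄ * X ^ 2 - 648 * W.c₆ * X - 729 * W.c₄ ^ 2 = 0 := by
  rw [psi3_root_iff_monic h6, psi3Monic_root_iff_quartic h6]
  simp only [psi3Quartic_eval]

/-- (i) over `ℚ`. -/
theorem psi3_root_iff_rat (W : WeierstrassCurve ℚ) :
    (∃ x : ℚ, W.Ψ₃.eval x = 0) ↔
      ∃ X : ℚ, 3 * X ^ 4 - 162 * W.c₄ * X ^ 2 - 648 * W.c₆ * X - 729 * W.c₄ ^ 2 = 0 :=
  psi3_root_iff_quartic (by norm_num) W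

/-- (ii) over `ℚ`. -/
theorem psi3Quartic_separable_rat (c4 c6 : ℚ) (hd : c4 ^ 3 ≠ c6 ^ 2) :
    (psi3Quartic c4 c6).Separable :=
  psi3Quartic_separable (by norm_num) c4 c6 hd

end field

end Fermat.Agent.S52
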