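import Fermat.Agent.S52.Hit
import Fermat.Agent.S52.Psi3

/-!
# S52 / IRR, abstract core

`irr_core`: let `C4, C6 ∈ ℤ[s]` with `C4(0)³ ≠ C6(0)²`.  If the monic `3`-division quartic
`Y⁴ − 6 C4 Y² − 8 C6 Y − 3 C4²` has no root in `ℚ[s]`, then there is an integer `s ≠ 0` such that
its specialisation at `s` has no rational root.  (Assembly of `hit_lite_ne` with `psi3Monic`.)
-/

set_option autoImplicit false

namespace Fermat.Agent.S52

open Polynomial

theorem irr_core (C4 C6 : Polynomial ℤ)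
    (hΔ : (C4.eval 0) ^ 3 ≠ (C6.eval 0) ^ 2)
    (hgen : ∀ p : Polynomial ℚ,
      (psi3Monic (C4.map (Int.castRingHom ℚ)) (C6.map (Int.castRingHom ℚ))).eval p ≠ 0) :
    ∃ s : ℤ, s ≠ 0 ∧ ∀ y : ℚ,
      (psi3Monic ((C4.eval s : ℤ) : ℚ) ((C6.eval s : ℤ) : ℚ)).eval y ≠ 0 := by
  by_contra hcon
  push Not at hcon
  have hmonic : (psi3Monic C4 C6).Monic := psi3Monic_monic C4 C6
  have hmap : ∀ s : ℤ, ((psi3Monic C4 C6).map (Polynomial.evalRingHom s)).map (Int.castRingHom ℚ)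
      = psi3Monic ((C4.eval s : ℤ) : ℚ) ((C6.eval s : ℤ) : ℚ) := by
    intro s
    rw [psi3Monic_map, psi3Monic_map]
    rfl
  have hsep : (((psi3Monic C4 C6).map (Polynomial.evalRingHom (0 : ℤ))).map
      (Int.castRingHom ℚ)).Separable := by
    rw [hmap]
    refine psi3Monic_separable (by norm_num) _ _ ?_
    exact_mod_cast hΔ
  obtain ⟨p, hp⟩ := hit_lite_ne (psi3Monic C4 C6) hmonic hsep
    (fun s hs => by rw [hmap]; exact hcon s hs)
  apply hgen p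
  rw [psi3Monic_map] at hp
  exact hp

/-- the same with the (non-monic) quartic `3X⁴ − 162 C4 X² − 648 C6 X − 729 C4²` in the
hypothesis. -/
theorem irr_core_quartic (C4 C6 : Polynomial ℤ)
    (hΔ : (C4.eval 0) ^ 3 ≠ (C6.eval 0) ^ 2)
    (hgen : ∀ p : Polynomial ℚ,
      (psi3Quartic (C4.map (Int.castRingHom ℚ)) (C6.map (Int.castRingHom ℚ))).eval p ≠ 0) :
    ∃ s : ℤ, s ≠ 0 ∧ ∀ y : ℚ,
      (psi3Monic ((C4.eval s : ℤ) : ℚ) ((C6.eval s : ℤ) : ℚ)).eval y ≠ 0 := by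
  refine irr_core C4 C6 hΔ (fun p hp => hgen (3 * p) ?_)
  rw [psi3Quartic_eval_three_mul, hp, mul_zero]

end Fermat.Agent.S52
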