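import Fermat.Agent.S52.IrredCore
import Fermat.Agent.S52.Plan
import Fermat.Agent.S51.T3

/-!
# S52 / IRR: from "no polynomial root" (GEN) to an irreducible mod-3 representation

* `irr_map_rsC4`, `irr_map_rsC6`: the Rubin–Silverberg polynomials commute with ring homs.
* `irr_of_no_root`: a curve over `ℤ` with `Δ ≠ 0` whose monic 3-division quartic has no rational
  root has irreducible mod-3 representation (`S51.T3` + `PSI3`).
* `irr_exists_of_gen`: the assembly, with the statement of GEN as a hypothesis.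
-/

set_option autoImplicit false

open WeierstrassCurve WeierstrassCurve.Affine WeierstrassCurve.Affine.Point

namespace Fermat.Agent.S52

open Polynomial

section maps

variable {R S : Type*} [CommRing R] [CommRing S]

theorem irr_map_rsC4 (f : R →+* S) (t c4 c6 : R) :
    f (rsC4 t c4 c6) = rsC4 (f t) (f c4) (f c6) := by
  simp only [rsC4, rsC4Coeff0, rsC4Coeff1, rsC4Coeff2, rsC4Coeff3, rsC4Coeff4, rsC4Coeff5,
    rsC4Coeff6, rsC4Coeff7, rsC4Coeff8, rsC4Coeff9, rsC4Coeff10, rsC4Coeff11, rsC4Coeff12,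
    rsC4Coeff13, rsC4Coeff14, rsC4Coeff15, rsC4Coeff16, rsC4Coeff17, rsC4Coeff18, rsC4Coeff19,
    rsC4Coeff20, map_add, map_mul, map_pow, map_neg, map_one, map_ofNat]

theorem irr_map_rsC6 (f : R →+* S) (t c4 c6 : R) :
    f (rsC6 t c4 c6) = rsC6 (f t) (f c4) (f c6) := by
  simp only [rsC6, rsC6Coeff0, rsC6Coeff1, rsC6Coeff2, rsC6Coeff3, rsC6Coeff4, rsC6Coeff5,
    rsC6Coeff6, rsC6Coeff7, rsC6Coeff8, rsC6Coeff9, rsC6Coeff10, rsC6Coeff11, rsC6Coeff12,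
    rsC6Coeff13, rsC6Coeff14, rsC6Coeff15, rsC6Coeff16, rsC6Coeff17, rsC6Coeff18, rsC6Coeff19,
    rsC6Coeff20, rsC6Coeff21, rsC6Coeff22, rsC6Coeff23, rsC6Coeff24, rsC6Coeff25, rsC6Coeff26,
    rsC6Coeff27, rsC6Coeff28, rsC6Coeff29, rsC6Coeff30, map_add, map_mul, map_pow, map_neg,
    map_one, map_ofNat]

end maps

/-- A curve over `ℤ` with `Δ ≠ 0` whose monic `3`-division quartic has no rational root has an
irreducible mod-`3` representation. -/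
theorem irr_of_no_root (W : WeierstrassCurve ℤ) (hΔ : W.Δ ≠ 0)
    (h : ∀ y : ℚ, (psi3Monic ((W.c₄ : ℤ) : ℚ) ((W.c₆ : ℤ) : ℚ)).eval y ≠ 0) :
    W.ModRepIsIrreducible 3 := by
  have hΔq : (W.map (Int.castRingHom ℚ)).Δ ≠ 0 := by
    rw [WeierstrassCurve.map_Δ]
    simpa using hΔ
  obtain ⟨hnt, hT3⟩ := Fermat.Agent.S51.T3 (W.map (Int.castRingHom ℚ)) hΔq
  refine ⟨hnt, fun N hN => ?_⟩
  by_contra hcon
  push Not at hcon
  obtain ⟨x, hx⟩ := hT3 ⟨N, hN, hcon.1, hcon.2⟩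
  obtain ⟨y, hy⟩ := (psi3_root_iff_monic (by norm_num) (W.map (Int.castRingHom ℚ))).mp ⟨x, hx⟩
  rw [WeierstrassCurve.map_c₄, WeierstrassCurve.map_c₆] at hy
  exact h y hy

/-- IRR, with the statement of GEN as a hypothesis. -/
theorem irr_exists_of_gen (c4 c6 m : ℤ) (hΔ : c4 ^ 3 ≠ c6 ^ 2)
    (hgen : ∀ p : Polynomial ℚ, ¬ ∀ s : ℚ,
      3 * p.eval s ^ 4 - 162 * rsC4 ((m : ℚ) * s) (c4 : ℚ) (c6 : ℚ) * p.eval s ^ 2
        - 648 * rsC6 ((m : ℚ) * s) (c4 : ℚ) (c6 : ℚ) * p.eval s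
        - 729 * rsC4 ((m : ℚ) * s) (c4 : ℚ) (c6 : ℚ) ^ 2 = 0) :
    ∃ s : ℤ, s ≠ 0 ∧ ∀ W' : WeierstrassCurve ℤ, W'.Δ ≠ 0 →
      W'.c₄ = rsC4 (m * s) c4 c6 → W'.c₆ = rsC6 (m * s) c4 c6 → W'.ModRepIsIrreducible 3 := by
  set C4 : Polynomial ℤ := rsC4 (C m * X) (C c4) (C c6) with hC4
  set C6 : Polynomial ℤ := rsC6 (C m * X) (C c4) (C c6) with hC6
  have e4 : ∀ s : ℤ, C4.eval s = rsC4 (m * s) c4 c6 := by
    intro s
    have := irr_map_rsC4 (Polynomial.evalRingHom s) (C m * X) (C c4) (C c6)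
    simpa [hC4] using this
  have e6 : ∀ s : ℤ, C6.eval s = rsC6 (m * s) c4 c6 := by
    intro s
    have := irr_map_rsC6 (Polynomial.evalRingHom s) (C m * X) (C c4) (C c6)
    simpa [hC6] using this
  have q4 : C4.map (Int.castRingHom ℚ) = rsC4 (C (m : ℚ) * X) (C (c4 : ℚ)) (C (c6 : ℚ)) := by
    have := irr_map_rsC4 (Polynomial.mapRingHom (Int.castRingHom ℚ)) (C m * X) (C c4) (C c6)
    simpa [hC4] using this
  have q6 : C6.map (Int.castRingHom ℚ) = rsC6 (C (m : ℚ) * X) (C (c4 : ℚ)) (C (c6 : ℚ)) := by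
    have := irr_map_rsC6 (Polynomial.mapRingHom (Int.castRingHom ℚ)) (C m * X) (C c4) (C c6)
    simpa [hC6] using this
  have hΔ0 : (C4.eval 0) ^ 3 ≠ (C6.eval 0) ^ 2 := by
    rw [e4, e6, mul_zero, rsC4_zero, rsC6_zero]
    exact hΔ
  obtain ⟨s, hs, hno⟩ := irr_core_quartic C4 C6 hΔ0 (by
    intro p hp
    apply hgen p
    intro s
    have h1 := congrArg (Polynomial.eval s) hp
    rw [psi3Quartic_eval, q4, q6] at h1
    have a4 : (rsC4 (C (m : ℚ) * X) (C (c4 : ℚ)) (C (c6 : ℚ))).eval s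
        = rsC4 ((m : ℚ) * s) (c4 : ℚ) (c6 : ℚ) := by
      have := irr_map_rsC4 (Polynomial.evalRingHom s) (C (m : ℚ) * X) (C (c4 : ℚ)) (C (c6 : ℚ))
      simpa using this
    have a6 : (rsC6 (C (m : ℚ) * X) (C (c4 : ℚ)) (C (c6 : ℚ))).eval s
        = rsC6 ((m : ℚ) * s) (c4 : ℚ) (c6 : ℚ) := by
      have := irr_map_rsC6 (Polynomial.evalRingHom s) (C (m : ℚ) * X) (C (c4 : ℚ)) (C (c6 : ℚ))
      simpa using this
    simp only [Polynomial.eval_sub, Polynomial.eval_mul, Polynomial.eval_pow,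
      Polynomial.eval_ofNat, Polynomial.eval_zero, a4, a6] at h1
    exact h1)
  refine ⟨s, hs, fun W' hΔ' h4 h6 => irr_of_no_root W' hΔ' ?_⟩
  rw [h4, h6, ← e4, ← e6]
  exact hno

end Fermat.Agent.S52
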