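import Fermat.Agent.S52.Klein.Reflect

/-!
# S52 / ORBIT: the verified calculator of `Klein/Reflect.lean` in four variables `A, B, U, V`

Polynomials in `A, B, U, V` over `ℤ[ζ₅]` are lists of monomials `(c, i, j, k, l) ↦ c·A^i·B^j·U^k·V^l`;
identities are checked by kernel evaluation (`decide +kernel`) of `k4check`.
-/

set_option autoImplicit false

namespace Fermat.Agent.S52

/-- polynomials in `A, B, U, V` over `ℤ[ζ]`. -/
abbrev K4Poly := List (KZ × ℕ × ℕ × ℕ × ℕ)

variable {R : Type*} [CommRing R]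

/-- evaluation. -/
def k4ev (ζ A B U V : R) : K4Poly → R
  | [] => 0
  | m :: p => m.1.ev ζ * A ^ m.2.1 * B ^ m.2.2.1 * U ^ m.2.2.2.1 * V ^ m.2.2.2.2 +
      k4ev ζ A B U V p

/-- insert a monomial, merging equal exponents. -/
def k4insert (c : KZ) (i j k l : ℕ) : K4Poly → K4Poly
  | [] => [(c, i, j, k, l)]
  | m :: p =>
    cond (Nat.beq i m.2.1 && (Nat.beq j m.2.2.1 && (Nat.beq k m.2.2.2.1 && Nat.beq l m.2.2.2.2)))
      ((c.add m.1, i, j, k, l) :: p) (m :: k4insert c i j k l p)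

/-- sum. -/
def k4add : K4Poly → K4Poly → K4Poly
  | [], q => q
  | m :: p, q => k4insert m.1 m.2.1 m.2.2.1 m.2.2.2.1 m.2.2.2.2 (k4add p q)

/-- negation. -/
def k4neg : K4Poly → K4Poly
  | [] => []
  | m :: p => (m.1.neg, m.2) :: k4neg p

/-- product by a monomial. -/
def k4mulMon (c : KZ) (i j k l : ℕ) : K4Poly → K4Poly
  | [] => []
  | m :: p => (c.mul m.1, i + m.2.1, j + m.2.2.1, k + m.2.2.2.1, l + m.2.2.2.2) ::
      k4mulMon c i j k l p

/-- product. -/
def k4mul : K4Poly → K4Poly → K4Poly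
  | [], _ => []
  | m :: p, q => k4add (k4mulMon m.1 m.2.1 m.2.2.1 m.2.2.2.1 m.2.2.2.2 q) (k4mul p q)

/-- power. -/
def k4pow (p : K4Poly) : ℕ → K4Poly
  | 0 => [(KZ.ofInt 1, 0, 0, 0, 0)]
  | n + 1 => k4mul p (k4pow p n)

/-- drop the monomials with zero coefficient. -/
def k4clean : K4Poly → K4Poly
  | [] => []
  | m :: p => cond m.1.isZero (k4clean p) (m :: k4clean p)

/-- all coefficients vanish. -/
def k4allZero : K4Poly → Bool
  | [] => true
  | m :: p => m.1.isZero && k4allZero p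

/-- equality test. -/
def k4check (p q : K4Poly) : Bool := k4allZero (k4add p (k4neg q))

theorem k4ev_insert (ζ A B U V : R) (c : KZ) (i j k l : ℕ) (p : K4Poly) :
    k4ev ζ A B U V (k4insert c i j k l p) =
      c.ev ζ * A ^ i * B ^ j * U ^ k * V ^ l + k4ev ζ A B U V p := by
  induction p with
  | nil => simp [k4insert, k4ev]
  | cons m p ih =>
    unfold k4insert
    cases h1 : (Nat.beq i m.2.1 && (Nat.beq j m.2.2.1 && (Nat.beq k m.2.2.2.1 &&
        Nat.beq l m.2.2.2.2)))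
    · simp only [cond_false, k4ev, ih]; ring
    · simp only [Bool.and_eq_true] at h1
      obtain ⟨hi, hj, hk, hl⟩ := h1
      have hi' := Nat.eq_of_beq_eq_true hi
      have hj' := Nat.eq_of_beq_eq_true hj
      have hk' := Nat.eq_of_beq_eq_true hk
      have hl' := Nat.eq_of_beq_eq_true hl
      simp only [cond_true, k4ev, KZ.ev_add, ← hi', ← hj', ← hk', ← hl']; ring

theorem k4ev_add (ζ A B U V : R) (p q : K4Poly) :
    k4ev ζ A B U V (k4add p q) = k4ev ζ A B U V p + k4ev ζ A B U V q := by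
  induction p with
  | nil => simp [k4add, k4ev]
  | cons m p ih => simp only [k4add, k4ev_insert, ih, k4ev]; ring

theorem k4ev_neg (ζ A B U V : R) (p : K4Poly) :
    k4ev ζ A B U V (k4neg p) = -k4ev ζ A B U V p := by
  induction p with
  | nil => simp [k4neg, k4ev]
  | cons m p ih => simp only [k4neg, k4ev, ih, KZ.ev_neg]; ring

theorem k4ev_mulMon {ζ : R} (hζ : 1 + ζ + ζ ^ 2 + ζ ^ 3 + ζ ^ 4 = 0) (A B U V : R) (c : KZ)
    (i j k l : ℕ) (p : K4Poly) :
    k4ev ζ A B U V (k4mulMon c i j k l p) =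
      c.ev ζ * A ^ i * B ^ j * U ^ k * V ^ l * k4ev ζ A B U V p := by
  induction p with
  | nil => simp [k4mulMon, k4ev]
  | cons m p ih => simp only [k4mulMon, k4ev, ih, KZ.ev_mul hζ]; ring

theorem k4ev_mul {ζ : R} (hζ : 1 + ζ + ζ ^ 2 + ζ ^ 3 + ζ ^ 4 = 0) (A B U V : R)
    (p q : K4Poly) :
    k4ev ζ A B U V (k4mul p q) = k4ev ζ A B U V p * k4ev ζ A B U V q := by
  induction p with
  | nil => simp [k4mul, k4ev]
  | cons m p ih => simp only [k4mul, k4ev_add, k4ev_mulMon hζ, ih, k4ev]; ring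

theorem k4ev_pow {ζ : R} (hζ : 1 + ζ + ζ ^ 2 + ζ ^ 3 + ζ ^ 4 = 0) (A B U V : R) (p : K4Poly)
    (n : ℕ) : k4ev ζ A B U V (k4pow p n) = k4ev ζ A B U V p ^ n := by
  induction n with
  | zero => simp [k4pow, k4ev]
  | succ n ih => simp only [k4pow, k4ev_mul hζ, ih]; ring

theorem k4ev_clean (ζ A B U V : R) (p : K4Poly) :
    k4ev ζ A B U V (k4clean p) = k4ev ζ A B U V p := by
  induction p with
  | nil => rfl
  | cons m p ih =>
    unfold k4clean
    cases h : m.1.isZero
    · simp only [cond_false, k4ev, ih]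
    · simp only [cond_true, k4ev, ih, KZ.ev_eq_zero_of_isZero ζ m.1 h]; ring

theorem k4ev_eq_zero_of_allZero (ζ A B U V : R) (p : K4Poly) (h : k4allZero p = true) :
    k4ev ζ A B U V p = 0 := by
  induction p with
  | nil => simp [k4ev]
  | cons m p ih =>
    simp only [k4allZero, Bool.and_eq_true] at h
    simp [k4ev, KZ.ev_eq_zero_of_isZero ζ m.1 h.1, ih h.2]

theorem k4check_sound (ζ A B U V : R) (p q : K4Poly) (h : k4check p q = true) :
    k4ev ζ A B U V p = k4ev ζ A B U V q := by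
  have := k4ev_eq_zero_of_allZero ζ A B U V _ h
  rw [k4ev_add, k4ev_neg] at this
  linear_combination this

end Fermat.Agent.S52
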