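import Fermat.Agent.S52.Orbit4

/-!
# S52 / ORBIT: the data of the factorization `O-fact` and its kernel check

`5¹³·(E₄(U,V)³·E₆(a,b)² − E₄(a,b)³·E₆(U,V)²)` (`a = A⁵`, `b = B⁵`) is `1728·√5` times the product
of the twelve linear forms in `(U, V)` attached to the cosets of `⟨S⟩` in the icosahedral group.
Here: both sides as terms of the calculator of `Orbit4.lean`, and the check by kernel evaluation.
-/

set_option autoImplicit false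

namespace Fermat.Agent.S52

/-! ### the data -/

/-- integer constant. -/
def o4c (n : ℤ) : K4Poly := [(KZ.ofInt n, 0, 0, 0, 0)]

/-- constant of `ℤ[ζ]`. -/
def o4z (c : KZ) : K4Poly := [(c, 0, 0, 0, 0)]

/-- the variable `U`. -/
def o4U : K4Poly := [(KZ.ofInt 1, 0, 0, 1, 0)]

/-- the variable `V`. -/
def o4V : K4Poly := [(KZ.ofInt 1, 0, 0, 0, 1)]

/-- `A ^ 5`. -/
def o4a : K4Poly := [(KZ.ofInt 1, 5, 0, 0, 0)]

/-- `B ^ 5`. -/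
def o4b : K4Poly := [(KZ.ofInt 1, 0, 5, 0, 0)]

/-- the linear form `c·A + d·B`. -/
def o4lin (c d : KZ) : K4Poly := [(c, 1, 0, 0, 0), (d, 0, 1, 0, 0)]

/-- `kE4 x y`. -/
def o4E4 (x y : K4Poly) : K4Poly :=
  k4add (k4pow y 4) (k4add (k4mul (o4c 228) (k4mul x (k4pow y 3)))
    (k4add (k4mul (o4c 494) (k4mul (k4pow x 2) (k4pow y 2)))
      (k4add (k4mul (o4c (-228)) (k4mul (k4pow x 3) y)) (k4pow x 4))))

/-- `kE6 x y`. -/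
def o4E6 (x y : K4Poly) : K4Poly :=
  k4add (k4pow y 6) (k4add (k4mul (o4c (-522)) (k4mul x (k4pow y 5)))
    (k4add (k4mul (o4c (-10005)) (k4mul (k4pow x 2) (k4pow y 4)))
      (k4add (k4mul (o4c (-10005)) (k4mul (k4pow x 4) (k4pow y 2)))
        (k4add (k4mul (o4c 522) (k4mul (k4pow x 5) y)) (k4pow x 6)))))

/-- `ζ ^ j` for `j < 5` (reduced). -/
def o4zeta : ℕ → KZ
  | 0 => ⟨1, 0, 0, 0⟩
  | 1 => ⟨0, 1, 0, 0⟩
  | 2 => ⟨0, 0, 1, 0⟩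
  | 3 => ⟨0, 0, 0, 1⟩
  | _ => ⟨-1, -1, -1, -1⟩

/-- coefficient `-(ζ - ζ⁴)` of `T'`. -/
def o4cA : KZ := ⟨-1, -2, -1, -1⟩

/-- coefficient `ζ² - ζ³` of `T'`. -/
def o4cB : KZ := ⟨0, 0, 1, -1⟩

/-- coefficient `ζ - ζ⁴` of `T'`. -/
def o4cD : KZ := ⟨1, 2, 1, 1⟩

/-- `√5`. -/
def o4s5 : KZ := ⟨-1, 0, -2, -2⟩

/-- `kTA' ζ (ζ^j * A) B`. -/
def o4TA (j : ℕ) : K4Poly := o4lin (o4cA.mul (o4zeta j)) o4cB

/-- `kTB' ζ (ζ^j * A) B`. -/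
def o4TB (j : ℕ) : K4Poly := o4lin (o4cB.mul (o4zeta j)) o4cD

/-- `kTA' ζ (ζ^j * B) (-A)`. -/
def o4TAJ (j : ℕ) : K4Poly := o4lin o4cB.neg (o4cA.mul (o4zeta j))

/-- `kTB' ζ (ζ^j * B) (-A)`. -/
def o4TBJ (j : ℕ) : K4Poly := o4lin o4cD.neg (o4cB.mul (o4zeta j))

/-- the linear factor `tb ^ 5 * U - ta ^ 5 * V`. -/
def o4fac (ta tb : K4Poly) : K4Poly :=
  k4add (k4mul (k4pow tb 5) o4U) (k4neg (k4mul (k4pow ta 5) o4V))

/-- the product of the five factors `T' S^j`. -/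
def o4Q5 : K4Poly :=
  k4clean (k4mul (k4mul (k4mul (k4mul (o4fac (o4TA 0) (o4TB 0)) (o4fac (o4TA 1) (o4TB 1)))
    (o4fac (o4TA 2) (o4TB 2))) (o4fac (o4TA 3) (o4TB 3))) (o4fac (o4TA 4) (o4TB 4)))

/-- the product of the five factors `T' S^j J`. -/
def o4Q5J : K4Poly :=
  k4clean (k4mul (k4mul (k4mul (k4mul (o4fac (o4TAJ 0) (o4TBJ 0)) (o4fac (o4TAJ 1) (o4TBJ 1)))
    (o4fac (o4TAJ 2) (o4TBJ 2))) (o4fac (o4TAJ 3) (o4TBJ 3))) (o4fac (o4TAJ 4) (o4TBJ 4)))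

/-- the left-hand side of `O-fact`. -/
def o4lhs : K4Poly :=
  k4mul (o4c (5 ^ 13)) (k4add (k4mul (k4pow (o4E4 o4U o4V) 3) (k4pow (o4E6 o4a o4b) 2))
    (k4neg (k4mul (k4pow (o4E4 o4a o4b) 3) (k4pow (o4E6 o4U o4V) 2))))

/-- the right-hand side of `O-fact`. -/
def o4rhs : K4Poly :=
  k4mul (k4mul (k4mul (k4mul (k4mul (o4c 1728) (o4z o4s5))
    (k4add (k4mul o4b o4U) (k4neg (k4mul o4a o4V))))
    (k4add (k4mul o4a o4U) (k4mul o4b o4V))) o4Q5) o4Q5J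

/-- the product `∏ (A - ζ^i B)`, `i < 5`. -/
def o4roots : K4Poly :=
  k4mul (k4mul (k4mul (k4mul (o4lin (KZ.ofInt 1) (o4zeta 0).neg) (o4lin (KZ.ofInt 1) (o4zeta 1).neg))
    (o4lin (KZ.ofInt 1) (o4zeta 2).neg)) (o4lin (KZ.ofInt 1) (o4zeta 3).neg))
    (o4lin (KZ.ofInt 1) (o4zeta 4).neg)

/-- `A ^ 5 - B ^ 5`. -/
def o4diff : K4Poly := k4add o4a (k4neg o4b)

theorem o4_check_roots : k4check o4roots o4diff = true := by decide +kernel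

end Fermat.Agent.S52
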