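import Fermat.Agent.S52.RS.Coeff4_20
import Fermat.Agent.S52.RS.Coeff6_30
import Fermat.Agent.S52.RS.Coeff6_28
import Fermat.Agent.S52.RS.Coeff6_29

/-!
# S52: the Rubin–Silverberg identities `kE4_covariant`, `kE6_covariant` (low-memory proof)

Assembled from `RS/Expand*.lean` (formal expansion in `t` with `P, Q` as atoms), the power tables
`RS/Tab*.lean` and `RS/Coeff*.lean` (one `ring` per coefficient of `t^k`).
Replaces the former one-shot `ring` proofs, which needed more than 16 GB.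
-/

set_option autoImplicit false
set_option linter.unusedSimpArgs false
set_option linter.style.longLine false

namespace Fermat.Agent.S52

variable {R : Type*} [CommRing R]

/-- The Rubin–Silverberg identity for `c₄`. -/
theorem kE4_covariant (t a b : R) :
    kE4 (a * kAlpha t a b ^ 5) (b * kBeta t a b ^ 5) = rsC4 t (kE4 a b) (-(kE6 a b)) := by
  rw [kAlpha, kBeta, rs4_expand, rsC4_def]
  simp only [rs4_coeff0, rs4_coeff1, rs4_coeff2, rs4_coeff3, rs4_coeff4, rs4_coeff5, rs4_coeff6, rs4_coeff7, rs4_coeff8, rs4_coeff9, rs4_coeff10, rs4_coeff11, rs4_coeff12, rs4_coeff13, rs4_coeff14, rs4_coeff15, rs4_coeff16, rs4_coeff17, rs4_coeff18, rs4_coeff19, rs4_coeff20]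

/-- The Rubin–Silverberg identity for `c₆`. -/
theorem kE6_covariant (t a b : R) :
    -(kE6 (a * kAlpha t a b ^ 5) (b * kBeta t a b ^ 5)) = rsC6 t (kE4 a b) (-(kE6 a b)) := by
  rw [kAlpha, kBeta, rs6_expand, rsC6_def]
  simp only [rs6_coeff0, rs6_coeff1, rs6_coeff2, rs6_coeff3, rs6_coeff4, rs6_coeff5, rs6_coeff6, rs6_coeff7, rs6_coeff8, rs6_coeff9, rs6_coeff10, rs6_coeff11, rs6_coeff12, rs6_coeff13, rs6_coeff14, rs6_coeff15, rs6_coeff16, rs6_coeff17, rs6_coeff18, rs6_coeff19, rs6_coeff20, rs6_coeff21, rs6_coeff22, rs6_coeff23, rs6_coeff24, rs6_coeff25, rs6_coeff26, rs6_coeff27, rs6_coeff28, rs6_coeff29, rs6_coeff30]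

end Fermat.Agent.S52
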