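import Mathlib

/-!
# S52 piece TR (abstract transfer of the trace congruence)

`V = ZMod 5 × ZMod 5`.  Two groups `E`, `E'` with self-maps `φ`, `φ'` (Frobenius), injective
homomorphisms `j : V →+ E`, `j' : V →+ E'` (5-torsion points given by Klein's forms) and ONE map
`h : V → V` describing both actions (`φ ∘ j = j ∘ h`, `φ' ∘ j' = j' ∘ h`).
If `φ² − t φ + ℓ = 0` on `j V` and `φ'² − t' φ' + ℓ = 0` on `j' V` and `5 ∤ ℓ`, then `5 ∣ t − t'`.
No additivity of `φ`, `φ'`, `h` is needed.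
-/

set_option autoImplicit false

namespace Fermat.Agent.S52

/-- an integer prime to `5` acts injectively on `ZMod 5 × ZMod 5`. -/
theorem tr_zsmul_eq_zero (n : ℤ) (x : ZMod 5 × ZMod 5) (hn : ¬ (5 : ℤ) ∣ n) (hx : n • x = 0) :
    x = 0 := by
  haveI : Fact (Nat.Prime 5) := ⟨by norm_num⟩
  have hn' : ((n : ℤ) : ZMod 5) ≠ 0 := by
    intro h0
    exact hn ((ZMod.intCast_zmod_eq_zero_iff_dvd n 5).1 h0)
  have h1 : n • x.1 = 0 := by
    have := congrArg Prod.fst hx
    simpa using this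
  have h2 : n • x.2 = 0 := by
    have := congrArg Prod.snd hx
    simpa using this
  rw [zsmul_eq_mul] at h1 h2
  have e1 : x.1 = 0 := (mul_eq_zero.1 h1).resolve_left hn'
  have e2 : x.2 = 0 := (mul_eq_zero.1 h2).resolve_left hn'
  exact Prod.ext e1 e2

/-- **TR, core form**: relations only on the image of `j`, `j'`; `φ`, `φ'`, `h` plain maps. -/
theorem transfer_core {E E' : Type*} [AddCommGroup E] [AddCommGroup E']
    (φ : E → E) (φ' : E' → E')
    (j : ZMod 5 × ZMod 5 →+ E) (j' : ZMod 5 × ZMod 5 →+ E')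
    (hj : Function.Injective j) (hj' : Function.Injective j')
    (h : ZMod 5 × ZMod 5 → ZMod 5 × ZMod 5)
    (hφ : ∀ v, φ (j v) = j (h v)) (hφ' : ∀ v, φ' (j' v) = j' (h v))
    (t t' ℓ : ℤ)
    (hrel : ∀ v, φ (φ (j v)) - t • φ (j v) + ℓ • j v = 0)
    (hrel' : ∀ v, φ' (φ' (j' v)) - t' • φ' (j' v) + ℓ • j' v = 0)
    (hℓ : ¬ (5 : ℤ) ∣ ℓ) : (5 : ℤ) ∣ t - t' := by
  by_contra hdiv
  have key : ∀ v, h (h v) - t • h v + ℓ • v = 0 := by
    intro v
    apply hj
    have := hrel v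
    rw [hφ, hφ] at this
    rw [map_add, map_sub, map_zsmul, map_zsmul, map_zero]
    exact this
  have key' : ∀ v, h (h v) - t' • h v + ℓ • v = 0 := by
    intro v
    apply hj'
    have := hrel' v
    rw [hφ', hφ'] at this
    rw [map_add, map_sub, map_zsmul, map_zsmul, map_zero]
    exact this
  have hsub : ∀ v, (t - t') • h v = 0 := by
    intro v
    have h1 := key v
    have h2 := key' v
    have : (t - t') • h v = (h (h v) - t' • h v + ℓ • v) - (h (h v) - t • h v + ℓ • v) := by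
      rw [sub_smul]; abel
    rw [this, h1, h2, sub_zero]
  have hzero : ∀ v, h v = 0 := fun v => tr_zsmul_eq_zero _ _ hdiv (hsub v)
  have hl : ∀ v : ZMod 5 × ZMod 5, ℓ • v = 0 := by
    intro v
    have h1 := key v
    rw [hzero (h v), hzero v] at h1
    simpa using h1
  have h10 : ((1, 0) : ZMod 5 × ZMod 5) = 0 := tr_zsmul_eq_zero ℓ _ hℓ (hl _)
  have : (1 : ZMod 5) = 0 := congrArg Prod.fst h10
  exact absurd this (by decide)

/-- **TR** as stated in NOTES/S52-route.md: `φ`, `φ'` endomorphisms satisfying the quadratic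
relations everywhere. -/
theorem transfer_trace_cong {E E' : Type*} [AddCommGroup E] [AddCommGroup E']
    (φ : E →+ E) (φ' : E' →+ E')
    (j : ZMod 5 × ZMod 5 →+ E) (j' : ZMod 5 × ZMod 5 →+ E')
    (hj : Function.Injective j) (hj' : Function.Injective j')
    (h : ZMod 5 × ZMod 5 → ZMod 5 × ZMod 5)
    (hφ : ∀ v, φ (j v) = j (h v)) (hφ' : ∀ v, φ' (j' v) = j' (h v))
    (t t' ℓ : ℤ)
    (hrel : ∀ P : E, φ (φ P) - t • φ P + ℓ • P = 0)
    (hrel' : ∀ P : E', φ' (φ' P) - t' • φ' P + ℓ • P = 0)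
    (hℓ : ¬ (5 : ℤ) ∣ ℓ) : (5 : ℤ) ∣ t - t' :=
  transfer_core φ φ' j j' hj hj' h hφ hφ' t t' ℓ (fun v => hrel (j v)) (fun v => hrel' (j' v)) hℓ

end Fermat.Agent.S52
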